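/-
Programme DS (S48), brick DS-EIS1 (weight one Eisenstein series), file 1.
Elementary facts about `π cot(π w)`, the function `x/(1-x)` and `e^{2π i w}`.
-/
import Mathlib.NumberTheory.ModularForms.EisensteinSeries.E2.Transform
import Mathlib.Analysis.SpecialFunctions.Trigonometric.Cotangent

set_option autoImplicit false

namespace Fermat.Agent.DS.Eis1.CotG

open Complex

noncomputable section

/-- `π cot(π w)`. -/
def cotPi (w : ℂ) : ℂ := Real.pi * Complex.cot (Real.pi * w)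

/-- `x / (1 - x)`. -/
def gq (x : ℂ) : ℂ := x / (1 - x)

/-- `e^{2 π i w}`. -/
def eN (w : ℂ) : ℂ := cexp (2 * Real.pi * I * w)

lemma eN_ne_zero (w : ℂ) : eN w ≠ 0 := exp_ne_zero _

lemma eN_add (a b : ℂ) : eN (a + b) = eN a * eN b := by
  simp only [eN, mul_add, Complex.exp_add]

lemma eN_neg (a : ℂ) : eN (-a) = (eN a)⁻¹ := by
  simp only [eN, mul_neg, Complex.exp_neg]

lemma eN_sub (a b : ℂ) : eN (a - b) = eN a * (eN b)⁻¹ := by
  rw [sub_eq_add_neg, eN_add, eN_neg]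

lemma eN_zero : eN 0 = 1 := by simp [eN]

lemma eN_intCast (n : ℤ) : eN (n : ℂ) = 1 := by
  rw [eN, Complex.exp_eq_one_iff]
  exact ⟨n, by ring⟩

lemma eN_natCast (n : ℕ) : eN (n : ℂ) = 1 := by
  simpa using eN_intCast (n : ℤ)

lemma eN_eq_one_iff (w : ℂ) : eN w = 1 ↔ ∃ n : ℤ, w = n := by
  rw [eN, Complex.exp_eq_one_iff]
  have h2 : (2 * (Real.pi : ℂ) * I) ≠ 0 := by
    simp [Real.pi_ne_zero]
  constructor
  · rintro ⟨n, hn⟩
    refine ⟨n, ?_⟩
    have : (2 * (Real.pi : ℂ) * I) * w = (2 * (Real.pi : ℂ) * I) * n := by rw [hn]; ring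
    exact mul_left_cancel₀ h2 this
  · rintro ⟨n, rfl⟩
    exact ⟨n, by ring⟩

lemma eN_ne_one_iff (w : ℂ) : eN w ≠ 1 ↔ w ∈ Complex.integerComplement := by
  rw [Ne, eN_eq_one_iff, Complex.integerComplement, Set.mem_compl_iff, Set.mem_range]
  constructor
  · rintro h ⟨n, hn⟩
    exact h ⟨n, hn.symm⟩
  · rintro h ⟨n, hn⟩
    exact h ⟨n, hn.symm⟩

lemma eN_mul_nat (w : ℂ) (k : ℕ) : eN (k * w) = eN w ^ k := by
  rw [eN, eN, ← Complex.exp_nat_mul]
  congr 1
  ring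

lemma norm_eN (w : ℂ) : ‖eN w‖ = Real.exp (-2 * Real.pi * w.im) := by
  rw [eN, Complex.norm_exp]
  congr 1
  simp [Complex.mul_re, Complex.mul_im]

lemma norm_eN_lt_one {w : ℂ} (hw : 0 < w.im) : ‖eN w‖ < 1 := by
  rw [norm_eN, Real.exp_lt_one_iff]
  nlinarith [Real.pi_pos]

lemma cotPi_neg (w : ℂ) : cotPi (-w) = -cotPi w := by
  simp only [cotPi, mul_neg, Complex.cot, Complex.cos_neg, Complex.sin_neg, div_neg]

lemma cotPi_eq_gq {w : ℂ} (hw : eN w ≠ 1) :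
    cotPi w = -(Real.pi * I) - 2 * Real.pi * I * gq (eN w) := by
  have h1 : (1 : ℂ) - eN w ≠ 0 := fun h => hw (by rw [← sub_eq_zero, ← neg_eq_zero, neg_sub]; exact h)
  rw [cotPi, Complex.cot_pi_eq_exp_ratio, gq]
  change (Real.pi : ℂ) * ((eN w + 1) / (I * (1 - eN w))) = _
  field_simp
  ring_nf
  simp only [I_sq]
  ring

lemma gq_add_gq_inv {u : ℂ} (hu0 : u ≠ 0) (hu1 : u ≠ 1) : gq u + gq u⁻¹ = -1 := by
  have h1 : (1 : ℂ) - u ≠ 0 := fun h => hu1 (by rw [← sub_eq_zero, ← neg_eq_zero, neg_sub]; exact h)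
  have h2 : u - 1 ≠ 0 := sub_ne_zero.mpr hu1
  have h3 : (1 : ℂ) - u⁻¹ = (u - 1) / u := by field_simp
  rw [gq, gq, h3]
  field_simp
  ring

lemma norm_gq_le {x : ℂ} (hx : ‖x‖ ≤ 1 / 2) : ‖gq x‖ ≤ 2 * ‖x‖ := by
  have h1 : (1 : ℝ) / 2 ≤ ‖(1 : ℂ) - x‖ := by
    have := norm_sub_norm_le (1 : ℂ) x
    rw [norm_one] at this
    linarith
  rw [gq, norm_div, div_le_iff₀ (by linarith)]
  nlinarith [norm_nonneg x]

lemma hasSum_gq {x : ℂ} (hx : ‖x‖ < 1) : HasSum (fun k : ℕ => x ^ (k + 1)) (gq x) := by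
  have h := (hasSum_geometric_of_norm_lt_one hx).mul_left x
  rw [gq, div_eq_mul_inv]
  have e : (fun k : ℕ => x ^ (k + 1)) = fun i => x * x ^ i := by
    funext k
    rw [pow_succ']
  rw [e]
  exact h

lemma summable_gq_pow {x : ℂ} (hx : ‖x‖ < 1) : Summable (fun k : ℕ => x ^ (k + 1)) :=
  (hasSum_gq hx).summable

/-- Mittag-Leffler expansion of `π cot(π w)` as a `HasSum`. -/
lemma hasSum_cotPi {w : ℂ} (hw : w ∈ Complex.integerComplement) :
    HasSum (fun n : ℕ => (w - (n + 1))⁻¹ + (w + (n + 1))⁻¹) (cotPi w - w⁻¹) := by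
  have h1 := cot_series_rep' hw
  have h2 := summable_cotTerm hw
  simp only [cotTerm, one_div] at h2
  simp only [one_div] at h1
  rw [cotPi, h1]
  exact h2.hasSum

lemma cotPi_add_one (w : ℂ) : cotPi (w + 1) = cotPi w := by
  simp only [cotPi, mul_add, mul_one, Complex.cot, Complex.cos_add_pi, Complex.sin_add_pi,
    neg_div_neg_eq]

lemma cotPi_add_nat (w : ℂ) (n : ℕ) : cotPi (w + n) = cotPi w := by
  induction n with
  | zero => simp
  | succ n ih => rw [Nat.cast_succ, ← add_assoc, cotPi_add_one, ih]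

lemma cotPi_sub_one (w : ℂ) : cotPi (w - 1) = cotPi w := by
  rw [← cotPi_add_one (w - 1), sub_add_cancel]

lemma cotPi_add_int (w : ℂ) (n : ℤ) : cotPi (w + n) = cotPi w := by
  induction n using Int.induction_on with
  | zero => simp
  | succ n ih => rw [Int.cast_add, Int.cast_one, ← add_assoc, cotPi_add_one, ih]
  | pred n ih => rw [Int.cast_sub, Int.cast_one, ← add_sub_assoc, cotPi_sub_one, ih]

end

end Fermat.Agent.DS.Eis1.CotG
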