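/-
Programme DS (S48), brick DS-EIS1 (weight one Eisenstein series), file 2.
The function `φ(z;τ) = π cot πz + Σ_{m≥1} [π cot π(z+mτ) + π cot π(z-mτ)]`, written as
`π cot πz - 2πi Σ_{m≥1} [g(u q^m) - g(u⁻¹ q^m)]` with `g(x) = x/(1-x)`, `u = e^{2πiz}`,
`q = e^{2πiτ}`; periodicity `φ(z+1) = φ(z)` and quasi-periodicity `φ(z+τ) = φ(z) - 2πi`.
-/
import Fermat.Agent.DS.Eis1.CotG

set_option autoImplicit false

namespace Fermat.Agent.DS.Eis1.Phi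

open UpperHalfPlane hiding I
open Complex Filter Topology
open Fermat.Agent.DS.Eis1.CotG

noncomputable section

/-- `q = e^{2πiτ}`. -/
def qq (τ : ℍ) : ℂ := eN (τ : ℂ)

lemma norm_qq_lt_one (τ : ℍ) : ‖qq τ‖ < 1 := norm_eN_lt_one τ.im_pos

lemma qq_ne_zero (τ : ℍ) : qq τ ≠ 0 := eN_ne_zero _

/-- `z` is not a point of the lattice `ℤτ + ℤ`. -/
def OffLat (τ : ℍ) (z : ℂ) : Prop := ∀ m n : ℤ, z ≠ m * (τ : ℂ) + n

lemma OffLat.add_int {τ : ℍ} {z : ℂ} (h : OffLat τ z) (k : ℤ) : OffLat τ (z + k) := by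
  intro m n e
  refine h m (n - k) ?_
  push_cast
  linear_combination e

lemma OffLat.add_int_mul {τ : ℍ} {z : ℂ} (h : OffLat τ z) (k : ℤ) :
    OffLat τ (z + k * (τ : ℂ)) := by
  intro m n e
  refine h (m - k) n ?_
  push_cast
  linear_combination e

lemma OffLat.neg {τ : ℍ} {z : ℂ} (h : OffLat τ z) : OffLat τ (-z) := by
  intro m n e
  refine h (-m) (-n) ?_
  push_cast
  linear_combination -e

lemma OffLat.eN_mul_ne_one {τ : ℍ} {z : ℂ} (h : OffLat τ z) (m : ℕ) :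
    eN z * qq τ ^ m ≠ 1 := by
  intro e
  rw [qq, ← eN_mul_nat, ← eN_add, eN_eq_one_iff] at e
  obtain ⟨n, hn⟩ := e
  refine h (-(m : ℤ)) n ?_
  push_cast
  linear_combination hn

lemma OffLat.eN_inv_mul_ne_one {τ : ℍ} {z : ℂ} (h : OffLat τ z) (m : ℕ) :
    (eN z)⁻¹ * qq τ ^ m ≠ 1 := by
  rw [← eN_neg]
  exact h.neg.eN_mul_ne_one m

lemma OffLat.eN_ne_one {τ : ℍ} {z : ℂ} (h : OffLat τ z) : eN z ≠ 1 := by
  simpa using h.eN_mul_ne_one 0

/-- For `‖q‖ < 1` the series `Σ_m g(u q^(m+1))` converges absolutely. -/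
lemma summable_gq_mul_pow (u : ℂ) {q : ℂ} (hq : ‖q‖ < 1) :
    Summable (fun m : ℕ => gq (u * q ^ (m + 1))) := by
  have hg : Summable (fun m : ℕ => 2 * (‖u‖ * ‖q‖ ^ (m + 1))) := by
    have h0 : Summable (fun m : ℕ => ‖q‖ ^ m) :=
      summable_geometric_of_lt_one (norm_nonneg _) hq
    have h1 : Summable (fun m : ℕ => ‖q‖ ^ (m + 1)) := (summable_nat_add_iff 1).mpr h0
    exact (h1.mul_left ‖u‖).mul_left 2
  have ht : Tendsto (fun m : ℕ => ‖u‖ * ‖q‖ ^ (m + 1)) atTop (𝓝 0) := by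
    have := hg.tendsto_atTop_zero
    have h2 : Tendsto (fun m : ℕ => (1 / 2 : ℝ) * (2 * (‖u‖ * ‖q‖ ^ (m + 1)))) atTop
        (𝓝 ((1 / 2 : ℝ) * 0)) := this.const_mul _
    simpa using h2
  have hev : ∀ᶠ m : ℕ in atTop, ‖u‖ * ‖q‖ ^ (m + 1) ≤ 1 / 2 :=
    ht.eventually (Iic_mem_nhds (by norm_num))
  refine Summable.of_norm_bounded_eventually_nat hg ?_
  filter_upwards [hev] with m hm
  have : ‖u * q ^ (m + 1)‖ = ‖u‖ * ‖q‖ ^ (m + 1) := by rw [norm_mul, norm_pow]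
  calc ‖gq (u * q ^ (m + 1))‖ ≤ 2 * ‖u * q ^ (m + 1)‖ := norm_gq_le (by rw [this]; exact hm)
    _ = 2 * (‖u‖ * ‖q‖ ^ (m + 1)) := by rw [this]

/-- `A(u) = Σ_{m ≥ 1} g(u q^m)`. -/
def gsum (q u : ℂ) : ℂ := ∑' m : ℕ, gq (u * q ^ (m + 1))

lemma gsum_shift {q : ℂ} (hq : ‖q‖ < 1) (u : ℂ) :
    gsum q u = gq (u * q) + gsum q (u * q) := by
  have hs := summable_gq_mul_pow u hq
  rw [gsum, hs.tsum_eq_zero_add, gsum]
  congr 1
  · simp
  · refine tsum_congr fun m => ?_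
    congr 1
    ring

/-- The `m`-th term of `φ`. -/
def phiTerm (z : ℂ) (τ : ℍ) (m : ℕ) : ℂ :=
  gq (eN z * qq τ ^ (m + 1)) - gq ((eN z)⁻¹ * qq τ ^ (m + 1))

lemma summable_phiTerm (z : ℂ) (τ : ℍ) : Summable (phiTerm z τ) :=
  (summable_gq_mul_pow _ (norm_qq_lt_one τ)).sub (summable_gq_mul_pow _ (norm_qq_lt_one τ))

/-- `φ(z;τ)`. -/
def phi (z : ℂ) (τ : ℍ) : ℂ := cotPi z - 2 * Real.pi * I * ∑' m : ℕ, phiTerm z τ m

lemma phi_eq_gsum (z : ℂ) (τ : ℍ) :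
    phi z τ = cotPi z - 2 * Real.pi * I * (gsum (qq τ) (eN z) - gsum (qq τ) (eN z)⁻¹) := by
  rw [phi, gsum, gsum, ← (summable_gq_mul_pow _ (norm_qq_lt_one τ)).tsum_sub
    (summable_gq_mul_pow _ (norm_qq_lt_one τ))]
  rfl

lemma phi_add_one (z : ℂ) (τ : ℍ) : phi (z + 1) τ = phi z τ := by
  have h : eN (z + 1) = eN z := by
    rw [eN_add]
    have := eN_natCast 1
    simp only [Nat.cast_one] at this
    rw [this, mul_one]
  simp only [phi, phiTerm, cotPi_add_one, h]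

lemma phi_add_int (z : ℂ) (τ : ℍ) (n : ℤ) : phi (z + n) τ = phi z τ := by
  have h : eN (z + n) = eN z := by rw [eN_add, eN_intCast, mul_one]
  simp only [phi, phiTerm, cotPi_add_int, h]

lemma phi_neg (z : ℂ) (τ : ℍ) : phi (-z) τ = -phi z τ := by
  rw [phi_eq_gsum, phi_eq_gsum, cotPi_neg, eN_neg, inv_inv]
  ring

/-- Quasi-periodicity in the `τ` direction. -/
lemma phi_add_tau {z : ℂ} {τ : ℍ} (h : OffLat τ z) :
    phi (z + (τ : ℂ)) τ = phi z τ - 2 * Real.pi * I := by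
  have hq := norm_qq_lt_one τ
  have hu1 : eN z ≠ 1 := h.eN_ne_one
  have hu0 : eN z ≠ 0 := eN_ne_zero z
  have huq : eN (z + (τ : ℂ)) ≠ 1 := by
    have := h.eN_mul_ne_one 1
    rwa [pow_one, qq, ← eN_add] at this
  have e1 : eN (z + (τ : ℂ)) = eN z * qq τ := by rw [eN_add, qq]
  rw [phi_eq_gsum, phi_eq_gsum, cotPi_eq_gq huq, cotPi_eq_gq hu1, e1]
  have s1 := gsum_shift hq (eN z)
  have s2 := gsum_shift hq (eN z * qq τ)⁻¹
  have e2 : (eN z * qq τ)⁻¹ * qq τ = (eN z)⁻¹ := by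
    field_simp [qq_ne_zero τ]
  rw [e2] at s2
  have s3 := gq_add_gq_inv hu0 hu1
  rw [s1, s2]
  linear_combination (2 * Real.pi * I) * s3

lemma phi_sub_tau {z : ℂ} {τ : ℍ} (h : OffLat τ z) :
    phi (z - (τ : ℂ)) τ = phi z τ + 2 * Real.pi * I := by
  have h' : OffLat τ (z - (τ : ℂ)) := by
    have := h.add_int_mul (-1)
    simpa [sub_eq_add_neg] using this
  have := phi_add_tau h'
  rw [sub_add_cancel] at this
  rw [this]
  ring

lemma phi_add_nat_mul_tau {z : ℂ} {τ : ℍ} (h : OffLat τ z) (k : ℕ) :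
    phi (z + k * (τ : ℂ)) τ = phi z τ - 2 * Real.pi * I * k := by
  induction k with
  | zero => simp
  | succ k ih =>
    have h' : OffLat τ (z + k * (τ : ℂ)) := by simpa using h.add_int_mul (k : ℤ)
    have := phi_add_tau h'
    rw [Nat.cast_succ, add_mul, one_mul, ← add_assoc, this, ih]
    ring

lemma phi_add_int_mul_tau {z : ℂ} {τ : ℍ} (h : OffLat τ z) (k : ℤ) :
    phi (z + k * (τ : ℂ)) τ = phi z τ - 2 * Real.pi * I * k := by
  obtain ⟨n, rfl | rfl⟩ := k.eq_nat_or_neg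
  · simpa using phi_add_nat_mul_tau h n
  · have h' : OffLat τ (z + ((-(n : ℤ) : ℤ) : ℂ) * (τ : ℂ)) := h.add_int_mul _
    have := phi_add_nat_mul_tau h' n
    have e : z + ((-(n : ℤ) : ℤ) : ℂ) * (τ : ℂ) + n * (τ : ℂ) = z := by
      push_cast
      ring
    rw [e] at this
    rw [this]
    push_cast
    ring

/-- The terms of `φ` in terms of cotangents. -/
lemma cotPi_add_cotPi_sub {z : ℂ} {τ : ℍ} (h : OffLat τ z) (m : ℕ) :
    cotPi (z + (m + 1) * (τ : ℂ)) + cotPi (z - (m + 1) * (τ : ℂ)) =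
      -(2 * Real.pi * I) * phiTerm z τ m := by
  have e1 : eN (z + (m + 1) * (τ : ℂ)) = eN z * qq τ ^ (m + 1) := by
    rw [eN_add, qq, ← eN_mul_nat]
    push_cast
    rfl
  have e2 : eN (-(z - (m + 1) * (τ : ℂ))) = (eN z)⁻¹ * qq τ ^ (m + 1) := by
    rw [neg_sub, eN_sub, qq, ← eN_mul_nat, mul_comm]
    push_cast
    rfl
  have h1 : eN (z + (m + 1) * (τ : ℂ)) ≠ 1 := by
    rw [e1]
    exact h.eN_mul_ne_one (m + 1)
  have h2 : eN (-(z - (m + 1) * (τ : ℂ))) ≠ 1 := by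
    rw [e2]
    exact h.eN_inv_mul_ne_one (m + 1)
  have h3 : cotPi (z - (m + 1) * (τ : ℂ)) = -cotPi (-(z - (m + 1) * (τ : ℂ))) := by
    rw [cotPi_neg, neg_neg]
  rw [h3, cotPi_eq_gq h1, cotPi_eq_gq h2, e1, e2, phiTerm]
  ring

end

end Fermat.Agent.DS.Eis1.Phi
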