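/-
Programme DS (S48), brick DS-EIS1 (weight one Eisenstein series), file 3.
The Weierstrass zeta function of the lattice `ℤτ + ℤ` as an absolutely convergent sum over
`Fin 2 → ℤ`, and its homogeneity under `SL(2,ℤ)`.
-/
import Fermat.Agent.DS.Eis1.Phi

set_option autoImplicit false

namespace Fermat.Agent.DS.Eis1.Zeta

open UpperHalfPlane hiding I
open Complex Filter Topology EisensteinSeries MatrixGroups Matrix

noncomputable section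

/-- The lattice point `p₀ τ + p₁`. -/
def om (τ : ℍ) (p : Fin 2 → ℤ) : ℂ := p 0 * (τ : ℂ) + p 1

/-- The summand of the Weierstrass zeta function. For `p = 0` this is `1/z` by the convention
`0⁻¹ = 0`. -/
def zterm (z : ℂ) (τ : ℍ) (p : Fin 2 → ℤ) : ℂ :=
  (z - om τ p)⁻¹ + (om τ p)⁻¹ + z * ((om τ p) ^ 2)⁻¹

/-- The Weierstrass zeta function of the lattice `ℤτ + ℤ`. -/
def wzeta (z : ℂ) (τ : ℍ) : ℂ := ∑' p : Fin 2 → ℤ, zterm z τ p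

lemma r_mul_norm_le (τ : ℍ) (p : Fin 2 → ℤ) : r τ * ‖p‖ ≤ ‖om τ p‖ := by
  by_cases hp : p = 0
  · subst hp
    simp [om]
  · exact r_mul_max_le τ hp

lemma tendsto_norm_om (τ : ℍ) : Tendsto (fun p : Fin 2 → ℤ => ‖om τ p‖) cofinite atTop := by
  have h1 : Tendsto (fun p : Fin 2 → ℤ => ‖p‖) cofinite atTop := by
    have := tendsto_norm_cocompact_atTop (E := Fin 2 → ℤ)
    rwa [cocompact_eq_cofinite] at this
  have h2 : Tendsto (fun p : Fin 2 → ℤ => r τ * ‖p‖) cofinite atTop :=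
    h1.const_mul_atTop (r_pos τ)
  exact tendsto_atTop_mono (r_mul_norm_le τ) h2

lemma zterm_eq {z : ℂ} {τ : ℍ} {p : Fin 2 → ℤ} (h0 : om τ p ≠ 0) (h1 : z - om τ p ≠ 0) :
    zterm z τ p = z ^ 2 * (((om τ p) ^ 2)⁻¹ * (z - om τ p)⁻¹) := by
  rw [zterm]
  field_simp
  ring

lemma summable_zterm (z : ℂ) (τ : ℍ) : Summable (zterm z τ) := by
  have hr := r_pos τ
  have hs : Summable (fun p : Fin 2 → ℤ => 2 * ‖z‖ ^ 2 * (r τ ^ 3)⁻¹ * ‖p‖ ^ (-(3 : ℝ))) :=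
    (summable_one_div_norm_rpow (k := 3) (by norm_num)).mul_left _
  refine Summable.of_norm_bounded_eventually hs ?_
  filter_upwards [(tendsto_norm_om τ).eventually_ge_atTop (2 * ‖z‖ + 1)] with p hp
  have hω : 0 < ‖om τ p‖ := by linarith [norm_nonneg z]
  have h0 : om τ p ≠ 0 := norm_pos_iff.mp hω
  have hsub : ‖om τ p‖ / 2 ≤ ‖z - om τ p‖ := by
    have := norm_sub_norm_le (om τ p) z
    rw [norm_sub_rev] at this
    linarith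
  have h1 : z - om τ p ≠ 0 := by
    rw [← norm_pos_iff]
    linarith
  have hp0 : p ≠ 0 := by
    rintro rfl
    simp [om] at h0
  have hpn : 0 < ‖p‖ := norm_pos_iff.mpr hp0
  have hrp : r τ * ‖p‖ ≤ ‖om τ p‖ := r_mul_norm_le τ p
  have hrp0 : 0 < r τ * ‖p‖ := mul_pos hr hpn
  rw [zterm_eq h0 h1, norm_mul, norm_mul, norm_pow, norm_inv, norm_inv, norm_pow]
  have e3 : ‖p‖ ^ (-(3 : ℝ)) = (‖p‖ ^ 3)⁻¹ := by
    rw [Real.rpow_neg (norm_nonneg _)]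
    norm_cast
  rw [e3]
  have hb1 : (‖om τ p‖ ^ 2)⁻¹ ≤ ((r τ * ‖p‖) ^ 2)⁻¹ := by
    gcongr
  have hb2 : ‖z - om τ p‖⁻¹ ≤ 2 * (r τ * ‖p‖)⁻¹ := by
    have : ‖z - om τ p‖⁻¹ ≤ (‖om τ p‖ / 2)⁻¹ := by
      gcongr
    refine this.trans ?_
    rw [inv_div, div_eq_mul_inv]
    gcongr
  calc ‖z‖ ^ 2 * ((‖om τ p‖ ^ 2)⁻¹ * ‖z - om τ p‖⁻¹)
      ≤ ‖z‖ ^ 2 * (((r τ * ‖p‖) ^ 2)⁻¹ * (2 * (r τ * ‖p‖)⁻¹)) := by
        gcongr
    _ = 2 * ‖z‖ ^ 2 * (r τ ^ 3)⁻¹ * (‖p‖ ^ 3)⁻¹ := by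
        field_simp

/-- Right multiplication by `γ` as a permutation of `Fin 2 → ℤ`. -/
def vecMulEquiv (γ : SL(2, ℤ)) : (Fin 2 → ℤ) ≃ (Fin 2 → ℤ) where
  toFun v := v ᵥ* (γ : Matrix (Fin 2) (Fin 2) ℤ)
  invFun v := v ᵥ* ((γ⁻¹ : SL(2, ℤ)) : Matrix (Fin 2) (Fin 2) ℤ)
  left_inv v := by
    show (v ᵥ* (γ : Matrix (Fin 2) (Fin 2) ℤ)) ᵥ* ((γ⁻¹ : SL(2, ℤ)) : Matrix (Fin 2) (Fin 2) ℤ) = v
    rw [Matrix.vecMul_vecMul, ← Matrix.SpecialLinearGroup.coe_mul, mul_inv_cancel]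
    simp
  right_inv v := by
    show (v ᵥ* ((γ⁻¹ : SL(2, ℤ)) : Matrix (Fin 2) (Fin 2) ℤ)) ᵥ* (γ : Matrix (Fin 2) (Fin 2) ℤ) = v
    rw [Matrix.vecMul_vecMul, ← Matrix.SpecialLinearGroup.coe_mul, inv_mul_cancel]
    simp

lemma om_smul (γ : SL(2, ℤ)) (τ : ℍ) (p : Fin 2 → ℤ) :
    om (γ • τ) p = (denom γ τ)⁻¹ * om τ (p ᵥ* (γ : Matrix (Fin 2) (Fin 2) ℤ)) := by
  have := eisSummand_SL2_apply (-1) p γ τ
  simpa [eisSummand, om] using this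

lemma zterm_smul (γ : SL(2, ℤ)) (z : ℂ) (τ : ℍ) (p : Fin 2 → ℤ) :
    zterm (z / denom γ τ) (γ • τ) p =
      denom γ τ * zterm z τ (p ᵥ* (γ : Matrix (Fin 2) (Fin 2) ℤ)) := by
  have hj : (denom γ τ : ℂ) ≠ 0 := denom_ne_zero _ τ
  rw [zterm, zterm, om_smul]
  set j : ℂ := denom γ τ
  set w : ℂ := om τ (p ᵥ* (γ : Matrix (Fin 2) (Fin 2) ℤ))
  have e1 : z / j - j⁻¹ * w = j⁻¹ * (z - w) := by ring
  rw [e1]
  simp only [mul_inv, inv_inv, mul_pow, inv_pow]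
  field_simp

lemma wzeta_smul (γ : SL(2, ℤ)) (z : ℂ) (τ : ℍ) :
    wzeta (z / denom γ τ) (γ • τ) = denom γ τ * wzeta z τ := by
  rw [wzeta, wzeta, ← (vecMulEquiv γ).tsum_eq (zterm z τ), ← tsum_mul_left]
  refine tsum_congr fun p => ?_
  rw [zterm_smul]
  rfl

end

end Fermat.Agent.DS.Eis1.Zeta
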