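/-
Programme DS (S48), brick DS-EIS1 (weight one Eisenstein series), file 4.
The identity `ζ(z;τ) = φ(z;τ) + G₂(τ) z` obtained by summing the absolutely convergent
lattice sum for `ζ` first over the second index (cotangent Mittag-Leffler expansion) and then
pairing `m` with `-m`.
-/
import Fermat.Agent.DS.Eis1.Zeta

set_option autoImplicit false

namespace Fermat.Agent.DS.Eis1.ZetaPhi

open UpperHalfPlane hiding I
open Complex Filter Topology EisensteinSeries MatrixGroups Matrix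
open Fermat.Agent.DS.Eis1.CotG Fermat.Agent.DS.Eis1.Phi Fermat.Agent.DS.Eis1.Zeta

noncomputable section

/-- Pairing `n` with `-n` in an absolutely convergent sum over `ℤ`. -/
lemma hasSum_pair {f : ℤ → ℂ} {a : ℂ} (hf : HasSum f a) :
    HasSum (fun n : ℕ => f ((n : ℤ) + 1) + f (-((n : ℤ) + 1))) (a - f 0) := by
  have h1 := hf.nat_add_neg
  have h2 := (hasSum_nat_add_iff' (f := fun n : ℕ => f n + f (-(n : ℤ))) (g := a + f 0) 1).mpr h1
  simp only [Finset.range_one, Finset.sum_singleton, Nat.cast_zero, neg_zero] at h2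
  have e : a + f 0 - (f 0 + f 0) = a - f 0 := by ring
  rw [e] at h2
  have e2 : (fun n : ℕ => f ((n : ℤ) + 1) + f (-((n : ℤ) + 1))) =
      fun n : ℕ => f ((n + 1 : ℕ) : ℤ) + f (-((n + 1 : ℕ) : ℤ)) := by
    funext n
    push_cast
    rfl
  rw [e2]
  exact h2

lemma cotPi_zero : cotPi 0 = 0 := by
  simp [cotPi, Complex.cot]

lemma intCast_mul_mem_integerComplement (τ : ℍ) {m : ℤ} (hm : m ≠ 0) :
    (m : ℂ) * (τ : ℂ) ∈ Complex.integerComplement := by
  rw [Complex.integerComplement, Set.mem_compl_iff, Set.mem_range]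
  rintro ⟨k, hk⟩
  have := congrArg Complex.im hk
  simp only [Complex.intCast_im, Complex.mul_im, Complex.intCast_re, UpperHalfPlane.coe_im,
    zero_mul, add_zero] at this
  have h2 : (m : ℝ) * τ.im ≠ 0 := mul_ne_zero (by exact_mod_cast hm) τ.im_pos.ne'
  exact h2 this.symm

lemma sub_mem_integerComplement {τ : ℍ} {z : ℂ} (h : OffLat τ z) (m : ℤ) :
    z - (m : ℂ) * (τ : ℂ) ∈ Complex.integerComplement := by
  rw [Complex.integerComplement, Set.mem_compl_iff, Set.mem_range]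
  rintro ⟨k, hk⟩
  refine h m k ?_
  linear_combination -hk

/-- Mittag-Leffler for `π cot(π u)`, `u = mτ`, including the degenerate case `m = 0`. -/
lemma hasSum_cotPi_intCast_mul (τ : ℍ) (m : ℤ) :
    HasSum (fun n : ℕ => ((m : ℂ) * (τ : ℂ) - (n + 1))⁻¹ + ((m : ℂ) * (τ : ℂ) + (n + 1))⁻¹)
      (cotPi ((m : ℂ) * (τ : ℂ)) - ((m : ℂ) * (τ : ℂ))⁻¹) := by
  by_cases hm : m = 0
  · subst hm
    simp only [Int.cast_zero, zero_mul, zero_sub, zero_add, cotPi_zero, _root_.inv_zero,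
      neg_zero]
    have : (fun n : ℕ => (-((n : ℂ) + 1))⁻¹ + ((n : ℂ) + 1)⁻¹) = fun _ => 0 := by
      funext n
      rw [inv_neg]
      ring
    rw [this]
    exact hasSum_zero
  · exact hasSum_cotPi (intCast_mul_mem_integerComplement τ hm)

/-- The row sums of the zeta lattice sum. -/
def rowSum (z : ℂ) (τ : ℍ) (m : ℤ) : ℂ := ∑' n : ℤ, zterm z τ ![m, n]

lemma summable_zterm_prod (z : ℂ) (τ : ℍ) :
    Summable (fun p : ℤ × ℤ => zterm z τ ![p.1, p.2]) := by
  have := (finTwoArrowEquiv ℤ).symm.summable_iff.mpr (summable_zterm z τ)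
  simpa [Function.comp_def, finTwoArrowEquiv_symm_apply] using this

lemma summable_row (z : ℂ) (τ : ℍ) (m : ℤ) : Summable (fun n : ℤ => zterm z τ ![m, n]) :=
  (summable_zterm_prod z τ).prod_factor m

lemma summable_rowSum (z : ℂ) (τ : ℍ) : Summable (rowSum z τ) :=
  (summable_zterm_prod z τ).prod

lemma wzeta_eq_tsum_rowSum (z : ℂ) (τ : ℍ) : wzeta z τ = ∑' m : ℤ, rowSum z τ m := by
  rw [wzeta, ← (finTwoArrowEquiv ℤ).symm.tsum_eq]
  simp only [finTwoArrowEquiv_symm_apply]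
  exact Summable.tsum_prod' (summable_zterm_prod z τ) (summable_row z τ)

lemma om_cons (τ : ℍ) (m n : ℤ) : om τ ![m, n] = (m : ℂ) * (τ : ℂ) + n := by
  simp [om]

lemma rowSum_eq {z : ℂ} {τ : ℍ} (h : OffLat τ z) (m : ℤ) :
    rowSum z τ m = cotPi (z - (m : ℂ) * (τ : ℂ)) + cotPi ((m : ℂ) * (τ : ℂ)) +
      z * e2Summand m τ := by
  set u : ℂ := (m : ℂ) * (τ : ℂ) with hu
  set w : ℂ := z - u with hw
  have hf := hasSum_pair (summable_row z τ m).hasSum
  have hP1 := hasSum_cotPi (sub_mem_integerComplement h m)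
  have hP2 := hasSum_cotPi_intCast_mul τ m
  have hg : HasSum (fun n : ℤ => ((u + n) ^ 2)⁻¹) (e2Summand m τ) := by
    have := (e2Summand_summable m τ).hasSum
    simpa [eisSummand, e2Summand, hu] using this
  have hP3 := (hasSum_pair hg).mul_left z
  have hsum := (hP1.add hP2).add hP3
  have e : (fun n : ℕ => zterm z τ ![m, (n : ℤ) + 1] + zterm z τ ![m, -((n : ℤ) + 1)]) =
      fun n : ℕ => ((w - (n + 1))⁻¹ + (w + (n + 1))⁻¹) + ((u - (n + 1))⁻¹ + (u + (n + 1))⁻¹) +
        z * (((u + ((n : ℤ) + 1 : ℤ)) ^ 2)⁻¹ + ((u + (-((n : ℤ) + 1) : ℤ)) ^ 2)⁻¹) := by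
    funext n
    simp only [zterm, om_cons]
    push_cast
    have e1 : z - (u + ((n : ℂ) + 1)) = w - ((n : ℂ) + 1) := by rw [hw]; ring
    have e2 : z - (u + -((n : ℂ) + 1)) = w + ((n : ℂ) + 1) := by rw [hw]; ring
    have e3 : u + -((n : ℂ) + 1) = u - ((n : ℂ) + 1) := by ring
    rw [e1, e2, e3]
    ring
  rw [e] at hf
  have key := hf.unique hsum
  have f0 : zterm z τ ![m, 0] = w⁻¹ + u⁻¹ + z * (u ^ 2)⁻¹ := by
    simp only [zterm, om_cons, Int.cast_zero, add_zero]
    rfl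
  rw [f0] at key
  simp only [Int.cast_zero, add_zero] at key
  rw [rowSum]
  linear_combination key

/-- The identity `ζ(z;τ) = φ(z;τ) + G₂(τ) z`. -/
theorem wzeta_eq_phi_add {z : ℂ} {τ : ℍ} (h : OffLat τ z) :
    wzeta z τ = phi z τ + G2 τ * z := by
  have hA : HasSum (rowSum z τ) (wzeta z τ) := by
    rw [wzeta_eq_tsum_rowSum]
    exact (summable_rowSum z τ).hasSum
  have hpair := (hasSum_pair hA).tendsto_sum_nat
  -- the paired rows
  have erow : ∀ n : ℕ, rowSum z τ ((n : ℤ) + 1) + rowSum z τ (-((n : ℤ) + 1)) =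
      -(2 * Real.pi * I) * phiTerm z τ n + z * (2 * e2Summand ((n : ℤ) + 1) τ) := by
    intro n
    rw [rowSum_eq h, rowSum_eq h]
    have hev : e2Summand (-((n : ℤ) + 1)) τ = e2Summand ((n : ℤ) + 1) τ := e2Summand_even τ _
    rw [hev]
    have := cotPi_add_cotPi_sub h n
    push_cast
    have e1 : z - -((n : ℂ) + 1) * (τ : ℂ) = z + ((n : ℂ) + 1) * (τ : ℂ) := by ring
    have e2 : -((n : ℂ) + 1) * (τ : ℂ) = -(((n : ℂ) + 1) * (τ : ℂ)) := by ring
    rw [e1, e2, cotPi_neg]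
    linear_combination this
  simp only [erow, Finset.sum_add_distrib] at hpair
  -- the phi part
  have hphi : Tendsto (fun N : ℕ => ∑ n ∈ Finset.range N, -(2 * Real.pi * I) * phiTerm z τ n)
      atTop (𝓝 (-(2 * Real.pi * I) * ∑' n, phiTerm z τ n)) :=
    ((summable_phiTerm z τ).hasSum.mul_left _).tendsto_sum_nat
  -- the G2 part
  have hG2 : Tendsto (fun N : ℕ => ∑ n ∈ Finset.range N, z * (2 * e2Summand ((n : ℤ) + 1) τ))
      atTop (𝓝 (z * (G2 τ - e2Summand 0 τ))) := by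
    have h0 := hasSum_e2Summand_symmetricIcc τ
    rw [← G2_eq_tsum_cexp, HasSum, SummationFilter.symmetricIcc_eq_map_Icc_nat,
      tendsto_map'_iff] at h0
    have h1 : Tendsto (fun N : ℕ => z * ((∑ m ∈ Finset.Icc (-(N : ℤ)) N, e2Summand m τ) -
        e2Summand 0 τ)) atTop (𝓝 (z * (G2 τ - e2Summand 0 τ))) :=
      (h0.sub_const _).const_mul z
    refine h1.congr fun N => ?_
    rw [Finset.sum_Icc_of_even_eq_range (e2Summand_even τ), Finset.sum_range_succ',
      ← Finset.mul_sum, ← Finset.mul_sum]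
    simp only [Nat.cast_zero, two_smul, Nat.cast_add, Nat.cast_one]
    ring
  have hlim := tendsto_nhds_unique hpair (hphi.add hG2)
  rw [rowSum_eq h 0] at hlim
  simp only [Int.cast_zero, zero_mul, sub_zero, cotPi_zero, add_zero] at hlim
  rw [phi]
  linear_combination hlim

end

end Fermat.Agent.DS.Eis1.ZetaPhi
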