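/-
Programme DS (S48), brick DS-EIS1 (weight one Eisenstein series), file 5.
The function `Z(z;τ) = φ(z;τ) + 2πi Im z / Im τ` is periodic under `ℤτ + ℤ` and satisfies
`Z(z/(cτ+d); γτ) = (cτ+d) Z(z;τ)` for all `γ ∈ SL(2,ℤ)`.  Torsion points `Z_b(τ)`.
-/
import Fermat.Agent.DS.Eis1.ZetaPhi

set_option autoImplicit false

namespace Fermat.Agent.DS.Eis1.Trans

open UpperHalfPlane hiding I
open Complex Filter Topology EisensteinSeries MatrixGroups Matrix ModularForm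
open Fermat.Agent.DS.Eis1.CotG Fermat.Agent.DS.Eis1.Phi Fermat.Agent.DS.Eis1.Zeta
  Fermat.Agent.DS.Eis1.ZetaPhi

noncomputable section

/-- `Z(z;τ) = φ(z;τ) + 2πi Im z / Im τ`. -/
def Zfun (z : ℂ) (τ : ℍ) : ℂ := phi z τ + 2 * Real.pi * I * ((z.im / τ.im : ℝ) : ℂ)

lemma Zfun_add_int (z : ℂ) (τ : ℍ) (n : ℤ) : Zfun (z + n) τ = Zfun z τ := by
  rw [Zfun, Zfun, phi_add_int]
  simp

lemma Zfun_add_int_mul_tau {z : ℂ} {τ : ℍ} (h : OffLat τ z) (k : ℤ) :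
    Zfun (z + k * (τ : ℂ)) τ = Zfun z τ := by
  rw [Zfun, Zfun, phi_add_int_mul_tau h]
  have hτ : (τ.im : ℝ) ≠ 0 := τ.im_pos.ne'
  have e : ((z + k * (τ : ℂ)).im / τ.im : ℝ) = z.im / τ.im + k := by
    simp only [Complex.add_im, Complex.mul_im, Complex.intCast_re, Complex.intCast_im,
      UpperHalfPlane.coe_im, zero_mul, add_zero]
    field_simp
  rw [e]
  push_cast
  ring

lemma Zfun_add_lattice {z : ℂ} {τ : ℍ} (h : OffLat τ z) (k n : ℤ) :
    Zfun (z + (k * (τ : ℂ) + n)) τ = Zfun z τ := by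
  rw [← add_assoc, Zfun_add_int, Zfun_add_int_mul_tau h]

lemma Zfun_neg (z : ℂ) (τ : ℍ) : Zfun (-z) τ = -Zfun z τ := by
  rw [Zfun, Zfun, phi_neg]
  simp only [Complex.neg_im, neg_div]
  push_cast
  ring

lemma G2_smul (γ : SL(2, ℤ)) (τ : ℍ) :
    G2 (γ • τ) = (denom γ τ) ^ 2 * G2 τ - 2 * Real.pi * I * (γ 1 0 : ℤ) * denom γ τ := by
  have h := congrFun (G2_slash_action γ) τ
  rw [SL_slash_apply] at h
  simp only [Pi.sub_apply, D2] at h
  have hj : (denom γ τ : ℂ) ≠ 0 := denom_ne_zero _ τ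
  have h2 : G2 (γ • τ) = (denom γ τ) ^ 2 * (G2 τ - 2 * Real.pi * I * (γ 1 0 : ℤ) / denom γ τ) := by
    rw [← h]
    field_simp
  rw [h2]
  field_simp

lemma offLat_smul (γ : SL(2, ℤ)) {z : ℂ} {τ : ℍ} (h : OffLat τ z) :
    OffLat (γ • τ) (z / denom γ τ) := by
  intro m n e
  have hj : (denom γ τ : ℂ) ≠ 0 := denom_ne_zero _ τ
  have h1 := om_smul γ τ ![m, n]
  rw [om_cons] at h1
  rw [h1] at e
  set p := ![m, n] ᵥ* (γ : Matrix (Fin 2) (Fin 2) ℤ)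
  refine h (p 0) (p 1) ?_
  have : z = om τ p := by
    field_simp at e
    exact e
  rw [this, om]

/-- The transformation of `φ` under `SL(2,ℤ)`. -/
lemma phi_smul (γ : SL(2, ℤ)) {z : ℂ} {τ : ℍ} (h : OffLat τ z) :
    phi (z / denom γ τ) (γ • τ) = denom γ τ * phi z τ + 2 * Real.pi * I * (γ 1 0 : ℤ) * z := by
  have hj : (denom γ τ : ℂ) ≠ 0 := denom_ne_zero _ τ
  have h1 := wzeta_smul γ z τ
  rw [wzeta_eq_phi_add (offLat_smul γ h), wzeta_eq_phi_add h, G2_smul] at h1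
  have e : phi (z / denom γ τ) (γ • τ) = denom γ τ * (phi z τ + G2 τ * z) -
      ((denom γ τ) ^ 2 * G2 τ - 2 * Real.pi * I * (γ 1 0 : ℤ) * denom γ τ) * (z / denom γ τ) := by
    rw [← h1]
    ring
  rw [e]
  field_simp
  ring

/-- The transformation law of `Z` under `SL(2,ℤ)`. -/
theorem Zfun_smul (γ : SL(2, ℤ)) {z : ℂ} {τ : ℍ} (h : OffLat τ z) :
    Zfun (z / denom γ τ) (γ • τ) = denom γ τ * Zfun z τ := by
  have hj : (denom γ τ : ℂ) ≠ 0 := denom_ne_zero _ τ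
  rw [Zfun, Zfun, phi_smul γ h, ModularGroup.im_smul_eq_div_normSq]
  have hτ : (τ.im : ℝ) ≠ 0 := τ.im_pos.ne'
  have hn : Complex.normSq (denom γ τ) ≠ 0 := by
    rw [Ne, Complex.normSq_eq_zero]
    exact hj
  have hd := ModularGroup.denom_apply γ τ
  set j : ℂ := denom γ τ with hjdef
  have e1 : ((z / j).im / (τ.im / Complex.normSq j) : ℝ) =
      (z.im * j.re - z.re * j.im) / τ.im := by
    rw [Complex.div_im]
    field_simp
  rw [e1]
  have hre : j.re = (γ 1 0 : ℤ) * τ.re + (γ 1 1 : ℤ) := by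
    rw [hd]
    simp
  have him : j.im = (γ 1 0 : ℤ) * τ.im := by
    rw [hd]
    simp
  rw [hre, him]
  have hz : z = (z.re : ℂ) + z.im * I := (Complex.re_add_im z).symm
  have hτc : (τ : ℂ) = (τ.re : ℂ) + τ.im * I := (Complex.re_add_im (τ : ℂ)).symm
  rw [hd]
  push_cast
  set c : ℂ := ((γ 1 0 : ℤ) : ℂ)
  set d : ℂ := ((γ 1 1 : ℤ) : ℂ)
  have hτ' : ((τ.im : ℝ) : ℂ) ≠ 0 := by exact_mod_cast hτ
  field_simp
  rw [hz, hτc]
  simp only [Complex.add_re, Complex.add_im, Complex.ofReal_re, Complex.ofReal_im, Complex.mul_re,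
    Complex.mul_im, Complex.I_re, Complex.I_im, mul_zero, mul_one, sub_zero, add_zero, zero_add]
  ring

end

end Fermat.Agent.DS.Eis1.Trans
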