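/-
Programme DS (S48), brick DS-EIS1 (weight one Eisenstein series), file 6.
Torsion values `Z_b(τ) = Z((b₀τ+b₁)/ℓ; τ)`, their transformation under `SL(2,ℤ)`, and the
function `F_ψ(τ) = Σ_a ψ⁻¹(a) Z_{(0,a)}(τ)` with its transformation law under `Γ₀(ℓ)`.
-/
import Fermat.Agent.DS.Eis1.Trans
import Mathlib.NumberTheory.DirichletCharacter.GaussSum
import Mathlib.NumberTheory.ModularForms.CongruenceSubgroups

set_option autoImplicit false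

namespace Fermat.Agent.DS.Eis1.Torsion

open UpperHalfPlane hiding I
open Complex Filter Topology EisensteinSeries MatrixGroups Matrix ModularForm CongruenceSubgroup
open Fermat.Agent.DS.Eis1.CotG Fermat.Agent.DS.Eis1.Phi Fermat.Agent.DS.Eis1.Zeta
  Fermat.Agent.DS.Eis1.ZetaPhi Fermat.Agent.DS.Eis1.Trans

noncomputable section

/-- The `ℓ`-torsion point `(b₀ τ + b₁)/ℓ`. -/
def zpt (ℓ : ℕ) (b : Fin 2 → ℤ) (τ : ℍ) : ℂ := om τ b / ℓ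

/-- `Z_b(τ)`. -/
def Zb (ℓ : ℕ) (b : Fin 2 → ℤ) (τ : ℍ) : ℂ := Zfun (zpt ℓ b τ) τ

lemma offLat_zpt {ℓ : ℕ} (hℓ : ℓ ≠ 0) {b : Fin 2 → ℤ}
    (hb : ¬ ((ℓ : ℤ) ∣ b 0 ∧ (ℓ : ℤ) ∣ b 1)) (τ : ℍ) : OffLat τ (zpt ℓ b τ) := by
  intro m n e
  apply hb
  have hℓ' : (ℓ : ℂ) ≠ 0 := by exact_mod_cast hℓ
  rw [zpt, om, div_eq_iff hℓ'] at e
  have him := congrArg Complex.im e
  have hre := congrArg Complex.re e
  simp only [Complex.add_im, Complex.mul_im, Complex.intCast_re, Complex.intCast_im,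
    UpperHalfPlane.coe_im, zero_mul, add_zero, Complex.natCast_re, Complex.natCast_im,
    mul_zero, Complex.add_re, Complex.mul_re, UpperHalfPlane.coe_re, sub_zero] at him hre
  have hτ : (τ.im : ℝ) ≠ 0 := τ.im_pos.ne'
  have h0 : (b 0 : ℝ) = m * ℓ := by
    have : (b 0 : ℝ) * τ.im = (m * ℓ) * τ.im := by linarith
    exact mul_right_cancel₀ hτ this
  have h1 : (b 1 : ℝ) = n * ℓ := by
    rw [h0] at hre
    linarith
  constructor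
  · refine ⟨m, ?_⟩
    have : (b 0 : ℝ) = ((ℓ * m : ℤ) : ℝ) := by rw [h0]; push_cast; ring
    exact_mod_cast this
  · refine ⟨n, ?_⟩
    have : (b 1 : ℝ) = ((ℓ * n : ℤ) : ℝ) := by rw [h1]; push_cast; ring
    exact_mod_cast this

lemma Zb_congr {ℓ : ℕ} (hℓ : ℓ ≠ 0) {b b' : Fin 2 → ℤ}
    (hb : ¬ ((ℓ : ℤ) ∣ b 0 ∧ (ℓ : ℤ) ∣ b 1))
    (h0 : (ℓ : ℤ) ∣ b' 0 - b 0) (h1 : (ℓ : ℤ) ∣ b' 1 - b 1) (τ : ℍ) :
    Zb ℓ b' τ = Zb ℓ b τ := by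
  obtain ⟨c0, hc0⟩ := h0
  obtain ⟨c1, hc1⟩ := h1
  have hℓ' : (ℓ : ℂ) ≠ 0 := by exact_mod_cast hℓ
  have e : zpt ℓ b' τ = zpt ℓ b τ + (c0 * (τ : ℂ) + c1) := by
    have e0 : (b' 0 : ℂ) = b 0 + ℓ * c0 := by
      have : b' 0 = b 0 + ℓ * c0 := by linarith
      rw [this]
      push_cast
      ring
    have e1 : (b' 1 : ℂ) = b 1 + ℓ * c1 := by
      have : b' 1 = b 1 + ℓ * c1 := by linarith
      rw [this]
      push_cast
      ring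
    rw [zpt, zpt, om, om, e0, e1]
    field_simp
    ring
  rw [Zb, Zb, e, Zfun_add_lattice (offLat_zpt hℓ hb τ)]

lemma zpt_smul (ℓ : ℕ) (γ : SL(2, ℤ)) (b : Fin 2 → ℤ) (τ : ℍ) :
    zpt ℓ b (γ • τ) = zpt ℓ (b ᵥ* (γ : Matrix (Fin 2) (Fin 2) ℤ)) τ / denom γ τ := by
  rw [zpt, zpt, om_smul]
  ring

lemma Zb_smul (ℓ : ℕ) (γ : SL(2, ℤ)) (b : Fin 2 → ℤ) (τ : ℍ)
    (hb : OffLat τ (zpt ℓ (b ᵥ* (γ : Matrix (Fin 2) (Fin 2) ℤ)) τ)) :
    Zb ℓ b (γ • τ) = denom γ τ * Zb ℓ (b ᵥ* (γ : Matrix (Fin 2) (Fin 2) ℤ)) τ := by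
  rw [Zb, Zb, zpt_smul, Zfun_smul γ hb]

variable {ℓ : ℕ} [hp : Fact ℓ.Prime]

/-- The (unnormalised) weight one Eisenstein series attached to `ψ`. -/
def Fpsi (ψ : DirichletCharacter ℂ ℓ) (τ : ℍ) : ℂ :=
  ∑ a : ZMod ℓ, ψ⁻¹ a * Zb ℓ ![0, (a.val : ℤ)] τ

lemma not_dvd_val {a : ZMod ℓ} (ha : a ≠ 0) :
    ¬ ((ℓ : ℤ) ∣ (![0, (a.val : ℤ)] : Fin 2 → ℤ) 0 ∧
       (ℓ : ℤ) ∣ (![0, (a.val : ℤ)] : Fin 2 → ℤ) 1) := by
  rintro ⟨-, h⟩
  simp only [Matrix.cons_val_one, Matrix.cons_val_fin_one] at h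
  have h2 : (ℓ : ℕ) ∣ a.val := by exact_mod_cast h
  have hlt : a.val < ℓ := ZMod.val_lt a
  have h0 : a.val = 0 := Nat.eq_zero_of_dvd_of_lt h2 hlt
  exact ha ((ZMod.val_eq_zero a).mp h0)

/-- Transformation of `F_ψ` under `Γ₀(ℓ)`. -/
theorem Fpsi_smul (ψ : DirichletCharacter ℂ ℓ) {γ : SL(2, ℤ)} (hγ : γ ∈ Gamma0 ℓ) (τ : ℍ) :
    Fpsi ψ (γ • τ) = ψ ((γ 1 1 : ℤ) : ZMod ℓ) * denom γ τ * Fpsi ψ τ := by
  have hℓ : ℓ ≠ 0 := hp.out.ne_zero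
  rw [Gamma0_mem] at hγ
  set c : ℤ := γ 1 0 with hc
  set d : ℤ := γ 1 1 with hd
  -- `d` is a unit mod `ℓ`
  have hdet : (γ 0 0 : ℤ) * d - (γ 0 1 : ℤ) * c = 1 := by
    have := Matrix.SpecialLinearGroup.det_coe γ
    rw [Matrix.det_fin_two] at this
    exact this
  have hdu : ((γ 0 0 : ℤ) : ZMod ℓ) * (d : ZMod ℓ) = 1 := by
    have := congrArg (Int.cast : ℤ → ZMod ℓ) hdet
    push_cast at this
    rw [hγ, mul_zero, sub_zero] at this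
    exact this
  have hdunit : IsUnit (d : ZMod ℓ) := IsUnit.of_mul_eq_one_right _ hdu
  obtain ⟨u, hu⟩ := hdunit
  have hψd : ψ (d : ZMod ℓ) ≠ 0 := by
    rw [← hu]
    exact (IsUnit.map ψ u.isUnit).ne_zero
  -- termwise
  have hterm : ∀ a : ZMod ℓ, ψ⁻¹ a * Zb ℓ ![0, (a.val : ℤ)] (γ • τ) =
      ψ (d : ZMod ℓ) * denom γ τ *
        (ψ⁻¹ (a * u) * Zb ℓ ![0, ((a * u).val : ℤ)] τ) := by
    intro a
    by_cases ha : a = 0
    · subst ha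
      have h0 : ψ⁻¹ (0 : ZMod ℓ) = 0 := MulChar.map_nonunit _ not_isUnit_zero
      have h1 : ψ⁻¹ ((0 : ZMod ℓ) * u) = 0 := by rw [zero_mul]; exact h0
      rw [h0, h1]
      ring
    · have hau : a * u ≠ 0 := by
        intro h
        exact ha ((Units.mul_left_eq_zero u).mp h)
      have hv : (![0, (a.val : ℤ)] : Fin 2 → ℤ) ᵥ* (γ : Matrix (Fin 2) (Fin 2) ℤ) =
          ![(a.val : ℤ) * c, (a.val : ℤ) * d] := by
        funext i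
        fin_cases i <;> simp [Matrix.vecMul, dotProduct, Fin.sum_univ_two, hc, hd]
      have hb' := not_dvd_val hau
      have h0 : (ℓ : ℤ) ∣ (![(a.val : ℤ) * c, (a.val : ℤ) * d] : Fin 2 → ℤ) 0 -
          (![0, ((a * u).val : ℤ)] : Fin 2 → ℤ) 0 := by
        simp only [Matrix.cons_val_zero, sub_zero]
        exact Dvd.dvd.mul_left ((ZMod.intCast_zmod_eq_zero_iff_dvd c ℓ).mp hγ) _
      have h1 : (ℓ : ℤ) ∣ (![(a.val : ℤ) * c, (a.val : ℤ) * d] : Fin 2 → ℤ) 1 -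
          (![0, ((a * u).val : ℤ)] : Fin 2 → ℤ) 1 := by
        simp only [Matrix.cons_val_one, Matrix.cons_val_fin_one]
        rw [← ZMod.intCast_zmod_eq_zero_iff_dvd]
        push_cast
        rw [ZMod.natCast_zmod_val, ZMod.natCast_zmod_val, hu]
        ring
      have hcong := Zb_congr hℓ hb' h0 h1 τ
      have hoff : OffLat τ (zpt ℓ ((![0, (a.val : ℤ)] : Fin 2 → ℤ) ᵥ*
          (γ : Matrix (Fin 2) (Fin 2) ℤ)) τ) := by
        rw [hv]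
        refine offLat_zpt hℓ ?_ τ
        rintro ⟨-, h⟩
        apply hb'
        constructor
        · simp
        · have := (Int.dvd_iff_dvd_of_dvd_sub h1).mp h
          exact this
      rw [Zb_smul ℓ γ _ τ hoff, hv, hcong]
      have hψ : ψ⁻¹ a = ψ (d : ZMod ℓ) * ψ⁻¹ (a * u) := by
        rw [MulChar.inv_apply_eq_inv', MulChar.inv_apply_eq_inv', map_mul, hu]
        field_simp
      rw [hψ]
      ring
  rw [Fpsi, Finset.sum_congr rfl (fun a _ => hterm a), ← Finset.mul_sum, Fpsi]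
  congr 1
  exact Fintype.sum_equiv (Units.mulRight u) _ _ (fun a => rfl)

end

end Fermat.Agent.DS.Eis1.Torsion
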