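/-
Programme DS (S48), brick DS-EIS1 (weight one Eisenstein series), file 9.
Boundedness of the torsion values `Z_b(τ)` as `Im τ → ∞`.
-/
import Fermat.Agent.DS.Eis1.Torsion

set_option autoImplicit false

namespace Fermat.Agent.DS.Eis1.Bound

open UpperHalfPlane hiding I
open Complex Filter Topology MatrixGroups Matrix
open Fermat.Agent.DS.Eis1.CotG Fermat.Agent.DS.Eis1.Phi Fermat.Agent.DS.Eis1.Zeta
  Fermat.Agent.DS.Eis1.ZetaPhi Fermat.Agent.DS.Eis1.Trans Fermat.Agent.DS.Eis1.Torsion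

noncomputable section

lemma exp_neg_two_pi_le_half : Real.exp (-(2 * Real.pi)) ≤ 1 / 2 := by
  have h1 : (2 : ℝ) ≤ Real.exp (2 * Real.pi) := by
    have := Real.add_one_le_exp (2 * Real.pi)
    have hpi := Real.two_le_pi
    linarith
  rw [Real.exp_neg, one_div]
  exact inv_anti₀ (by norm_num) h1

lemma norm_gsum_le {q u : ℂ} {s : ℝ} (hq : ‖q‖ < 1) (hs0 : 0 ≤ s) (hs : s ≤ 1 / 2)
    (hb : ∀ m : ℕ, ‖u * q ^ (m + 1)‖ ≤ s ^ (m + 1)) : ‖gsum q u‖ ≤ 2 := by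
  have hsum := summable_gq_mul_pow u hq
  have hs1 : s < 1 := by linarith
  have hpow : ∀ m : ℕ, s ^ (m + 1) ≤ 1 / 2 := fun m =>
    (pow_le_of_le_one hs0 hs1.le (Nat.succ_ne_zero m)).trans hs
  have h1 : ∀ m : ℕ, ‖gq (u * q ^ (m + 1))‖ ≤ 2 * s ^ (m + 1) := fun m =>
    (norm_gq_le ((hb m).trans (hpow m))).trans (by gcongr; exact hb m)
  have hgeo : HasSum (fun m : ℕ => 2 * s ^ (m + 1)) (2 * (s * (1 - s)⁻¹)) := by
    have := (hasSum_geometric_of_lt_one hs0 hs1).mul_left s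
    have h2 := this.mul_left 2
    have e : (fun m : ℕ => 2 * s ^ (m + 1)) = fun m : ℕ => 2 * (s * s ^ m) := by
      funext m
      rw [pow_succ']
    rw [e]
    exact h2
  calc ‖gsum q u‖ ≤ ∑' m : ℕ, ‖gq (u * q ^ (m + 1))‖ := norm_tsum_le_tsum_norm hsum.norm
    _ ≤ ∑' m : ℕ, 2 * s ^ (m + 1) := hsum.norm.tsum_le_tsum h1 hgeo.summable
    _ = 2 * (s * (1 - s)⁻¹) := hgeo.tsum_eq
    _ ≤ 2 := by
      have h3 : s * (1 - s)⁻¹ ≤ 1 := by
        rw [← div_eq_mul_inv, div_le_one (by linarith)]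
        linarith
      linarith

lemma norm_eN_mul_qq_pow (w : ℂ) (τ : ℍ) (n : ℕ) :
    ‖eN w * qq τ ^ n‖ = Real.exp (-(2 * Real.pi) * (w.im + n * τ.im)) := by
  rw [norm_mul, norm_pow, qq, norm_eN, norm_eN, ← Real.exp_nat_mul, ← Real.exp_add]
  congr 1
  simp only [UpperHalfPlane.coe_im]
  ring

lemma exp_le_pow {X : ℝ} {m : ℕ} (hX : (m : ℝ) + 1 ≤ X) :
    Real.exp (-(2 * Real.pi) * X) ≤ Real.exp (-(2 * Real.pi)) ^ (m + 1) := by
  rw [← Real.exp_nat_mul, Real.exp_le_exp]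
  push_cast
  have := Real.pi_pos
  nlinarith

/-- The core bound, for reduced indices. -/
lemma exists_bound_Zb_nat {ℓ : ℕ} (hℓ : ℓ ≠ 0) (r s : ℕ) (hr : r < ℓ) :
    ∃ M : ℝ, ∀ τ : ℍ, (ℓ : ℝ) ≤ τ.im → ‖Zb ℓ ![(r : ℤ), (s : ℤ)] τ‖ ≤ M := by
  refine ⟨‖cotPi ((s : ℂ) / ℓ)‖ + 3 * Real.pi + 2 * Real.pi * (2 + 2) + 2 * Real.pi, ?_⟩
  intro τ hτ
  have hπ := Real.pi_pos
  have hℓ0 : (0 : ℝ) < ℓ := by exact_mod_cast Nat.pos_of_ne_zero hℓ
  have hℓ1 : (1 : ℝ) ≤ ℓ := by exact_mod_cast Nat.pos_of_ne_zero hℓ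
  have hτ0 : 0 < τ.im := τ.im_pos
  set z : ℂ := zpt ℓ ![(r : ℤ), (s : ℤ)] τ with hz
  have hzval : z = ((r : ℂ) * (τ : ℂ) + s) / ℓ := by
    simp [hz, zpt, om]
  have hzim : z.im = r * τ.im / ℓ := by
    rw [hzval]
    have : ((r : ℂ) * (τ : ℂ) + s) / (ℓ : ℂ) =
        ((r : ℂ) * (τ : ℂ) + s) * (((ℓ : ℝ)⁻¹ : ℝ) : ℂ) := by
      push_cast
      rw [div_eq_mul_inv]
    rw [this, Complex.mul_im]
    simp only [Complex.add_im, Complex.mul_im, Complex.natCast_re, Complex.natCast_im,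
      UpperHalfPlane.coe_im, zero_mul, add_zero, Complex.ofReal_re, Complex.ofReal_im, mul_zero]
    ring
  have hzim0 : 0 ≤ z.im := by
    rw [hzim]
    positivity
  have hzim1 : z.im ≤ τ.im * (1 - 1 / ℓ) := by
    rw [hzim]
    have hr' : (r : ℝ) ≤ ℓ - 1 := by
      have : r + 1 ≤ ℓ := hr
      have : ((r + 1 : ℕ) : ℝ) ≤ ℓ := by exact_mod_cast this
      push_cast at this
      linarith
    rw [div_le_iff₀ hℓ0]
    have : τ.im * (1 - 1 / ℓ) * ℓ = τ.im * (ℓ - 1) := by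
      field_simp
    rw [this, mul_comm]
    exact mul_le_mul_of_nonneg_left hr' hτ0.le
  -- the two gsum bounds
  have hs0 : (0 : ℝ) ≤ Real.exp (-(2 * Real.pi)) := (Real.exp_pos _).le
  have hb1 : ∀ m : ℕ, ‖eN z * qq τ ^ (m + 1)‖ ≤ Real.exp (-(2 * Real.pi)) ^ (m + 1) := by
    intro m
    rw [norm_eN_mul_qq_pow]
    apply exp_le_pow
    push_cast
    have : ((m : ℝ) + 1) * 1 ≤ ((m : ℝ) + 1) * τ.im :=
      mul_le_mul_of_nonneg_left (hℓ1.trans hτ) (by positivity)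
    linarith
  have hb2 : ∀ m : ℕ, ‖(eN z)⁻¹ * qq τ ^ (m + 1)‖ ≤ Real.exp (-(2 * Real.pi)) ^ (m + 1) := by
    intro m
    rw [← eN_neg, norm_eN_mul_qq_pow]
    apply exp_le_pow
    push_cast
    rw [Complex.neg_im]
    have h1 : τ.im * (1 / ℓ) ≥ 1 := by
      rw [mul_one_div, ge_iff_le, le_div_iff₀ hℓ0]
      linarith
    have h2 : (m : ℝ) * 1 ≤ (m : ℝ) * τ.im :=
      mul_le_mul_of_nonneg_left (hℓ1.trans hτ) (by positivity)
    nlinarith
  have hg1 := norm_gsum_le (norm_qq_lt_one τ) hs0 exp_neg_two_pi_le_half hb1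
  have hg2 := norm_gsum_le (norm_qq_lt_one τ) hs0 exp_neg_two_pi_le_half hb2
  -- the cotangent term
  have hcot : ‖cotPi z‖ ≤ ‖cotPi ((s : ℂ) / ℓ)‖ + 3 * Real.pi := by
    by_cases hr0 : r = 0
    · subst hr0
      have : z = (s : ℂ) / ℓ := by
        rw [hzval]
        simp
      rw [this]
      linarith [norm_nonneg (cotPi ((s : ℂ) / ℓ))]
    · have hr1 : (1 : ℝ) ≤ r := by exact_mod_cast Nat.pos_of_ne_zero hr0
      have hu : ‖eN z‖ ≤ Real.exp (-(2 * Real.pi)) := by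
        rw [norm_eN, Real.exp_le_exp, hzim]
        have : 1 ≤ (r : ℝ) * τ.im / ℓ := by
          rw [le_div_iff₀ hℓ0]
          nlinarith
        nlinarith
      have hu2 : ‖eN z‖ ≤ 1 / 2 := hu.trans exp_neg_two_pi_le_half
      have hne : eN z ≠ 1 := by
        intro h
        rw [h, norm_one] at hu2
        norm_num at hu2
      rw [cotPi_eq_gq hne]
      have hgq := norm_gq_le hu2
      have hn1 : ‖-(Real.pi * I : ℂ)‖ = Real.pi := by
        rw [norm_neg, norm_mul, Complex.norm_I, mul_one, Complex.norm_real,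
          Real.norm_of_nonneg hπ.le]
      have hn2 : ‖2 * Real.pi * I * gq (eN z)‖ ≤ 2 * Real.pi := by
        rw [norm_mul, norm_mul, norm_mul, Complex.norm_I, mul_one, Complex.norm_real,
          Real.norm_of_nonneg hπ.le, Complex.norm_ofNat]
        have : ‖gq (eN z)‖ ≤ 1 := by linarith
        nlinarith
      calc ‖-(Real.pi * I : ℂ) - 2 * Real.pi * I * gq (eN z)‖
          ≤ ‖-(Real.pi * I : ℂ)‖ + ‖2 * Real.pi * I * gq (eN z)‖ := norm_sub_le _ _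
        _ ≤ Real.pi + 2 * Real.pi := by rw [hn1]; linarith
        _ ≤ ‖cotPi ((s : ℂ) / ℓ)‖ + 3 * Real.pi := by
          linarith [norm_nonneg (cotPi ((s : ℂ) / ℓ))]
  -- assemble
  rw [Zb, Zfun, phi_eq_gsum]
  have hratio : ‖(2 * Real.pi * I * ((z.im / τ.im : ℝ) : ℂ))‖ ≤ 2 * Real.pi := by
    rw [norm_mul, norm_mul, norm_mul, Complex.norm_I, mul_one, Complex.norm_real,
      Real.norm_of_nonneg hπ.le, Complex.norm_ofNat, Complex.norm_real, Real.norm_eq_abs,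
      abs_of_nonneg (div_nonneg hzim0 hτ0.le)]
    have : z.im / τ.im ≤ 1 := by
      rw [div_le_one hτ0]
      have : τ.im * (1 - 1 / ℓ) ≤ τ.im := by
        have : 0 ≤ τ.im * (1 / ℓ) := by positivity
        linarith
      linarith
    nlinarith
  have hmid : ‖2 * Real.pi * I * (gsum (qq τ) (eN z) - gsum (qq τ) (eN z)⁻¹)‖ ≤
      2 * Real.pi * (2 + 2) := by
    rw [norm_mul, norm_mul, norm_mul, Complex.norm_I, mul_one, Complex.norm_real,
      Real.norm_of_nonneg hπ.le, Complex.norm_ofNat]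
    have := norm_sub_le (gsum (qq τ) (eN z)) (gsum (qq τ) (eN z)⁻¹)
    have h4 : ‖gsum (qq τ) (eN z) - gsum (qq τ) (eN z)⁻¹‖ ≤ 2 + 2 := by linarith
    nlinarith
  calc ‖cotPi z - 2 * Real.pi * I * (gsum (qq τ) (eN z) - gsum (qq τ) (eN z)⁻¹) +
        2 * Real.pi * I * ((z.im / τ.im : ℝ) : ℂ)‖
      ≤ ‖cotPi z - 2 * Real.pi * I * (gsum (qq τ) (eN z) - gsum (qq τ) (eN z)⁻¹)‖ +
        ‖2 * Real.pi * I * ((z.im / τ.im : ℝ) : ℂ)‖ := norm_add_le _ _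
    _ ≤ (‖cotPi z‖ + ‖2 * Real.pi * I * (gsum (qq τ) (eN z) - gsum (qq τ) (eN z)⁻¹)‖) +
        ‖2 * Real.pi * I * ((z.im / τ.im : ℝ) : ℂ)‖ := by
        gcongr
        exact norm_sub_le _ _
    _ ≤ _ := by linarith

end

end Fermat.Agent.DS.Eis1.Bound
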