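/-
Programme DS (S48), brick DS-EIS1 (weight one Eisenstein series), file 7.
Lambert series regrouping:
`Σ_{m,k ≥ 0} f(k+1) r^{(m+1)(k+1)} = Σ_{n} (Σ_{d ∣ n} f d) r^n` for bounded `f` and `‖r‖ < 1`.
-/
import Mathlib.NumberTheory.TsumDivisorsAntidiagonal
import Mathlib.Analysis.Complex.Basic

set_option autoImplicit false

namespace Fermat.Agent.DS.Eis1.Lambert

open Filter Topology

noncomputable section

lemma summable_prod_bounded {f : ℕ → ℂ} (hf : ∀ n, ‖f n‖ ≤ 1) {r : ℂ} (hr : ‖r‖ < 1) :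
    Summable (fun c : ℕ+ × ℕ+ => f c.2 * r ^ ((c.1 : ℕ) * (c.2 : ℕ))) := by
  have h0 : ‖(‖r‖ : ℝ)‖ < 1 := by simpa using hr
  have h1 := summable_prod_mul_pow (𝕜 := ℝ) 0 h0
  simp only [pow_zero, one_mul] at h1
  refine Summable.of_norm_bounded h1 fun c => ?_
  rw [norm_mul, norm_pow]
  calc ‖f c.2‖ * ‖r‖ ^ ((c.1 : ℕ) * (c.2 : ℕ)) ≤ 1 * ‖r‖ ^ ((c.1 : ℕ) * (c.2 : ℕ)) := by
        gcongr
        exact hf _
    _ = ‖r‖ ^ ((c.1 : ℕ) * (c.2 : ℕ)) := one_mul _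

/-- Lambert series regrouping as a `HasSum` over `ℕ+`. -/
lemma hasSum_lambert_pnat {f : ℕ → ℂ} (hf : ∀ n, ‖f n‖ ≤ 1) {r : ℂ} (hr : ‖r‖ < 1) :
    HasSum (fun n : ℕ+ => (∑ d ∈ (n : ℕ).divisors, f d) * r ^ (n : ℕ))
      (∑' c : ℕ+ × ℕ+, f c.2 * r ^ ((c.1 : ℕ) * (c.2 : ℕ))) := by
  have hS := summable_prod_bounded hf hr
  have hsum : HasSum ((fun c : ℕ+ × ℕ+ => f c.2 * r ^ ((c.1 : ℕ) * (c.2 : ℕ))) ∘
      sigmaAntidiagonalEquivProd) (∑' c : ℕ+ × ℕ+, f c.2 * r ^ ((c.1 : ℕ) * (c.2 : ℕ))) :=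
    sigmaAntidiagonalEquivProd.hasSum_iff.mpr hS.hasSum
  refine hsum.sigma (fun n => ?_)
  have h1 := hasSum_fintype (fun c : Nat.divisorsAntidiagonal (n : ℕ) =>
    ((fun c : ℕ+ × ℕ+ => f c.2 * r ^ ((c.1 : ℕ) * (c.2 : ℕ))) ∘
      sigmaAntidiagonalEquivProd) ⟨n, c⟩)
  convert h1 using 1
  have e1 : ∀ c : Nat.divisorsAntidiagonal (n : ℕ),
      ((fun c : ℕ+ × ℕ+ => f c.2 * r ^ ((c.1 : ℕ) * (c.2 : ℕ))) ∘
        sigmaAntidiagonalEquivProd) ⟨n, c⟩ = f c.1.2 * r ^ (n : ℕ) := by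
    intro c
    have hc := (Nat.mem_divisorsAntidiagonal.mp c.2).1
    simp only [Function.comp_apply, sigmaAntidiagonalEquivProd, divisorsAntidiagonalFactors,
      Equiv.coe_fn_mk, PNat.mk_coe, hc]
  rw [Finset.sum_congr rfl (fun c _ => e1 c), ← Finset.sum_mul,
    Finset.sum_coe_sort (Nat.divisorsAntidiagonal (n : ℕ)) (fun c => f c.2),
    Nat.sum_divisorsAntidiagonal' (fun _ e => f e)]

/-- Lambert series regrouping as a `HasSum` over `ℕ`. -/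
theorem hasSum_lambert {f : ℕ → ℂ} (hf : ∀ n, ‖f n‖ ≤ 1) {r : ℂ} (hr : ‖r‖ < 1) :
    HasSum (fun n : ℕ => (∑ d ∈ n.divisors, f d) * r ^ n)
      (∑' m : ℕ, ∑' k : ℕ, f (k + 1) * r ^ ((m + 1) * (k + 1))) := by
  have hS := summable_prod_bounded hf hr
  have h1 := hasSum_lambert_pnat hf hr
  have hval : (∑' c : ℕ+ × ℕ+, f c.2 * r ^ ((c.1 : ℕ) * (c.2 : ℕ))) =
      ∑' m : ℕ, ∑' k : ℕ, f (k + 1) * r ^ ((m + 1) * (k + 1)) := by
    rw [hS.tsum_prod]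
    rw [← tsum_pnat_eq_tsum_succ (f := fun m : ℕ => ∑' k : ℕ, f (k + 1) * r ^ (m * (k + 1)))]
    refine tsum_congr fun a => ?_
    rw [← tsum_pnat_eq_tsum_succ (f := fun k : ℕ => f k * r ^ ((a : ℕ) * k))]
  rw [hval] at h1
  have hsupp : Function.support (fun n : ℕ => (∑ d ∈ n.divisors, f d) * r ^ n) ⊆
      {n : ℕ | 0 < n} := by
    intro n hn
    rw [Function.mem_support] at hn
    show 0 < n
    rw [Nat.pos_iff_ne_zero]
    rintro rfl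
    simp at hn
  exact (hasSum_subtype_iff_of_support_subset hsupp).mp h1

end

end Fermat.Agent.DS.Eis1.Lambert
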