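/-
Programme DS (S48), brick DS-EIS1 (weight one Eisenstein series), file 8.
The `q`-expansion of `F_ψ`:
`F_ψ(τ) = -4πi G(ψ⁻¹) · ( -(1/(2ℓ)) Σ_b b ψ(b) + Σ_{n ≥ 1} (Σ_{d ∣ n} ψ(d)) q^n )`.
-/
import Fermat.Agent.DS.Eis1.Torsion
import Fermat.Agent.DS.Eis1.Lambert
import Mathlib.Analysis.SpecialFunctions.Complex.CircleAddChar

set_option autoImplicit false

namespace Fermat.Agent.DS.Eis1.QExp

open UpperHalfPlane hiding I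
open Complex Filter Topology MatrixGroups Matrix
open Fermat.Agent.DS.Eis1.CotG Fermat.Agent.DS.Eis1.Phi Fermat.Agent.DS.Eis1.Zeta
  Fermat.Agent.DS.Eis1.ZetaPhi Fermat.Agent.DS.Eis1.Trans Fermat.Agent.DS.Eis1.Torsion
  Fermat.Agent.DS.Eis1.Lambert

noncomputable section

/-- `Σ_{b<n} b u^b (u-1) = n u^n - Σ_{b<n} u^(b+1)`. -/
lemma sum_id_mul_pow_aux (u : ℂ) (n : ℕ) :
    (u - 1) * ∑ b ∈ Finset.range n, (b : ℂ) * u ^ b =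
      n * u ^ n - ∑ b ∈ Finset.range n, u ^ (b + 1) := by
  induction n with
  | zero => simp
  | succ n ih =>
    rw [Finset.sum_range_succ, mul_add, ih, Finset.sum_range_succ]
    push_cast
    ring

lemma sum_id_mul_pow {ℓ : ℕ} {u : ℂ} (hu : u ^ ℓ = 1) (hu1 : u ≠ 1) :
    ∑ b ∈ Finset.range ℓ, (b : ℂ) * u ^ b = ℓ / (u - 1) := by
  have h1 : u - 1 ≠ 0 := sub_ne_zero.mpr hu1
  have hgeom : ∑ b ∈ Finset.range ℓ, u ^ (b + 1) = 0 := by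
    have : ∑ b ∈ Finset.range ℓ, u ^ (b + 1) = u * ∑ b ∈ Finset.range ℓ, u ^ b := by
      rw [Finset.mul_sum]
      exact Finset.sum_congr rfl fun b _ => pow_succ' u b
    rw [this, geom_sum_eq hu1, hu, sub_self, zero_div, mul_zero]
  rw [eq_div_iff h1, mul_comm, sum_id_mul_pow_aux, hgeom, hu]
  ring

variable {ℓ : ℕ} [hp : Fact ℓ.Prime]

instance : NeZero ℓ := ⟨hp.out.ne_zero⟩

/-- The standard additive character. -/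
abbrev ee : AddChar (ZMod ℓ) ℂ := ZMod.stdAddChar (N := ℓ)

omit hp in
lemma Zb_zero_eq (n : ℤ) (τ : ℍ) : Zb ℓ ![0, n] τ = phi ((n : ℂ) / ℓ) τ := by
  have hz : zpt ℓ ![0, n] τ = (n : ℂ) / ℓ := by
    simp [zpt, om]
  rw [Zb, hz, Zfun]
  have him : ((n : ℂ) / (ℓ : ℂ)).im = 0 := by
    have : (n : ℂ) / (ℓ : ℂ) = (((n : ℝ) / (ℓ : ℝ) : ℝ) : ℂ) := by push_cast; rfl
    rw [this, Complex.ofReal_im]
  rw [him]
  simp

lemma eN_val (a : ZMod ℓ) : eN ((a.val : ℂ) / ℓ) = ee a := by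
  have h := ZMod.stdAddChar_coe (N := ℓ) (a.val : ℤ)
  have h2 : (((a.val : ℤ)) : ZMod ℓ) = a := by
    simp
  rw [h2] at h
  rw [ee, h, eN]
  congr 1
  push_cast
  ring

lemma norm_ee (a : ZMod ℓ) : ‖(ee a : ℂ)‖ = 1 := by
  rw [ee, ZMod.stdAddChar_apply]
  exact Circle.norm_coe _

lemma ee_pow_card (a : ZMod ℓ) : (ee a : ℂ) ^ ℓ = 1 := by
  rw [← AddChar.map_nsmul_eq_pow]
  have : ℓ • a = 0 := by
    rw [nsmul_eq_mul, ZMod.natCast_self, zero_mul]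
  rw [this, AddChar.map_zero_eq_one]

lemma ee_ne_one {a : ZMod ℓ} (ha : a ≠ 0) : (ee a : ℂ) ≠ 1 := by
  intro h
  apply ha
  have := ZMod.injective_stdAddChar (N := ℓ)
  apply this
  rw [h, AddChar.map_zero_eq_one]

variable (ψ : DirichletCharacter ℂ ℓ)

/-- The Gauss sum of `ψ⁻¹`. -/
def gs : ℂ := gaussSum ψ⁻¹ (ee (ℓ := ℓ))

omit hp in
lemma ne_one_of_odd {ψ : DirichletCharacter ℂ ℓ} (hodd : ψ.Odd) : ψ ≠ 1 := by
  intro h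
  rw [h] at hodd
  have h1 : (1 : DirichletCharacter ℂ ℓ) (-1) = 1 := by
    have : IsUnit (-1 : ZMod ℓ) := isUnit_one.neg
    exact MulChar.one_apply this
  have h2 : (1 : DirichletCharacter ℂ ℓ) (-1) = -1 := hodd
  rw [h1] at h2
  norm_num at h2

lemma isPrimitive_inv {ψ : DirichletCharacter ℂ ℓ} (hψ : ψ ≠ 1) : (ψ⁻¹).IsPrimitive := by
  rw [DirichletCharacter.isPrimitive_def]
  have h1 := DirichletCharacter.conductor_dvd_level ψ⁻¹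
  rcases (Nat.dvd_prime hp.out).mp h1 with h | h
  · exfalso
    apply hψ
    have := DirichletCharacter.eq_one_iff_conductor_eq_one.mpr h
    exact inv_eq_one.mp this
  · exact h

lemma gs_ne_zero {ψ : DirichletCharacter ℂ ℓ} (hψ : ψ ≠ 1) : gs ψ ≠ 0 := by
  have hψ' : ψ⁻¹ ≠ 1 := fun h => hψ (inv_eq_one.mp h)
  have h := gaussSum_mul_gaussSum_eq_card hψ' (ZMod.isPrimitive_stdAddChar ℓ)
  intro h0
  rw [gs] at h0
  rw [h0, zero_mul] at h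
  have : (Fintype.card (ZMod ℓ) : ℂ) ≠ 0 := by
    rw [ZMod.card]
    exact_mod_cast hp.out.ne_zero
  exact this h.symm

lemma sum_inv_mul_ee_mul {ψ : DirichletCharacter ℂ ℓ} (hψ : ψ ≠ 1) (b : ZMod ℓ) :
    ∑ a : ZMod ℓ, ψ⁻¹ a * ee (b * a) = ψ b * gs ψ := by
  have h := gaussSum_mulShift_of_isPrimitive (ee (ℓ := ℓ)) (isPrimitive_inv hψ) b
  rw [inv_inv] at h
  rw [gs, ← h, gaussSum]
  rfl

lemma sum_inv_mul_ee_pow {ψ : DirichletCharacter ℂ ℓ} (hψ : ψ ≠ 1) (k : ℕ) :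
    ∑ a : ZMod ℓ, ψ⁻¹ a * (ee a : ℂ) ^ k = ψ (k : ZMod ℓ) * gs ψ := by
  rw [← sum_inv_mul_ee_mul hψ]
  refine Finset.sum_congr rfl fun a _ => ?_
  rw [← AddChar.map_nsmul_eq_pow, nsmul_eq_mul]

lemma sum_inv_mul_ee_inv_pow {ψ : DirichletCharacter ℂ ℓ} (hodd : ψ.Odd) (k : ℕ) :
    ∑ a : ZMod ℓ, ψ⁻¹ a * ((ee a : ℂ)⁻¹) ^ k = -(ψ (k : ZMod ℓ) * gs ψ) := by
  have hψ := ne_one_of_odd hodd
  have h := sum_inv_mul_ee_mul hψ (-(k : ZMod ℓ))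
  have e : ψ (-(k : ZMod ℓ)) = -ψ (k : ZMod ℓ) := by
    rw [neg_eq_neg_one_mul, map_mul, hodd]
    ring
  rw [e] at h
  rw [← neg_mul, ← h]
  refine Finset.sum_congr rfl fun a _ => ?_
  rw [← AddChar.map_neg_eq_inv, ← AddChar.map_nsmul_eq_pow, nsmul_eq_mul]
  congr 2
  ring

/-- Twisted geometric series. -/
lemma hasSum_twisted_gq {ψ : DirichletCharacter ℂ ℓ} (hodd : ψ.Odd) {x : ℂ} (hx : ‖x‖ < 1) :
    HasSum (fun k : ℕ => 2 * gs ψ * (ψ ((k + 1 : ℕ) : ZMod ℓ) * x ^ (k + 1)))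
      (∑ a : ZMod ℓ, ψ⁻¹ a * (gq (ee a * x) - gq ((ee a : ℂ)⁻¹ * x))) := by
  have hψ := ne_one_of_odd hodd
  have h1 : ∀ a ∈ (Finset.univ : Finset (ZMod ℓ)),
      HasSum (fun k : ℕ => ψ⁻¹ a * ((ee a * x) ^ (k + 1) - ((ee a : ℂ)⁻¹ * x) ^ (k + 1)))
        (ψ⁻¹ a * (gq (ee a * x) - gq ((ee a : ℂ)⁻¹ * x))) := by
    intro a _
    have n1 : ‖(ee a : ℂ) * x‖ < 1 := by rw [norm_mul, norm_ee, one_mul]; exact hx
    have n2 : ‖(ee a : ℂ)⁻¹ * x‖ < 1 := by rw [norm_mul, norm_inv, norm_ee, inv_one, one_mul]; exact hx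
    exact ((hasSum_gq n1).sub (hasSum_gq n2)).mul_left _
  have h2 := hasSum_sum h1
  have hfun : (fun k : ℕ => 2 * gs ψ * (ψ ((k + 1 : ℕ) : ZMod ℓ) * x ^ (k + 1))) =
      fun k : ℕ => ∑ a : ZMod ℓ,
        ψ⁻¹ a * ((ee a * x) ^ (k + 1) - ((ee a : ℂ)⁻¹ * x) ^ (k + 1)) := by
    funext k
    symm
    have e1 := sum_inv_mul_ee_pow hψ (k + 1)
    have e2 := sum_inv_mul_ee_inv_pow hodd (k + 1)
    have : ∑ a : ZMod ℓ, ψ⁻¹ a * ((ee a * x) ^ (k + 1) - ((ee a : ℂ)⁻¹ * x) ^ (k + 1)) =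
        (∑ a : ZMod ℓ, ψ⁻¹ a * (ee a : ℂ) ^ (k + 1)) * x ^ (k + 1) -
        (∑ a : ZMod ℓ, ψ⁻¹ a * ((ee a : ℂ)⁻¹) ^ (k + 1)) * x ^ (k + 1) := by
      rw [Finset.sum_mul, Finset.sum_mul, ← Finset.sum_sub_distrib]
      refine Finset.sum_congr rfl fun a _ => ?_
      rw [mul_pow, mul_pow]
      ring
    rw [this, e1, e2]
    ring
  rw [hfun]
  exact h2

/-- The Lambert double series attached to `ψ`. -/
def lam (τ : ℍ) : ℂ :=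
  ∑' m : ℕ, ∑' k : ℕ, ψ ((k + 1 : ℕ) : ZMod ℓ) * qq τ ^ ((m + 1) * (k + 1))

lemma hasSum_lam (τ : ℍ) :
    HasSum (fun n : ℕ => (∑ d ∈ n.divisors, ψ (d : ZMod ℓ)) * qq τ ^ n) (lam ψ τ) :=
  hasSum_lambert (f := fun d : ℕ => ψ (d : ZMod ℓ)) (fun _ => DirichletCharacter.norm_le_one ψ _)
    (norm_qq_lt_one τ)

lemma sum_gsum_eq {ψ : DirichletCharacter ℂ ℓ} (hodd : ψ.Odd) (τ : ℍ) :
    ∑ a : ZMod ℓ, ψ⁻¹ a * (gsum (qq τ) (ee a) - gsum (qq τ) (ee a : ℂ)⁻¹) =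
      2 * gs ψ * lam ψ τ := by
  have hq := norm_qq_lt_one τ
  have hsm : ∀ a ∈ (Finset.univ : Finset (ZMod ℓ)), Summable (fun m : ℕ =>
      ψ⁻¹ a * (gq (ee a * qq τ ^ (m + 1)) - gq ((ee a : ℂ)⁻¹ * qq τ ^ (m + 1)))) := by
    intro a _
    exact ((summable_gq_mul_pow _ hq).sub (summable_gq_mul_pow _ hq)).mul_left _
  have e1 : ∑ a : ZMod ℓ, ψ⁻¹ a * (gsum (qq τ) (ee a) - gsum (qq τ) (ee a : ℂ)⁻¹) =
      ∑ a : ZMod ℓ, ∑' m : ℕ,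
        ψ⁻¹ a * (gq (ee a * qq τ ^ (m + 1)) - gq ((ee a : ℂ)⁻¹ * qq τ ^ (m + 1))) := by
    refine Finset.sum_congr rfl fun a _ => ?_
    rw [gsum, gsum, ← (summable_gq_mul_pow _ hq).tsum_sub (summable_gq_mul_pow _ hq),
      tsum_mul_left]
  rw [e1, ← Summable.tsum_finsetSum hsm, lam, ← tsum_mul_left]
  refine tsum_congr fun m => ?_
  have hx : ‖qq τ ^ (m + 1)‖ < 1 := by
    rw [norm_pow]
    exact pow_lt_one₀ (norm_nonneg _) hq (Nat.succ_ne_zero m)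
  rw [(hasSum_twisted_gq hodd hx).tsum_eq.symm, ← tsum_mul_left]
  refine tsum_congr fun k => ?_
  rw [← pow_mul]

/-- The constant term. -/
lemma sum_inv_mul_cotPi {ψ : DirichletCharacter ℂ ℓ} (hodd : ψ.Odd) :
    ∑ a : ZMod ℓ, ψ⁻¹ a * cotPi ((a.val : ℂ) / ℓ) =
      2 * Real.pi * I * gs ψ / ℓ * ∑ b ∈ Finset.range ℓ, (b : ℂ) * ψ (b : ZMod ℓ) := by
  have hψ := ne_one_of_odd hodd
  have hψ' : ψ⁻¹ ≠ 1 := fun h => hψ (inv_eq_one.mp h)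
  have hℓ : (ℓ : ℂ) ≠ 0 := by exact_mod_cast hp.out.ne_zero
  have hterm : ∀ a : ZMod ℓ, ψ⁻¹ a * cotPi ((a.val : ℂ) / ℓ) =
      Real.pi * I * ψ⁻¹ a + 2 * Real.pi * I / ℓ *
        ∑ b ∈ Finset.range ℓ, (b : ℂ) * (ψ⁻¹ a * (ee a : ℂ) ^ b) := by
    intro a
    by_cases ha : a = 0
    · subst ha
      have h0 : ψ⁻¹ (0 : ZMod ℓ) = 0 := MulChar.map_nonunit _ not_isUnit_zero
      simp [h0]
    · have hne : eN ((a.val : ℂ) / ℓ) ≠ 1 := by rw [eN_val]; exact ee_ne_one ha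
      rw [cotPi_eq_gq hne, eN_val]
      have hu1 : (ee a : ℂ) - 1 ≠ 0 := sub_ne_zero.mpr (ee_ne_one ha)
      have hu2 : (1 : ℂ) - ee a ≠ 0 := by
        intro h
        apply hu1
        rw [← neg_eq_zero, neg_sub]
        exact h
      have hsum := sum_id_mul_pow (ee_pow_card a) (ee_ne_one ha)
      have e2 : ∑ b ∈ Finset.range ℓ, (b : ℂ) * (ψ⁻¹ a * (ee a : ℂ) ^ b) =
          ψ⁻¹ a * (ℓ / ((ee a : ℂ) - 1)) := by
        rw [← hsum, Finset.mul_sum]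
        refine Finset.sum_congr rfl fun b _ => ?_
        ring
      rw [e2, gq]
      field_simp
      ring
  rw [Finset.sum_congr rfl (fun a _ => hterm a), Finset.sum_add_distrib, ← Finset.mul_sum,
    MulChar.sum_eq_zero_of_ne_one hψ', mul_zero, zero_add, ← Finset.mul_sum, Finset.sum_comm]
  have e3 : ∀ b ∈ Finset.range ℓ, ∑ a : ZMod ℓ, (b : ℂ) * (ψ⁻¹ a * (ee a : ℂ) ^ b) =
      (b : ℂ) * ψ (b : ZMod ℓ) * gs ψ := by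
    intro b _
    rw [← Finset.mul_sum, sum_inv_mul_ee_pow hψ]
    ring
  rw [Finset.sum_congr rfl e3, ← Finset.sum_mul]
  ring

/-- The sum `S = Σ_{b<ℓ} b ψ(b)`. -/
def bsum : ℂ := ∑ b ∈ Finset.range ℓ, (b : ℂ) * ψ (b : ZMod ℓ)

/-- `F_ψ` in closed form. -/
theorem Fpsi_eq {ψ : DirichletCharacter ℂ ℓ} (hodd : ψ.Odd) (τ : ℍ) :
    Fpsi ψ τ = -(4 * Real.pi * I * gs ψ) * (-(bsum ψ) / (2 * ℓ) + lam ψ τ) := by
  have hℓ : (ℓ : ℂ) ≠ 0 := by exact_mod_cast hp.out.ne_zero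
  have e1 : Fpsi ψ τ = ∑ a : ZMod ℓ, ψ⁻¹ a * cotPi ((a.val : ℂ) / ℓ) -
      2 * Real.pi * I * ∑ a : ZMod ℓ, ψ⁻¹ a * (gsum (qq τ) (ee a) - gsum (qq τ) (ee a : ℂ)⁻¹) := by
    rw [Fpsi, Finset.mul_sum, ← Finset.sum_sub_distrib]
    refine Finset.sum_congr rfl fun a _ => ?_
    rw [Zb_zero_eq, phi_eq_gsum]
    push_cast
    rw [eN_val]
    ring
  rw [e1, sum_inv_mul_cotPi hodd, sum_gsum_eq hodd, bsum]
  field_simp
  ring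

/-- The coefficients of the normalised Eisenstein series
`G_ψ = -(1/(2ℓ)) Σ_b b ψ(b) + Σ_{n ≥ 1} (Σ_{d ∣ n} ψ d) q^n`. -/
def coeffG (n : ℕ) : ℂ :=
  if n = 0 then -(bsum ψ) / (2 * ℓ) else ∑ d ∈ n.divisors, ψ (d : ZMod ℓ)

/-- The normalised function `G_ψ = F_ψ / (-4πi G(ψ⁻¹))`. -/
def Gpsi (τ : ℍ) : ℂ := Fpsi ψ τ / (-(4 * Real.pi * I * gs ψ))

theorem hasSum_Gpsi {ψ : DirichletCharacter ℂ ℓ} (hodd : ψ.Odd) (τ : ℍ) :
    HasSum (fun n : ℕ => coeffG ψ n * qq τ ^ n) (Gpsi ψ τ) := by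
  have hg : -(4 * Real.pi * I * gs ψ) ≠ 0 := by
    have := gs_ne_zero (ne_one_of_odd hodd)
    simp [Real.pi_ne_zero, this]
  have e : Gpsi ψ τ = -(bsum ψ) / (2 * ℓ) + lam ψ τ := by
    rw [Gpsi, Fpsi_eq hodd, mul_div_cancel_left₀ _ hg]
  rw [e]
  have h1 := hasSum_ite_eq (0 : ℕ) (-(bsum ψ) / (2 * (ℓ : ℂ)))
  have h2 := h1.add (hasSum_lam ψ τ)
  have hfun : (fun n : ℕ => coeffG ψ n * qq τ ^ n) = fun n : ℕ =>
      (if n = 0 then -(bsum ψ) / (2 * (ℓ : ℂ)) else 0) +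
        (∑ d ∈ n.divisors, ψ (d : ZMod ℓ)) * qq τ ^ n := by
    funext n
    by_cases hn : n = 0
    · subst hn
      simp [coeffG]
    · simp [coeffG, hn]
  rw [hfun]
  exact h2

end

end Fermat.Agent.DS.Eis1.QExp
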