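/-
Programme DS (S48), brick DS-EIS1 (weight one Eisenstein series), file 10.
The weight one Eisenstein series `G_ψ` (ψ an odd Dirichlet character modulo a prime `ℓ`)
as a Mathlib `ModularForm` of level `Γ₁(ℓ)`, its nebentypus law under `Γ₀(ℓ)` and its
`q`-expansion.
-/
import Fermat.Agent.DS.Eis1.QExp
import Fermat.Agent.DS.Eis1.Bound
import Mathlib.NumberTheory.ModularForms.EisensteinSeries.Basic

set_option autoImplicit false

namespace Fermat.Agent.DS.Eis1.Form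

open UpperHalfPlane hiding I
open Complex Filter Topology MatrixGroups Matrix ModularForm CongruenceSubgroup
open Fermat.Agent.DS.Eis1.CotG Fermat.Agent.DS.Eis1.Phi Fermat.Agent.DS.Eis1.Zeta
  Fermat.Agent.DS.Eis1.ZetaPhi Fermat.Agent.DS.Eis1.Trans Fermat.Agent.DS.Eis1.Torsion
  Fermat.Agent.DS.Eis1.QExp Fermat.Agent.DS.Eis1.Bound

noncomputable section

/-- Boundedness of `Z_b` for an arbitrary index vector `b` not divisible by `ℓ`. -/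
lemma exists_bound_Zb {ℓ : ℕ} (hℓ : ℓ ≠ 0) (b : Fin 2 → ℤ)
    (hb : ¬ ((ℓ : ℤ) ∣ b 0 ∧ (ℓ : ℤ) ∣ b 1)) :
    ∃ M : ℝ, ∀ τ : ℍ, (ℓ : ℝ) ≤ τ.im → ‖Zb ℓ b τ‖ ≤ M := by
  have hℓpos : (0 : ℤ) < ℓ := by exact_mod_cast Nat.pos_of_ne_zero hℓ
  have hℓne : (ℓ : ℤ) ≠ 0 := hℓpos.ne'
  set r : ℕ := (b 0 % (ℓ : ℤ)).toNat with hr
  set s : ℕ := (b 1 % (ℓ : ℤ)).toNat with hs
  have hr' : (r : ℤ) = b 0 % (ℓ : ℤ) := Int.toNat_of_nonneg (Int.emod_nonneg _ hℓne)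
  have hs' : (s : ℤ) = b 1 % (ℓ : ℤ) := Int.toNat_of_nonneg (Int.emod_nonneg _ hℓne)
  have hrlt : r < ℓ := by
    have : (r : ℤ) < ℓ := by rw [hr']; exact Int.emod_lt_of_pos _ hℓpos
    exact_mod_cast this
  obtain ⟨M, hM⟩ := exists_bound_Zb_nat hℓ r s hrlt
  refine ⟨M, fun τ hτ => ?_⟩
  have h0 : (ℓ : ℤ) ∣ (![(r : ℤ), (s : ℤ)] : Fin 2 → ℤ) 0 - b 0 := by
    simp only [Matrix.cons_val_zero]
    rw [hr']
    exact ⟨-(b 0 / ℓ), by have := Int.emod_add_mul_ediv (b 0) ℓ; linarith⟩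
  have h1 : (ℓ : ℤ) ∣ (![(r : ℤ), (s : ℤ)] : Fin 2 → ℤ) 1 - b 1 := by
    simp only [Matrix.cons_val_one, Matrix.cons_val_fin_one]
    rw [hs']
    exact ⟨-(b 1 / ℓ), by have := Int.emod_add_mul_ediv (b 1) ℓ; linarith⟩
  rw [← Zb_congr hℓ hb h0 h1 τ]
  exact hM τ hτ

variable {ℓ : ℕ} [hp : Fact ℓ.Prime] (ψ : DirichletCharacter ℂ ℓ)

/-- The slash of `G_ψ` by an arbitrary element of `SL(2,ℤ)` in terms of the `Z_b`. -/
lemma Gpsi_slash_apply (γ : SL(2, ℤ)) (τ : ℍ) :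
    (Gpsi ψ ∣[(1 : ℤ)] γ) τ =
      (∑ a : ZMod ℓ, ψ⁻¹ a * Zb ℓ ((![0, (a.val : ℤ)] : Fin 2 → ℤ) ᵥ*
        (γ : Matrix (Fin 2) (Fin 2) ℤ)) τ) / (-(4 * Real.pi * I * gs ψ)) := by
  have hℓ : ℓ ≠ 0 := hp.out.ne_zero
  have hj : (denom γ τ : ℂ) ≠ 0 := denom_ne_zero _ τ
  rw [SL_slash_apply, Gpsi, Fpsi]
  have hterm : ∀ a : ZMod ℓ, ψ⁻¹ a * Zb ℓ ![0, (a.val : ℤ)] (γ • τ) =
      denom γ τ * (ψ⁻¹ a * Zb ℓ ((![0, (a.val : ℤ)] : Fin 2 → ℤ) ᵥ*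
        (γ : Matrix (Fin 2) (Fin 2) ℤ)) τ) := by
    intro a
    by_cases ha : a = 0
    · subst ha
      have h0 : ψ⁻¹ (0 : ZMod ℓ) = 0 := MulChar.map_nonunit _ not_isUnit_zero
      rw [h0]
      ring
    · have hv : (![0, (a.val : ℤ)] : Fin 2 → ℤ) ᵥ* (γ : Matrix (Fin 2) (Fin 2) ℤ) =
          ![(a.val : ℤ) * γ 1 0, (a.val : ℤ) * γ 1 1] := by
        funext i
        fin_cases i <;> simp [Matrix.vecMul, dotProduct, Fin.sum_univ_two]
      have hdet : (γ 0 0 : ℤ) * γ 1 1 - (γ 0 1 : ℤ) * γ 1 0 = 1 := by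
        have := Matrix.SpecialLinearGroup.det_coe γ
        rw [Matrix.det_fin_two] at this
        exact this
      have hprime : Prime (ℓ : ℤ) := Nat.prime_iff_prime_int.mp hp.out
      have hval : ¬ (ℓ : ℤ) ∣ (a.val : ℤ) := by
        intro h
        have := not_dvd_val ha
        apply this
        constructor
        · simp
        · simpa using h
      have hoff : OffLat τ (zpt ℓ ((![0, (a.val : ℤ)] : Fin 2 → ℤ) ᵥ*
          (γ : Matrix (Fin 2) (Fin 2) ℤ)) τ) := by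
        rw [hv]
        refine offLat_zpt hℓ ?_ τ
        rintro ⟨h0, h1⟩
        simp only [Matrix.cons_val_zero, Matrix.cons_val_one, Matrix.cons_val_fin_one] at h0 h1
        have hc := (hprime.dvd_or_dvd h0).resolve_left hval
        have hd := (hprime.dvd_or_dvd h1).resolve_left hval
        have h1' : (ℓ : ℤ) ∣ 1 := by
          rw [← hdet]
          exact Dvd.dvd.sub (Dvd.dvd.mul_left hd _) (Dvd.dvd.mul_left hc _)
        exact hprime.not_dvd_one h1'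
      rw [Zb_smul ℓ γ _ τ hoff]
      ring
  rw [Finset.sum_congr rfl (fun a _ => hterm a), ← Finset.mul_sum]
  simp only [Int.reduceNeg, _root_.zpow_neg, zpow_one]
  field_simp

/-- `G_ψ ∣[1] γ` is bounded at `i∞` for every `γ ∈ SL(2,ℤ)`. -/
theorem isBoundedAtImInfty_Gpsi_slash (γ : SL(2, ℤ)) :
    IsBoundedAtImInfty (Gpsi ψ ∣[(1 : ℤ)] γ) := by
  have hℓ : ℓ ≠ 0 := hp.out.ne_zero
  rw [UpperHalfPlane.isBoundedAtImInfty_iff]
  -- a bound for each term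
  have hex : ∀ a : ZMod ℓ, ∃ M : ℝ, ∀ τ : ℍ, (ℓ : ℝ) ≤ τ.im →
      ‖ψ⁻¹ a * Zb ℓ ((![0, (a.val : ℤ)] : Fin 2 → ℤ) ᵥ*
        (γ : Matrix (Fin 2) (Fin 2) ℤ)) τ‖ ≤ M := by
    intro a
    by_cases ha : a = 0
    · subst ha
      have h0 : ψ⁻¹ (0 : ZMod ℓ) = 0 := MulChar.map_nonunit _ not_isUnit_zero
      exact ⟨0, fun τ _ => by rw [h0, zero_mul, norm_zero]⟩
    · have hv : (![0, (a.val : ℤ)] : Fin 2 → ℤ) ᵥ* (γ : Matrix (Fin 2) (Fin 2) ℤ) =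
          ![(a.val : ℤ) * γ 1 0, (a.val : ℤ) * γ 1 1] := by
        funext i
        fin_cases i <;> simp [Matrix.vecMul, dotProduct, Fin.sum_univ_two]
      have hdet : (γ 0 0 : ℤ) * γ 1 1 - (γ 0 1 : ℤ) * γ 1 0 = 1 := by
        have := Matrix.SpecialLinearGroup.det_coe γ
        rw [Matrix.det_fin_two] at this
        exact this
      have hprime : Prime (ℓ : ℤ) := Nat.prime_iff_prime_int.mp hp.out
      have hval : ¬ (ℓ : ℤ) ∣ (a.val : ℤ) := by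
        intro h
        have := not_dvd_val ha
        apply this
        constructor
        · simp
        · simpa using h
      have hnd : ¬ ((ℓ : ℤ) ∣ ((![0, (a.val : ℤ)] : Fin 2 → ℤ) ᵥ*
            (γ : Matrix (Fin 2) (Fin 2) ℤ)) 0 ∧
          (ℓ : ℤ) ∣ ((![0, (a.val : ℤ)] : Fin 2 → ℤ) ᵥ*
            (γ : Matrix (Fin 2) (Fin 2) ℤ)) 1) := by
        rw [hv]
        rintro ⟨h0, h1⟩
        simp only [Matrix.cons_val_zero, Matrix.cons_val_one, Matrix.cons_val_fin_one] at h0 h1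
        have hc := (hprime.dvd_or_dvd h0).resolve_left hval
        have hd := (hprime.dvd_or_dvd h1).resolve_left hval
        have h1' : (ℓ : ℤ) ∣ 1 := by
          rw [← hdet]
          exact Dvd.dvd.sub (Dvd.dvd.mul_left hd _) (Dvd.dvd.mul_left hc _)
        exact hprime.not_dvd_one h1'
      obtain ⟨M, hM⟩ := exists_bound_Zb hℓ _ hnd
      refine ⟨1 * M, fun τ hτ => ?_⟩
      rw [norm_mul]
      have h1 : ‖ψ⁻¹ a‖ ≤ 1 := DirichletCharacter.norm_le_one _ _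
      have h2 := hM τ hτ
      exact mul_le_mul h1 h2 (norm_nonneg _) zero_le_one
  choose M hM using hex
  refine ⟨(∑ a : ZMod ℓ, M a) / ‖(-(4 * Real.pi * I * gs ψ) : ℂ)‖, ℓ, fun τ hτ => ?_⟩
  rw [Gpsi_slash_apply, norm_div]
  gcongr
  exact (norm_sum_le _ _).trans (Finset.sum_le_sum fun a _ => hM a τ hτ)

/-- The nebentypus law under `Γ₀(ℓ)`. -/
theorem Gpsi_slash_Gamma0 {γ : SL(2, ℤ)} (hγ : γ ∈ Gamma0 ℓ) :
    Gpsi ψ ∣[(1 : ℤ)] γ = ψ ((γ 1 1 : ℤ) : ZMod ℓ) • Gpsi ψ := by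
  ext τ
  have hj : (denom γ τ : ℂ) ≠ 0 := denom_ne_zero _ τ
  rw [SL_slash_apply, Pi.smul_apply, smul_eq_mul, Gpsi, Gpsi, Fpsi_smul ψ hγ]
  simp only [Int.reduceNeg, _root_.zpow_neg, zpow_one]
  field_simp

end

end Fermat.Agent.DS.Eis1.Form
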