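/-
Programme DS (S48), brick DS-EIS1 (weight one Eisenstein series), file 11.
Holomorphy of `G_ψ`, the Mathlib `ModularForm` structure and the `q`-expansion coefficients.
-/
import Fermat.Agent.DS.Eis1.Form

set_option autoImplicit false

namespace Fermat.Agent.DS.Eis1.MF

open UpperHalfPlane hiding I
open Complex Filter Topology MatrixGroups Matrix ModularForm CongruenceSubgroup
open scoped Manifold
open Fermat.Agent.DS.Eis1.CotG Fermat.Agent.DS.Eis1.Phi Fermat.Agent.DS.Eis1.Zeta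
  Fermat.Agent.DS.Eis1.ZetaPhi Fermat.Agent.DS.Eis1.Trans Fermat.Agent.DS.Eis1.Torsion
  Fermat.Agent.DS.Eis1.QExp Fermat.Agent.DS.Eis1.Bound Fermat.Agent.DS.Eis1.Form

noncomputable section

variable {ℓ : ℕ} [hp : Fact ℓ.Prime] (ψ : DirichletCharacter ℂ ℓ)

lemma norm_coeffG_le (n : ℕ) : ‖coeffG ψ n‖ ≤ ‖bsum ψ / (2 * (ℓ : ℂ))‖ + n := by
  by_cases hn : n = 0
  · subst hn
    simp [coeffG, neg_div]
  · rw [coeffG, if_neg hn]
    have h1 : ‖∑ d ∈ n.divisors, ψ (d : ZMod ℓ)‖ ≤ ∑ d ∈ n.divisors, (1 : ℝ) :=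
      norm_sum_le_of_le _ fun d _ => DirichletCharacter.norm_le_one ψ _
    have h2 : ∑ d ∈ n.divisors, (1 : ℝ) = (n.divisors.card : ℝ) := by simp
    have h3 : (n.divisors.card : ℝ) ≤ n := by exact_mod_cast Nat.card_divisors_le_self n
    have h4 : 0 ≤ ‖bsum ψ / (2 * (ℓ : ℂ))‖ := norm_nonneg _
    linarith

/-- `G_ψ` is holomorphic on the upper half plane. -/
theorem mdifferentiable_Gpsi {ψ : DirichletCharacter ℂ ℓ} (hodd : ψ.Odd) : MDiff (Gpsi ψ) := by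
  rw [UpperHalfPlane.mdifferentiable_iff]
  intro z₀ hz₀
  have hz₀' : 0 < z₀.im := hz₀
  set ε : ℝ := z₀.im / 2 with hε
  have hε0 : 0 < ε := by positivity
  set U : Set ℂ := {w : ℂ | ε < w.im} with hU
  have hUo : IsOpen U := isOpen_lt continuous_const Complex.continuous_im
  have hmem : z₀ ∈ U := by
    show ε < z₀.im
    rw [hε]
    linarith
  set ρ : ℝ := Real.exp (-2 * Real.pi * ε) with hρ
  have hρ0 : 0 < ρ := Real.exp_pos _
  have hρ1 : ρ < 1 := by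
    rw [hρ, Real.exp_lt_one_iff]
    nlinarith [Real.pi_pos]
  set C : ℝ := ‖bsum ψ / (2 * (ℓ : ℂ))‖ with hC
  -- the series
  let T : ℂ → ℂ := fun w => ∑' n : ℕ, coeffG ψ n * eN w ^ n
  have hsummable : Summable (fun n : ℕ => (C + n) * ρ ^ n) := by
    have h1 : Summable (fun n : ℕ => C * ρ ^ n) :=
      (summable_geometric_of_lt_one hρ0.le hρ1).mul_left C
    have h2 : Summable (fun n : ℕ => ((n : ℝ) ^ 1) * ρ ^ n) :=
      summable_pow_mul_geometric_of_norm_lt_one 1 (by rwa [Real.norm_of_nonneg hρ0.le])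
    simp only [pow_one] at h2
    refine (h1.add h2).congr fun n => ?_
    ring
  have hT : DifferentiableOn ℂ T U := by
    refine differentiableOn_tsum_of_summable_norm hsummable (fun n => ?_) hUo (fun n w hw => ?_)
    · have : Differentiable ℂ (fun w : ℂ => coeffG ψ n * eN w ^ n) := by
        unfold eN
        fun_prop
      exact this.differentiableOn
    · rw [norm_mul, norm_pow, norm_eN]
      have hw' : ε < w.im := hw
      have h1 : Real.exp (-2 * Real.pi * w.im) ≤ ρ := by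
        rw [hρ, Real.exp_le_exp]
        nlinarith [Real.pi_pos]
      have h2 : Real.exp (-2 * Real.pi * w.im) ^ n ≤ ρ ^ n :=
        pow_le_pow_left₀ (Real.exp_pos _).le h1 n
      have h3 := norm_coeffG_le ψ n
      have h4 : (0 : ℝ) ≤ C + n := by
        have : 0 ≤ C := norm_nonneg _
        positivity
      calc ‖coeffG ψ n‖ * Real.exp (-2 * Real.pi * w.im) ^ n
          ≤ (C + n) * Real.exp (-2 * Real.pi * w.im) ^ n := by
            gcongr
        _ ≤ (C + n) * ρ ^ n := by gcongr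
  have hTat : DifferentiableAt ℂ T z₀ := hT.differentiableAt (hUo.mem_nhds hmem)
  have heq : (Gpsi ψ ∘ (ofComplex : ℂ → ℍ)) =ᶠ[𝓝 z₀] T := by
    filter_upwards [hUo.mem_nhds hmem] with w hw
    have hw' : 0 < w.im := lt_trans hε0 hw
    have h1 := hasSum_Gpsi hodd (⟨w, hw'⟩ : ℍ)
    rw [Function.comp_apply, ofComplex_apply_of_im_pos hw']
    exact h1.tsum_eq.symm
  exact (hTat.congr_of_eventuallyEq heq).differentiableWithinAt

/-- The weight one Eisenstein series `G_ψ` as a modular form of level `Γ₁(ℓ)`. -/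
def eisMF {ψ : DirichletCharacter ℂ ℓ} (hodd : ψ.Odd) :
    ModularForm ((Gamma1 ℓ).map (Matrix.SpecialLinearGroup.mapGL ℝ)) 1 where
  toFun := Gpsi ψ
  slash_action_eq' A hA := by
    obtain ⟨A, hA, rfl⟩ := hA
    have h1 := (Gamma1_mem ℓ A).mp hA
    have h0 : A ∈ Gamma0 ℓ := Gamma0_mem.mpr h1.2.2
    have e : Gpsi ψ ∣[(1 : ℤ)] (Matrix.SpecialLinearGroup.mapGL ℝ A) = Gpsi ψ ∣[(1 : ℤ)] A := by
      rw [SL_slash]
      rfl
    rw [e, Gpsi_slash_Gamma0 ψ h0, h1.2.1, map_one, one_smul]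
  holo' := mdifferentiable_Gpsi hodd
  bdd_at_cusps' {c} hc := by
    rw [Subgroup.IsArithmetic.isCusp_iff_isCusp_SL2Z] at hc
    rw [OnePoint.isBoundedAt_iff_forall_SL2Z hc]
    exact fun γ _ => isBoundedAtImInfty_Gpsi_slash ψ γ

@[simp] lemma eisMF_apply {ψ : DirichletCharacter ℂ ℓ} (hodd : ψ.Odd) (τ : ℍ) :
    eisMF hodd τ = Gpsi ψ τ := rfl

lemma coe_eisMF {ψ : DirichletCharacter ℂ ℓ} (hodd : ψ.Odd) :
    (eisMF hodd : ℍ → ℂ) = Gpsi ψ := rfl

/-- Nebentypus: `G_ψ ∣[1] γ = ψ(d) G_ψ` for `γ ∈ Γ₀(ℓ)`. -/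
theorem eisMF_slash_Gamma0 {ψ : DirichletCharacter ℂ ℓ} (hodd : ψ.Odd) {γ : SL(2, ℤ)}
    (hγ : γ ∈ Gamma0 ℓ) :
    (eisMF hodd : ℍ → ℂ) ∣[(1 : ℤ)] γ = ψ ((γ 1 1 : ℤ) : ZMod ℓ) • (eisMF hodd : ℍ → ℂ) :=
  Gpsi_slash_Gamma0 ψ hγ

/-- The `q`-expansion of `G_ψ`. -/
theorem qExpansion_coeff_eisMF {ψ : DirichletCharacter ℂ ℓ} (hodd : ψ.Odd) (n : ℕ) :
    (qExpansion 1 (eisMF hodd)).coeff n = coeffG ψ n := by
  have h1 : (1 : ℝ) ∈ ((Gamma1 ℓ).map (Matrix.SpecialLinearGroup.mapGL ℝ)).strictPeriods := by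
    rw [strictPeriods_Gamma1]
    exact AddSubgroup.mem_zmultiples 1
  symm
  refine ModularFormClass.qExpansion_coeff_unique (c := coeffG ψ) one_pos h1 (f := eisMF hodd)
    (fun τ => ?_) n
  have h2 := hasSum_Gpsi hodd τ
  have e : Function.Periodic.qParam 1 (τ : ℂ) = qq τ := by
    simp [Function.Periodic.qParam, qq, eN]
  simp only [e, smul_eq_mul]
  exact h2

theorem qExpansion_coeff_eisMF_zero {ψ : DirichletCharacter ℂ ℓ} (hodd : ψ.Odd) :
    (qExpansion 1 (eisMF hodd)).coeff 0 =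
      -(∑ b ∈ Finset.range ℓ, (b : ℂ) * ψ (b : ZMod ℓ)) / (2 * ℓ) := by
  rw [qExpansion_coeff_eisMF, coeffG, if_pos rfl, bsum]

theorem qExpansion_coeff_eisMF_pos {ψ : DirichletCharacter ℂ ℓ} (hodd : ψ.Odd) {n : ℕ}
    (hn : n ≠ 0) :
    (qExpansion 1 (eisMF hodd)).coeff n = ∑ d ∈ n.divisors, ψ (d : ZMod ℓ) := by
  rw [qExpansion_coeff_eisMF, coeffG, if_neg hn]

end

end Fermat.Agent.DS.Eis1.MF
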