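/-
Programme DS (S48), brick DS-EIS1 (weight one Eisenstein series), file 12.
The case of the quadratic character modulo a prime `ℓ ≡ 3 (mod 4)` (e.g. `ℓ = 7`):
a nonzero weight one modular form on `Γ₁(ℓ)` with rational `q`-expansion.
-/
import Fermat.Agent.DS.Eis1.MF
import Mathlib.NumberTheory.LegendreSymbol.QuadraticChar.Basic

set_option autoImplicit false

namespace Fermat.Agent.DS.Eis1.Quad

open UpperHalfPlane hiding I
open Complex MatrixGroups Matrix ModularForm CongruenceSubgroup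
open Fermat.Agent.DS.Eis1.QExp Fermat.Agent.DS.Eis1.MF

noncomputable section

variable (ℓ : ℕ) [hp : Fact ℓ.Prime]

/-- The quadratic character modulo `ℓ` as a complex Dirichlet character. -/
def quadChar : DirichletCharacter ℂ ℓ :=
  (quadraticChar (ZMod ℓ)).ringHomComp (Int.castRingHom ℂ)

lemma quadChar_apply (a : ZMod ℓ) : quadChar ℓ a = ((quadraticChar (ZMod ℓ) a : ℤ) : ℂ) := by
  rw [quadChar, MulChar.ringHomComp_apply]
  rfl

variable {ℓ}

lemma quadChar_odd (h : ℓ % 4 = 3) : (quadChar ℓ).Odd := by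
  have h2 : ringChar (ZMod ℓ) ≠ 2 := by
    rw [ZMod.ringChar_zmod_n]
    rintro rfl
    norm_num at h
  show quadChar ℓ (-1) = -1
  rw [quadChar_apply, quadraticChar_neg_one h2, ZMod.card, ZMod.χ₄_nat_three_mod_four h]
  norm_num

/-- The weight one Eisenstein series of the quadratic character modulo `ℓ ≡ 3 (mod 4)`. -/
def eisQuad (h : ℓ % 4 = 3) :
    ModularForm ((Gamma1 ℓ).map (Matrix.SpecialLinearGroup.mapGL ℝ)) 1 :=
  eisMF (quadChar_odd h)

theorem eisQuad_coeff_one (h : ℓ % 4 = 3) : (qExpansion 1 (eisQuad h)).coeff 1 = 1 := by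
  rw [eisQuad, qExpansion_coeff_eisMF_pos _ one_ne_zero]
  simp

theorem eisQuad_ne_zero (h : ℓ % 4 = 3) : eisQuad h ≠ 0 := by
  intro h0
  have h1 := eisQuad_coeff_one h
  rw [h0] at h1
  have : (qExpansion 1 ((0 : ModularForm ((Gamma1 ℓ).map (Matrix.SpecialLinearGroup.mapGL ℝ)) 1) :
      ℍ → ℂ)) = 0 := by
    rw [FunLike.coe_zero]
    exact UpperHalfPlane.qExpansion_zero 1
  rw [this] at h1
  simp at h1

/-- All `q`-expansion coefficients of `eisQuad` are rational. -/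
theorem eisQuad_coeff_rat (h : ℓ % 4 = 3) (n : ℕ) :
    ∃ r : ℚ, (qExpansion 1 (eisQuad h)).coeff n = (r : ℂ) := by
  by_cases hn : n = 0
  · subst hn
    refine ⟨-(∑ b ∈ Finset.range ℓ, (b : ℚ) * (quadraticChar (ZMod ℓ) (b : ZMod ℓ) : ℤ)) /
      (2 * ℓ), ?_⟩
    rw [eisQuad, qExpansion_coeff_eisMF_zero]
    push_cast
    congr 2
  · refine ⟨∑ d ∈ n.divisors, ((quadraticChar (ZMod ℓ) (d : ZMod ℓ) : ℤ) : ℚ), ?_⟩
    rw [eisQuad, qExpansion_coeff_eisMF_pos _ hn]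
    push_cast
    refine Finset.sum_congr rfl fun d _ => ?_
    rw [quadChar_apply]

/-- Nebentypus law. -/
theorem eisQuad_slash_Gamma0 (h : ℓ % 4 = 3) {γ : SL(2, ℤ)} (hγ : γ ∈ Gamma0 ℓ) :
    (eisQuad h : ℍ → ℂ) ∣[(1 : ℤ)] γ =
      quadChar ℓ ((γ 1 1 : ℤ) : ZMod ℓ) • (eisQuad h : ℍ → ℂ) :=
  eisMF_slash_Gamma0 (quadChar_odd h) hγ

end

end Fermat.Agent.DS.Eis1.Quad
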