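/-
Programme DS (S48), brick DS-EIS1 (weight one Eisenstein series), file 13.
The integral normalisation `eisInt = -(2ℓ) G_ψ` with `q`-expansion
`Σ_b b ψ(b) - 2ℓ Σ_{n ≥ 1} (Σ_{d ∣ n} ψ d) q^n`, and the congruence `-eisInt ≡ 1` modulo a prime
above `ℓ` when `ψ` is the inverse of the Teichmüller character.
-/
import Fermat.Agent.DS.Eis1.MF

set_option autoImplicit false

namespace Fermat.Agent.DS.Eis1.Congr

open UpperHalfPlane hiding I
open Complex MatrixGroups Matrix ModularForm CongruenceSubgroup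
open Fermat.Agent.DS.Eis1.Phi Fermat.Agent.DS.Eis1.QExp Fermat.Agent.DS.Eis1.MF

noncomputable section

variable {ℓ : ℕ} [hp : Fact ℓ.Prime] {ψ : DirichletCharacter ℂ ℓ}

/-- The integral normalisation `-(2ℓ) G_ψ` of the weight one Eisenstein series. -/
def eisInt (hodd : ψ.Odd) :
    ModularForm ((Gamma1 ℓ).map (Matrix.SpecialLinearGroup.mapGL ℝ)) 1 :=
  (-(2 * (ℓ : ℂ))) • eisMF hodd

lemma eisInt_apply (hodd : ψ.Odd) (τ : ℍ) : eisInt hodd τ = -(2 * (ℓ : ℂ)) * Gpsi ψ τ := rfl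

/-- The coefficients of `eisInt`. -/
def coeffInt (ψ : DirichletCharacter ℂ ℓ) (n : ℕ) : ℂ :=
  if n = 0 then ∑ b ∈ Finset.range ℓ, (b : ℂ) * ψ (b : ZMod ℓ)
  else -(2 * (ℓ : ℂ)) * ∑ d ∈ n.divisors, ψ (d : ZMod ℓ)

lemma coeffInt_eq (n : ℕ) : coeffInt ψ n = -(2 * (ℓ : ℂ)) * coeffG ψ n := by
  have hℓ : (ℓ : ℂ) ≠ 0 := by exact_mod_cast hp.out.ne_zero
  by_cases hn : n = 0
  · subst hn
    simp only [coeffInt, coeffG, if_pos, bsum]
    field_simp
  · simp only [coeffInt, coeffG, if_neg hn]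

theorem qExpansion_coeff_eisInt (hodd : ψ.Odd) (n : ℕ) :
    (qExpansion 1 (eisInt hodd)).coeff n = coeffInt ψ n := by
  have h1 : (1 : ℝ) ∈ ((Gamma1 ℓ).map (Matrix.SpecialLinearGroup.mapGL ℝ)).strictPeriods := by
    rw [strictPeriods_Gamma1]
    exact AddSubgroup.mem_zmultiples 1
  symm
  refine ModularFormClass.qExpansion_coeff_unique (c := coeffInt ψ) one_pos h1 (f := eisInt hodd)
    (fun τ => ?_) n
  have h2 := (hasSum_Gpsi hodd τ).mul_left (-(2 * (ℓ : ℂ)))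
  have e : Function.Periodic.qParam 1 (τ : ℂ) = qq τ := by
    simp [Function.Periodic.qParam, qq, Fermat.Agent.DS.Eis1.CotG.eN]
  simp only [e, smul_eq_mul, eisInt_apply]
  have hfun : (fun m : ℕ => coeffInt ψ m * qq τ ^ m) =
      fun m : ℕ => -(2 * (ℓ : ℂ)) * (coeffG ψ m * qq τ ^ m) := by
    funext m
    rw [coeffInt_eq]
    ring
  rw [hfun]
  exact h2

/-- Nebentypus law for `eisInt`. -/
theorem eisInt_slash_Gamma0 (hodd : ψ.Odd) {γ : SL(2, ℤ)} (hγ : γ ∈ Gamma0 ℓ) :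
    (eisInt hodd : ℍ → ℂ) ∣[(1 : ℤ)] γ = ψ ((γ 1 1 : ℤ) : ZMod ℓ) • (eisInt hodd : ℍ → ℂ) := by
  have h := eisMF_slash_Gamma0 hodd hγ
  have e : (eisInt hodd : ℍ → ℂ) = (-(2 * (ℓ : ℂ))) • (eisMF hodd : ℍ → ℂ) := rfl
  rw [e, ModularForm.SL_smul_slash, h, smul_comm]

/-- The congruence: if `ψ = ι ∘ t` with `t` valued in a ring `𝒪` and `φ : 𝒪 →+* k` is a ring
homomorphism to a field of characteristic `ℓ` such that `φ (t a) · a = 1` for `a ≠ 0`
(i.e. `ψ` is the inverse of the Teichmüller character attached to `φ`), then the `q`-expansion of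
`eisInt` has coefficients in `𝒪` and reduces to the constant `-1`. -/
theorem eisInt_congr (hodd : ψ.Odd) {𝒪 k : Type*} [CommRing 𝒪] [Field k] [CharP k ℓ]
    (ι : 𝒪 →+* ℂ) (φ : 𝒪 →+* k) (t : ZMod ℓ → 𝒪) (hψ : ∀ a, ψ a = ι (t a))
    (ht : ∀ a : ZMod ℓ, a ≠ 0 → φ (t a) * (a.val : k) = 1) :
    ∃ c : ℕ → 𝒪, (∀ n, (qExpansion 1 (eisInt hodd)).coeff n = ι (c n)) ∧
      φ (c 0) = -1 ∧ ∀ n, n ≠ 0 → φ (c n) = 0 := by
  refine ⟨fun n => if n = 0 then ∑ b ∈ Finset.range ℓ, (b : 𝒪) * t (b : ZMod ℓ)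
    else -(2 * (ℓ : 𝒪)) * ∑ d ∈ n.divisors, t (d : ZMod ℓ), ?_, ?_, ?_⟩
  · intro n
    rw [qExpansion_coeff_eisInt, coeffInt]
    by_cases hn : n = 0
    · simp only [if_pos hn, map_sum, map_mul, map_natCast, hψ]
    · simp only [if_neg hn, map_sum, map_mul, map_neg, map_natCast, map_ofNat, hψ]
  · simp only [if_pos, map_sum, map_mul, map_natCast]
    have hterm : ∀ b ∈ Finset.range ℓ, (b : k) * φ (t (b : ZMod ℓ)) = if b = 0 then 0 else 1 := by
      intro b hb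
      by_cases hb0 : b = 0
      · subst hb0
        simp
      · rw [if_neg hb0]
        have hlt : b < ℓ := Finset.mem_range.mp hb
        have hne : ((b : ZMod ℓ)) ≠ 0 := by
          intro h
          rw [ZMod.natCast_eq_zero_iff] at h
          exact hb0 (Nat.eq_zero_of_dvd_of_lt h hlt)
        have hval : ((b : ZMod ℓ)).val = b := ZMod.val_natCast_of_lt hlt
        have := ht (b : ZMod ℓ) hne
        rw [hval] at this
        rw [mul_comm]
        exact this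
    rw [Finset.sum_congr rfl hterm, Finset.sum_ite, Finset.sum_const_zero, zero_add,
      Finset.sum_const, nsmul_eq_mul, mul_one]
    have hcard : (Finset.filter (fun b => ¬ b = 0) (Finset.range ℓ)).card = ℓ - 1 := by
      have h1 : Finset.filter (fun b => ¬ b = 0) (Finset.range ℓ) = (Finset.range ℓ).erase 0 := by
        ext b
        simp [Finset.mem_erase, and_comm]
      rw [h1, Finset.card_erase_of_mem (Finset.mem_range.mpr hp.out.pos), Finset.card_range]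
    rw [hcard, Nat.cast_sub hp.out.one_le, CharP.cast_eq_zero k ℓ]
    simp
  · intro n hn
    simp only [if_neg hn, map_mul, map_neg, map_natCast, map_ofNat, CharP.cast_eq_zero k ℓ]
    simp

end

end Fermat.Agent.DS.Eis1.Congr
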