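/-
Programme DS (S48), brick X1-WP, file 4.
Lambert series regrouping with two-variable coefficients:
`Σ_{d,k ≥ 1} F k d r^{d k} = Σ_N (Σ_{d k = N} F k d) r^N` when `‖F k d‖ ≤ C k` and `‖r‖ < 1`.
-/
import Mathlib.NumberTheory.TsumDivisorsAntidiagonal
import Mathlib.Analysis.Complex.Basic

set_option autoImplicit false

namespace Fermat.Agent.DS.Eis1.Lambert2

open Filter Topology

noncomputable section

lemma summable_prod_weighted {F : ℕ → ℕ → ℂ} {C : ℝ} (hF : ∀ k d, ‖F k d‖ ≤ C * k) {r : ℂ}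
    (hr : ‖r‖ < 1) :
    Summable (fun c : ℕ+ × ℕ+ => F c.2 c.1 * r ^ ((c.1 : ℕ) * (c.2 : ℕ))) := by
  have h0 : ‖(‖r‖ : ℝ)‖ < 1 := by simpa using hr
  have h1 := (summable_prod_mul_pow (𝕜 := ℝ) 1 h0).mul_left C
  refine Summable.of_norm_bounded h1 fun c => ?_
  rw [norm_mul, norm_pow]
  have h2 := hF c.2 c.1
  have h3 : (0 : ℝ) ≤ ‖r‖ ^ ((c.1 : ℕ) * (c.2 : ℕ)) := by positivity
  calc ‖F c.2 c.1‖ * ‖r‖ ^ ((c.1 : ℕ) * (c.2 : ℕ))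
      ≤ (C * (c.2 : ℕ)) * ‖r‖ ^ ((c.1 : ℕ) * (c.2 : ℕ)) := mul_le_mul_of_nonneg_right h2 h3
    _ = C * (((c.2 : ℕ) : ℝ) ^ 1 * ‖r‖ ^ ((c.1 : ℕ) * (c.2 : ℕ))) := by ring

lemma hasSum_lambert2_pnat {F : ℕ → ℕ → ℂ} {C : ℝ} (hF : ∀ k d, ‖F k d‖ ≤ C * k) {r : ℂ}
    (hr : ‖r‖ < 1) :
    HasSum (fun n : ℕ+ => (∑ x ∈ (n : ℕ).divisorsAntidiagonal, F x.2 x.1) * r ^ (n : ℕ))
      (∑' c : ℕ+ × ℕ+, F c.2 c.1 * r ^ ((c.1 : ℕ) * (c.2 : ℕ))) := by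
  have hS := summable_prod_weighted hF hr
  have hsum : HasSum ((fun c : ℕ+ × ℕ+ => F c.2 c.1 * r ^ ((c.1 : ℕ) * (c.2 : ℕ))) ∘
      sigmaAntidiagonalEquivProd) (∑' c : ℕ+ × ℕ+, F c.2 c.1 * r ^ ((c.1 : ℕ) * (c.2 : ℕ))) :=
    sigmaAntidiagonalEquivProd.hasSum_iff.mpr hS.hasSum
  refine hsum.sigma (fun n => ?_)
  have h1 := hasSum_fintype (fun c : Nat.divisorsAntidiagonal (n : ℕ) =>
    ((fun c : ℕ+ × ℕ+ => F c.2 c.1 * r ^ ((c.1 : ℕ) * (c.2 : ℕ))) ∘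
      sigmaAntidiagonalEquivProd) ⟨n, c⟩)
  convert h1 using 1
  have e1 : ∀ c : Nat.divisorsAntidiagonal (n : ℕ),
      ((fun c : ℕ+ × ℕ+ => F c.2 c.1 * r ^ ((c.1 : ℕ) * (c.2 : ℕ))) ∘
        sigmaAntidiagonalEquivProd) ⟨n, c⟩ = F c.1.2 c.1.1 * r ^ (n : ℕ) := by
    intro c
    have hc := (Nat.mem_divisorsAntidiagonal.mp c.2).1
    simp only [Function.comp_apply, sigmaAntidiagonalEquivProd, divisorsAntidiagonalFactors,
      Equiv.coe_fn_mk, PNat.mk_coe, hc]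
  rw [Finset.sum_congr rfl (fun c _ => e1 c), ← Finset.sum_mul,
    Finset.sum_coe_sort (Nat.divisorsAntidiagonal (n : ℕ)) (fun c => F c.2 c.1)]

/-- Lambert regrouping with two-variable coefficients as a `HasSum` over `ℕ`. -/
theorem hasSum_lambert2 {F : ℕ → ℕ → ℂ} {C : ℝ} (hF : ∀ k d, ‖F k d‖ ≤ C * k) {r : ℂ}
    (hr : ‖r‖ < 1) :
    HasSum (fun N : ℕ => (∑ x ∈ N.divisorsAntidiagonal, F x.2 x.1) * r ^ N)
      (∑' d : ℕ, ∑' k : ℕ, F (k + 1) (d + 1) * r ^ ((d + 1) * (k + 1))) := by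
  have hS := summable_prod_weighted hF hr
  have h1 := hasSum_lambert2_pnat hF hr
  have hval : (∑' c : ℕ+ × ℕ+, F c.2 c.1 * r ^ ((c.1 : ℕ) * (c.2 : ℕ))) =
      ∑' d : ℕ, ∑' k : ℕ, F (k + 1) (d + 1) * r ^ ((d + 1) * (k + 1)) := by
    rw [hS.tsum_prod]
    rw [← tsum_pnat_eq_tsum_succ (f := fun d : ℕ => ∑' k : ℕ, F (k + 1) d * r ^ (d * (k + 1)))]
    refine tsum_congr fun a => ?_
    rw [← tsum_pnat_eq_tsum_succ (f := fun k : ℕ => F k (a : ℕ) * r ^ ((a : ℕ) * k))]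
  rw [hval] at h1
  have hsupp : Function.support
      (fun N : ℕ => (∑ x ∈ N.divisorsAntidiagonal, F x.2 x.1) * r ^ N) ⊆ {n : ℕ | 0 < n} := by
    intro n hn
    rw [Function.mem_support] at hn
    show 0 < n
    rw [Nat.pos_iff_ne_zero]
    rintro rfl
    simp at hn
  exact (hasSum_subtype_iff_of_support_subset hsupp).mp h1

/-- The inner sums are summable. -/
lemma summable_inner {F : ℕ → ℕ → ℂ} {C : ℝ} (hF : ∀ k d, ‖F k d‖ ≤ C * k) {r : ℂ}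
    (hr : ‖r‖ < 1) (d : ℕ) :
    Summable (fun k : ℕ => F (k + 1) (d + 1) * r ^ ((d + 1) * (k + 1))) := by
  have hS := summable_prod_weighted hF hr
  have h1 := hS.prod_factor (⟨d + 1, Nat.succ_pos d⟩ : ℕ+)
  have h2 : Summable (fun k : ℕ+ => F (k : ℕ) (d + 1) * r ^ ((d + 1) * (k : ℕ))) := h1
  have h3 := (Equiv.pnatEquivNat.symm.summable_iff).mpr h2
  refine h3.congr fun k => ?_
  simp [Equiv.pnatEquivNat]

end

end Fermat.Agent.DS.Eis1.Lambert2
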