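/-
Programme DS (S48), brick X1-WP (Weierstrass ℘ at torsion points), file 1.
The identity `Σ_{n ∈ ℤ} (w+n)^{-2} = (2πi)^2 h(e^{2πiw})`, `h(x) = x/(1-x)^2`, for ALL `w ∉ ℤ`
(in the paired form `w^{-2} + Σ_{n ≥ 1} ((w-n)^{-2} + (w+n)^{-2})`), obtained from the
Mittag-Leffler expansion of the cotangent by a two point identity and a limit.
-/
import Fermat.Agent.DS.Eis1.CotG
import Mathlib.Analysis.Normed.Group.Tannery

set_option autoImplicit false

namespace Fermat.Agent.DS.Eis1.WPInv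

open Complex Filter Topology
open Fermat.Agent.DS.Eis1.CotG

noncomputable section

/-- `h(x) = x/(1-x)^2`. -/
def hq (x : ℂ) : ℂ := x / (1 - x) ^ 2

lemma hq_inv (x : ℂ) : hq x⁻¹ = hq x := by
  by_cases hx : x = 0
  · subst hx
    simp [hq]
  by_cases h1 : x = 1
  · subst h1
    simp
  have h2 : (1 : ℂ) - x ≠ 0 := fun h => h1 (by rw [← sub_eq_zero, ← neg_eq_zero, neg_sub]; exact h)
  have h3 : (1 : ℂ) - x⁻¹ = -(1 - x) / x := by field_simp; ring
  rw [hq, hq, h3]
  field_simp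

lemma hasSum_hq {x : ℂ} (hx : ‖x‖ < 1) : HasSum (fun k : ℕ => (k : ℂ) * x ^ k) (hq x) :=
  hasSum_coe_mul_geometric_of_norm_lt_one hx

lemma norm_hq_le {x : ℂ} (hx : ‖x‖ ≤ 1 / 2) : ‖hq x‖ ≤ 4 * ‖x‖ := by
  have h1 : (1 : ℝ) / 2 ≤ ‖(1 : ℂ) - x‖ := by
    have := norm_sub_norm_le (1 : ℂ) x
    rw [norm_one] at this
    linarith
  have h2 : (1 : ℝ) / 4 ≤ ‖(1 : ℂ) - x‖ ^ 2 := by nlinarith
  rw [hq, norm_div, norm_pow, div_le_iff₀ (by linarith)]
  nlinarith [norm_nonneg x]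

lemma hasDerivAt_eN (w : ℂ) : HasDerivAt eN (2 * Real.pi * I * eN w) w := by
  have h1 : HasDerivAt (fun y : ℂ => 2 * Real.pi * I * y) (2 * Real.pi * I) w := by
    simpa using (hasDerivAt_id w).const_mul (2 * Real.pi * I)
  have h2 := (Complex.hasDerivAt_exp (2 * Real.pi * I * w)).comp w h1
  have e : (cexp ∘ fun y : ℂ => 2 * Real.pi * I * y) = eN := rfl
  rw [e] at h2
  refine h2.congr_deriv ?_
  show cexp (2 * Real.pi * I * w) * (2 * Real.pi * I) =
    2 * Real.pi * I * cexp (2 * Real.pi * I * w)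
  ring

lemma hasDerivAt_gq {x : ℂ} (hx : (1 : ℂ) - x ≠ 0) :
    HasDerivAt gq (((1 : ℂ) - x) ^ 2)⁻¹ x := by
  have h1 : HasDerivAt (fun y : ℂ => (1 : ℂ) - y) (-1) x := by
    simpa using (hasDerivAt_id x).const_sub (1 : ℂ)
  have h2 := (hasDerivAt_id x).div h1 hx
  have e : ((id : ℂ → ℂ) / fun y : ℂ => (1 : ℂ) - y) = gq := rfl
  rw [e] at h2
  refine h2.congr_deriv ?_
  simp only [id]
  field_simp
  ring

lemma hasDerivAt_cotPi {w : ℂ} (hw : w ∈ Complex.integerComplement) :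
    HasDerivAt cotPi (-((2 * Real.pi * I) ^ 2 * hq (eN w))) w := by
  have hne : eN w ≠ 1 := (eN_ne_one_iff w).mpr hw
  have h1 : (1 : ℂ) - eN w ≠ 0 := fun h => hne (by rw [← sub_eq_zero, ← neg_eq_zero, neg_sub]; exact h)
  have hcomp := (hasDerivAt_gq h1).comp w (hasDerivAt_eN w)
  have h2 : HasDerivAt (fun y : ℂ => -(Real.pi * I) - 2 * Real.pi * I * gq (eN y))
      (-((2 * Real.pi * I) ^ 2 * hq (eN w))) w := by
    have h3 := (hcomp.const_mul (2 * Real.pi * I)).const_sub (-(Real.pi * I))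
    refine h3.congr_deriv ?_
    unfold hq
    field_simp
  refine h2.congr_of_eventuallyEq ?_
  have hopen : IsOpen Complex.integerComplement := Complex.isOpen_compl_range_intCast
  filter_upwards [hopen.mem_nhds hw] with y hy
  exact cotPi_eq_gq ((eN_ne_one_iff y).mpr hy)

/-- The paired two point summand. -/
def T2 (w y : ℂ) (n : ℕ) : ℂ :=
  ((w - (n + 1)) * (y - (n + 1)))⁻¹ + ((w + (n + 1)) * (y + (n + 1)))⁻¹

lemma add_natCast_ne_zero {w : ℂ} (hw : w ∈ Complex.integerComplement) (n : ℕ) :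
    w + ((n : ℂ) + 1) ≠ 0 := by
  have := Complex.integerComplement_add_ne_zero hw ((n : ℤ) + 1)
  simpa using this

lemma sub_natCast_ne_zero {w : ℂ} (hw : w ∈ Complex.integerComplement) (n : ℕ) :
    w - ((n : ℂ) + 1) ≠ 0 := by
  have := Complex.integerComplement_add_ne_zero hw (-((n : ℤ) + 1))
  simpa [sub_eq_add_neg] using this

lemma ne_zero_of_mem {w : ℂ} (hw : w ∈ Complex.integerComplement) : w ≠ 0 := by
  have := Complex.integerComplement_add_ne_zero hw 0
  simpa using this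

lemma hasSum_T2 {w y : ℂ} (hw : w ∈ Complex.integerComplement)
    (hy : y ∈ Complex.integerComplement) (hne : y ≠ w) :
    HasSum (T2 w y) ((cotPi w - cotPi y) / (y - w) - (w * y)⁻¹) := by
  have h1 := (hasSum_cotPi hw).sub (hasSum_cotPi hy)
  have hyw : y - w ≠ 0 := sub_ne_zero.mpr hne
  have h2 := h1.mul_left (y - w)⁻¹
  have hw0 := ne_zero_of_mem hw
  have hy0 := ne_zero_of_mem hy
  have e1 : (y - w)⁻¹ * (cotPi w - w⁻¹ - (cotPi y - y⁻¹)) =
      (cotPi w - cotPi y) / (y - w) - (w * y)⁻¹ := by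
    field_simp
    ring
  rw [e1] at h2
  have e2 : (fun n : ℕ => (y - w)⁻¹ * ((w - ((n : ℂ) + 1))⁻¹ + (w + ((n : ℂ) + 1))⁻¹ -
      ((y - ((n : ℂ) + 1))⁻¹ + (y + ((n : ℂ) + 1))⁻¹))) = T2 w y := by
    funext n
    have a1 := add_natCast_ne_zero hw n
    have a2 := sub_natCast_ne_zero hw n
    have a3 := add_natCast_ne_zero hy n
    have a4 := sub_natCast_ne_zero hy n
    rw [T2]
    field_simp
    ring
  rw [e2] at h2
  exact h2

lemma summable_inv_sq_bound (w : ℂ) :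
    Summable (fun n : ℕ => 2 * (‖w - ((n : ℂ) + 1)‖ ^ 2)⁻¹ + 2 * (‖w + ((n : ℂ) + 1)‖ ^ 2)⁻¹) := by
  have h0 := (EisensteinSeries.linear_right_summable w 1 (k := 2) le_rfl).norm
  have hi1 : Function.Injective (fun n : ℕ => ((n : ℤ) + 1)) := by
    intro a b h
    simpa using h
  have hi2 : Function.Injective (fun n : ℕ => -((n : ℤ) + 1)) := by
    intro a b h
    simpa using h
  have s1 := (h0.comp_injective hi1).mul_left 2
  have s2 := (h0.comp_injective hi2).mul_left 2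
  refine (s2.add s1).congr fun n => ?_
  simp only [Function.comp_apply, Int.cast_one, one_mul, norm_inv, norm_zpow]
  push_cast
  have e1 : w + -((n : ℂ) + 1) = w - ((n : ℂ) + 1) := by ring
  rw [e1]
  norm_cast

/-- The sum of inverse squares over `w + ℤ`, in paired form. -/
theorem hasSum_inv_sq {w : ℂ} (hw : w ∈ Complex.integerComplement) :
    HasSum (fun n : ℕ => ((w - (n + 1)) ^ 2)⁻¹ + ((w + (n + 1)) ^ 2)⁻¹)
      ((2 * Real.pi * I) ^ 2 * hq (eN w) - (w ^ 2)⁻¹) := by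
  have hw0 := ne_zero_of_mem hw
  have hopen : IsOpen Complex.integerComplement := Complex.isOpen_compl_range_intCast
  obtain ⟨ε, hε, hball⟩ := Metric.isOpen_iff.mp hopen w hw
  -- integers are at distance at least `ε` from `w`
  have hdist : ∀ N : ℤ, ε ≤ ‖w - N‖ := by
    intro N
    by_contra h
    push Not at h
    have hmem : (N : ℂ) ∈ Metric.ball w ε := by
      rw [Metric.mem_ball, dist_eq_norm, norm_sub_rev]
      exact h
    exact hball hmem ⟨N, rfl⟩
  have hbound : ∀ᶠ y in 𝓝[≠] w, ∀ n : ℕ, ‖T2 w y n‖ ≤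
      2 * (‖w - ((n : ℂ) + 1)‖ ^ 2)⁻¹ + 2 * (‖w + ((n : ℂ) + 1)‖ ^ 2)⁻¹ := by
    filter_upwards [eventually_nhdsWithin_of_eventually_nhds
      (Metric.ball_mem_nhds w (half_pos hε))] with y hy n
    rw [dist_eq_norm] at hy
    have key : ∀ N : ℤ, ‖((w - N) * (y - N))⁻¹‖ ≤ 2 * (‖w - N‖ ^ 2)⁻¹ := by
      intro N
      have h1 := hdist N
      have h2 : ‖w - N‖ / 2 ≤ ‖y - N‖ := by
        have h3 : ‖w - N‖ ≤ ‖y - N‖ + ‖y - w‖ := by
          have : w - N = (y - N) - (y - w) := by ring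
          rw [this]
          exact norm_sub_le _ _
        linarith
      have hpos : 0 < ‖w - N‖ := lt_of_lt_of_le hε h1
      rw [norm_inv, norm_mul]
      have h4 : ‖w - N‖ * (‖w - N‖ / 2) ≤ ‖w - N‖ * ‖y - N‖ :=
        mul_le_mul_of_nonneg_left h2 hpos.le
      have h5 : (‖w - N‖ * ‖y - N‖)⁻¹ ≤ (‖w - N‖ * (‖w - N‖ / 2))⁻¹ :=
        inv_anti₀ (by positivity) h4
      refine h5.trans (le_of_eq ?_)
      field_simp
    have k1 := key ((n : ℤ) + 1)
    have k2 := key (-((n : ℤ) + 1))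
    push_cast at k1 k2
    simp only [sub_neg_eq_add] at k2
    rw [T2]
    exact (norm_add_le _ _).trans (add_le_add k1 k2)
  have hpt : ∀ n : ℕ, Tendsto (fun y => T2 w y n) (𝓝[≠] w) (𝓝 (T2 w w n)) := by
    intro n
    have a1 := add_natCast_ne_zero hw n
    have a2 := sub_natCast_ne_zero hw n
    have hc : ContinuousAt (fun y : ℂ => T2 w y n) w := by
      unfold T2
      refine ContinuousAt.add ?_ ?_
      · refine ContinuousAt.inv₀ (by fun_prop) (mul_ne_zero a2 a2)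
      · refine ContinuousAt.inv₀ (by fun_prop) (mul_ne_zero a1 a1)
    exact tendsto_nhdsWithin_of_tendsto_nhds hc.tendsto
  have hlim1 := tendsto_tsum_of_dominated_convergence (summable_inv_sq_bound w) hpt hbound
  -- the other limit
  have hslope := (hasDerivAt_cotPi hw).tendsto_slope
  have hlim2 : Tendsto (fun y => (cotPi w - cotPi y) / (y - w) - (w * y)⁻¹) (𝓝[≠] w)
      (𝓝 ((2 * Real.pi * I) ^ 2 * hq (eN w) - (w * w)⁻¹)) := by
    have h1 : Tendsto (fun y => -(slope cotPi w y)) (𝓝[≠] w)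
        (𝓝 (-(-((2 * Real.pi * I) ^ 2 * hq (eN w))))) := hslope.neg
    rw [neg_neg] at h1
    have h2 : Tendsto (fun y : ℂ => (w * y)⁻¹) (𝓝[≠] w) (𝓝 ((w * w)⁻¹)) := by
      have hc : ContinuousAt (fun y : ℂ => (w * y)⁻¹) w :=
        ContinuousAt.inv₀ (by fun_prop) (mul_ne_zero hw0 hw0)
      exact tendsto_nhdsWithin_of_tendsto_nhds hc.tendsto
    refine (h1.sub h2).congr fun y => ?_
    rw [slope_def_field]
    ring
  have heq : ∀ᶠ y in 𝓝[≠] w, ∑' n, T2 w y n = (cotPi w - cotPi y) / (y - w) - (w * y)⁻¹ := by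
    filter_upwards [eventually_nhdsWithin_of_eventually_nhds (hopen.mem_nhds hw),
      self_mem_nhdsWithin] with y hy hne
    exact (hasSum_T2 hw hy hne).tsum_eq
  have hlim3 := hlim1.congr' heq
  have huniq := tendsto_nhds_unique hlim3 hlim2
  have hsummable : Summable (T2 w w) := by
    refine Summable.of_norm_bounded (summable_inv_sq_bound w) fun n => ?_
    have hlimn : Tendsto (fun y => ‖T2 w y n‖) (𝓝[≠] w) (𝓝 ‖T2 w w n‖) := (hpt n).norm
    exact le_of_tendsto hlimn (hbound.mono fun y hy => hy n)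
  have hfin := hsummable.hasSum
  rw [huniq] at hfin
  have e3 : (fun n : ℕ => ((w - ((n : ℂ) + 1)) ^ 2)⁻¹ + ((w + ((n : ℂ) + 1)) ^ 2)⁻¹) = T2 w w := by
    funext n
    rw [T2, sq, sq]
  rw [e3, sq w]
  exact hfin

end

end Fermat.Agent.DS.Eis1.WPInv
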