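/-
Programme DS (S48), brick X1-WP (Weierstrass ℘ at torsion points), file 2.
The Weierstrass ℘-function of the lattice `ℤτ + ℤ` as an absolutely convergent sum over
`Fin 2 → ℤ`, its weight two homogeneity under `SL(2,ℤ)`, and the identity
`℘(z;τ) = (2πi)^2 [h(u) + Σ_{m ≥ 1} (h(u q^m) + h(u⁻¹ q^m))] - G₂(τ)`.
-/
import Fermat.Agent.DS.Eis1.WPInv
import Fermat.Agent.DS.Eis1.ZetaPhi

set_option autoImplicit false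

namespace Fermat.Agent.DS.Eis1.WP

open UpperHalfPlane hiding I
open Complex Filter Topology EisensteinSeries MatrixGroups Matrix
open Fermat.Agent.DS.Eis1.CotG Fermat.Agent.DS.Eis1.Phi Fermat.Agent.DS.Eis1.Zeta
  Fermat.Agent.DS.Eis1.ZetaPhi Fermat.Agent.DS.Eis1.WPInv

noncomputable section

/-- The summand of the Weierstrass ℘-function; for `p = 0` this is `z^{-2}`. -/
def pterm (z : ℂ) (τ : ℍ) (p : Fin 2 → ℤ) : ℂ :=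
  ((z - om τ p) ^ 2)⁻¹ - ((om τ p) ^ 2)⁻¹

/-- The Weierstrass ℘-function of the lattice `ℤτ + ℤ`. -/
def wp (z : ℂ) (τ : ℍ) : ℂ := ∑' p : Fin 2 → ℤ, pterm z τ p

lemma pterm_eq {z : ℂ} {τ : ℍ} {p : Fin 2 → ℤ} (h0 : om τ p ≠ 0) (h1 : z - om τ p ≠ 0) :
    pterm z τ p = z * (2 * om τ p - z) * (((om τ p) ^ 2)⁻¹ * ((z - om τ p) ^ 2)⁻¹) := by
  rw [pterm]
  field_simp
  ring

lemma summable_pterm (z : ℂ) (τ : ℍ) : Summable (pterm z τ) := by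
  have hr := r_pos τ
  have hs : Summable (fun p : Fin 2 → ℤ => 12 * ‖z‖ * (r τ ^ 3)⁻¹ * ‖p‖ ^ (-(3 : ℝ))) :=
    (summable_one_div_norm_rpow (k := 3) (by norm_num)).mul_left _
  refine Summable.of_norm_bounded_eventually hs ?_
  filter_upwards [(tendsto_norm_om τ).eventually_ge_atTop (2 * ‖z‖ + 1)] with p hp
  have hω : 0 < ‖om τ p‖ := by linarith [norm_nonneg z]
  have h0 : om τ p ≠ 0 := norm_pos_iff.mp hω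
  have hsub : ‖om τ p‖ / 2 ≤ ‖z - om τ p‖ := by
    have := norm_sub_norm_le (om τ p) z
    rw [norm_sub_rev] at this
    linarith
  have h1 : z - om τ p ≠ 0 := by
    rw [← norm_pos_iff]
    linarith
  have hp0 : p ≠ 0 := by
    rintro rfl
    simp [om] at h0
  have hpn : 0 < ‖p‖ := norm_pos_iff.mpr hp0
  have hrp : r τ * ‖p‖ ≤ ‖om τ p‖ := r_mul_norm_le τ p
  have hrp0 : 0 < r τ * ‖p‖ := mul_pos hr hpn
  rw [pterm_eq h0 h1, norm_mul, norm_mul, norm_mul, norm_inv, norm_inv, norm_pow, norm_pow]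
  have e3 : ‖p‖ ^ (-(3 : ℝ)) = (‖p‖ ^ 3)⁻¹ := by
    rw [Real.rpow_neg (norm_nonneg _)]
    norm_cast
  rw [e3]
  have hnum : ‖2 * om τ p - z‖ ≤ 3 * ‖om τ p‖ := by
    calc ‖2 * om τ p - z‖ ≤ ‖2 * om τ p‖ + ‖z‖ := norm_sub_le _ _
      _ = 2 * ‖om τ p‖ + ‖z‖ := by rw [norm_mul, Complex.norm_ofNat]
      _ ≤ 3 * ‖om τ p‖ := by linarith [norm_nonneg z]
  have hb2 : (‖z - om τ p‖ ^ 2)⁻¹ ≤ ((‖om τ p‖ / 2) ^ 2)⁻¹ := by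
    gcongr
  -- ‖z‖ * ‖2ω - z‖ * (‖ω‖^2)⁻¹ * (‖z-ω‖^2)⁻¹ ≤ 12 ‖z‖ / ‖ω‖^3
  have hmain : ‖z‖ * ‖2 * om τ p - z‖ * ((‖om τ p‖ ^ 2)⁻¹ * (‖z - om τ p‖ ^ 2)⁻¹) ≤
      12 * ‖z‖ * (‖om τ p‖ ^ 3)⁻¹ := by
    calc ‖z‖ * ‖2 * om τ p - z‖ * ((‖om τ p‖ ^ 2)⁻¹ * (‖z - om τ p‖ ^ 2)⁻¹)
        ≤ ‖z‖ * (3 * ‖om τ p‖) * ((‖om τ p‖ ^ 2)⁻¹ * ((‖om τ p‖ / 2) ^ 2)⁻¹) := by
          gcongr
      _ = 12 * ‖z‖ * (‖om τ p‖ ^ 3)⁻¹ := by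
          field_simp
          ring
  refine hmain.trans ?_
  have hb3 : (‖om τ p‖ ^ 3)⁻¹ ≤ ((r τ * ‖p‖) ^ 3)⁻¹ := by
    gcongr
  calc 12 * ‖z‖ * (‖om τ p‖ ^ 3)⁻¹ ≤ 12 * ‖z‖ * ((r τ * ‖p‖) ^ 3)⁻¹ := by
        gcongr
    _ = 12 * ‖z‖ * (r τ ^ 3)⁻¹ * (‖p‖ ^ 3)⁻¹ := by
        rw [mul_pow, mul_inv]
        ring

lemma pterm_smul (γ : SL(2, ℤ)) (z : ℂ) (τ : ℍ) (p : Fin 2 → ℤ) :
    pterm (z / denom γ τ) (γ • τ) p =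
      (denom γ τ) ^ 2 * pterm z τ (p ᵥ* (γ : Matrix (Fin 2) (Fin 2) ℤ)) := by
  have hj : (denom γ τ : ℂ) ≠ 0 := denom_ne_zero _ τ
  rw [pterm, pterm, om_smul]
  set j : ℂ := denom γ τ
  set w : ℂ := om τ (p ᵥ* (γ : Matrix (Fin 2) (Fin 2) ℤ))
  have e1 : z / j - j⁻¹ * w = j⁻¹ * (z - w) := by ring
  rw [e1]
  simp only [mul_inv, inv_inv, mul_pow, inv_pow]
  ring

/-- Weight two homogeneity of `℘` under `SL(2,ℤ)`. -/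
theorem wp_smul (γ : SL(2, ℤ)) (z : ℂ) (τ : ℍ) :
    wp (z / denom γ τ) (γ • τ) = (denom γ τ) ^ 2 * wp z τ := by
  rw [wp, wp, ← (vecMulEquiv γ).tsum_eq (pterm z τ), ← tsum_mul_left]
  refine tsum_congr fun p => ?_
  rw [pterm_smul]
  rfl

lemma wp_neg (z : ℂ) (τ : ℍ) : wp (-z) τ = wp z τ := by
  rw [wp, wp, ← (Equiv.neg (Fin 2 → ℤ)).tsum_eq (pterm z τ)]
  refine tsum_congr fun p => ?_
  simp only [pterm, om, Equiv.neg_apply, Pi.neg_apply, Int.cast_neg]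
  congr 1
  · congr 1
    ring
  · congr 1
    ring

end

end Fermat.Agent.DS.Eis1.WP
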