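/-
Programme DS (S48), brick X1-WP (Weierstrass ℘ at torsion points), file 7.
The weight `-2` level one function `E₄ E₆ / Δ` (the normalising factor of the Fricke functions):
homogeneity under `SL(2,ℤ)` and its `q`-expansion `q⁻¹ (1 + …)` with integer coefficients, in the
`IsQExp` vocabulary of `X0/AnDefs`.
-/
import Fermat.Agent.X0.Analytic
import Fermat.Agent.X0.QExpRing
import Fermat.Agent.X0.JBasic

set_option autoImplicit false

noncomputable section

namespace Fermat.Agent.DS.Eis1.WPE6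

open Fermat.Agent.X0 Fermat.Agent.X0.JQExp
open UpperHalfPlane ModularForm EisensteinSeries Filter Topology Complex
open scoped MatrixGroups Manifold

local notation "𝕢" => Function.Periodic.qParam

/-- The integral `q`-expansion of `E₆`. -/
def eis6 : PowerSeries ℤ :=
  PowerSeries.mk fun n => if n = 0 then 1 else -504 * ∑ d ∈ n.divisors, (d : ℤ) ^ 5

theorem constantCoeff_eis6 : PowerSeries.constantCoeff eis6 = 1 := by
  rw [← PowerSeries.coeff_zero_eq_constantCoeff]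
  simp [eis6]

lemma tps_cuspFunction_E₆ :
    tps (cuspFunction 1 E₆) = PowerSeries.map (Int.castRingHom ℂ) eis6 := by
  ext m
  have h := EisensteinSeries.E_qExpansion_coeff (k := 6) (by norm_num) (by decide) m
  rw [qExpansion_coeff] at h
  rw [tps_coeff, h, PowerSeries.coeff_map, eis6, PowerSeries.coeff_mk]
  have hb : bernoulli 6 = 1 / 42 := by decide +kernel
  split_ifs with hm
  · simp
  · rw [hb, ArithmeticFunction.sigma_apply, eq_intCast]
    push_cast
    ring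

/-- The cusp function of `E₆` on the unit disc. -/
def e6Fun : ℂ → ℂ := cuspFunction 1 E₆

lemma differentiableOn_e6Fun : DifferentiableOn ℂ e6Fun (Metric.ball 0 1) := fun _ hq =>
  (ModularFormClass.differentiableAt_cuspFunction E₆ one_pos one_mem_strictPeriods_SL
    (mem_ball_zero_iff.mp hq)).differentiableWithinAt

lemma e6Fun_qParam (τ : ℍ) : e6Fun (𝕢 1 τ) = E₆ τ :=
  SlashInvariantFormClass.eq_cuspFunction E₆ τ one_mem_strictPeriods_SL one_ne_zero

lemma tps_e6Fun : tps e6Fun = PowerSeries.map (Int.castRingHom ℂ) eis6 :=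
  tps_cuspFunction_E₆

/-- The function `q · E₄ E₆ / Δ` on the unit disc. -/
def wm2Disc (q : ℂ) : ℂ := e4Fun q * e6Fun q / etaFun q ^ 24

lemma wm2Disc_eq : wm2Disc = e4Fun * e6Fun * (etaFun ^ 24)⁻¹ := by
  funext q
  simp [wm2Disc, div_eq_mul_inv]

theorem differentiableOn_wm2Disc : DifferentiableOn ℂ wm2Disc (Metric.ball 0 1) := by
  unfold wm2Disc
  refine DifferentiableOn.div (differentiableOn_e4Fun.mul differentiableOn_e6Fun)
    (differentiableOn_etaFun.pow 24) ?_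
  intro q hq
  exact pow_ne_zero _ (etaFun_ne_zero (mem_ball_zero_iff.mp hq))

/-- The integral power series `q · E₄ E₆ / Δ`. -/
def wm2Z : PowerSeries ℤ := ModularCurve.eisenstein4 * eis6 * ModularCurve.dedekindEtaUnitInv

theorem constantCoeff_wm2Z : PowerSeries.constantCoeff wm2Z = 1 := by
  rw [wm2Z, map_mul, map_mul, ModularCurve.constantCoeff_eisenstein4, constantCoeff_eis6,
    ModularCurve.constantCoeff_dedekindEtaUnitInv]
  norm_num

theorem tps_wm2Disc : tps wm2Disc = PowerSeries.map (Int.castRingHom ℂ) wm2Z := by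
  have h4 : AnalyticAt ℂ e4Fun 0 :=
    analyticAt_of_differentiableOn_ball differentiableOn_e4Fun (by simp)
  have h6 : AnalyticAt ℂ e6Fun 0 :=
    analyticAt_of_differentiableOn_ball differentiableOn_e6Fun (by simp)
  have he : AnalyticAt ℂ (etaFun ^ 24) 0 := (analyticAt_etaFun (by simp)).pow 24
  rw [wm2Disc_eq, tps_mul (h4.mul h6) (he.inv (by simp [etaFun_zero])), tps_mul h4 h6, tps_e4Fun,
    tps_e6Fun, tps_etaFun_pow_inv, wm2Z, map_mul, map_mul]

/-- The weight `-2` function `E₄ E₆ / Δ`. -/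
def wm2 (τ : ℍ) : ℂ := E₄ τ * E₆ τ / discriminant τ

theorem wm2Disc_qParam (τ : ℍ) : wm2Disc (𝕢 1 τ) = wm2 τ * 𝕢 1 τ := by
  have hq0 : 𝕢 1 (τ : ℂ) ≠ 0 := Function.Periodic.qParam_ne_zero _
  have hq : ‖𝕢 1 (τ : ℂ)‖ < 1 := by simpa using norm_qParam_lt_one 1 τ
  have he : etaFun (𝕢 1 τ) ^ 24 ≠ 0 := pow_ne_zero _ (etaFun_ne_zero hq)
  rw [wm2Disc, wm2, e4Fun_qParam, e6Fun_qParam, discriminant_eq_etaFun]
  field_simp

theorem wm2_smul (γ : SL(2, ℤ)) (τ : ℍ) :
    wm2 (γ • τ) = ((denom γ τ) ^ 2)⁻¹ * wm2 τ := by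
  have hd : denom γ τ ≠ 0 := denom_ne_zero γ τ
  have hΔ : discriminant τ ≠ 0 := discriminant_ne_zero τ
  rw [wm2, wm2, E₄_smul, E₆_smul, discriminant_smul]
  have h4 : denom γ τ ^ (4 : ℤ) = denom γ τ ^ 4 := by norm_cast
  have h6 : denom γ τ ^ (6 : ℤ) = denom γ τ ^ 6 := by norm_cast
  have h12 : denom γ τ ^ (12 : ℤ) = denom γ τ ^ 12 := by norm_cast
  rw [h4, h6, h12]
  field_simp

theorem wm2_mdifferentiable : MDifferentiable 𝓘(ℂ) 𝓘(ℂ) wm2 := by
  have h46 : MDifferentiable 𝓘(ℂ) 𝓘(ℂ) (fun z : ℍ => E₄ z * E₆ z) := (E₄.holo').mul (E₆.holo')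
  exact h46.div CuspForm.discriminant.holo' discriminant_ne_zero

/-- The `q`-expansion `E₄ E₆ / Δ = q⁻¹ · wm2Z(q)`. -/
theorem isQExp_wm2 : IsQExp 1 wm2 1 (wm2Z.map (Int.castRingHom ℂ)) := by
  intro z
  have hq : qh 1 z = 𝕢 1 (z : ℂ) := by
    unfold qh
    rw [Nat.cast_one]
  have hlt : ‖𝕢 1 (z : ℂ)‖ < 1 := by simpa using norm_qParam_lt_one 1 z
  rw [hq, pow_one, ← wm2Disc_qParam, ← tps_wm2Disc]
  exact hasSum_tps differentiableOn_wm2Disc hlt

end Fermat.Agent.DS.Eis1.WPE6
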