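/-
Programme DS (S48), brick X1-WP (Weierstrass ℘ at torsion points), file 3.
`℘(z;τ) = (2πi)^2 [h(u) + Σ_{m ≥ 1} (h(u q^m) + h(u⁻¹ q^m))] - G₂(τ)` for `z` off the lattice,
`h(x) = x/(1-x)^2`, `u = e^{2πiz}`, `q = e^{2πiτ}`.
-/
import Fermat.Agent.DS.Eis1.WP

set_option autoImplicit false

namespace Fermat.Agent.DS.Eis1.WPq

open UpperHalfPlane hiding I
open Complex Filter Topology EisensteinSeries MatrixGroups Matrix
open Fermat.Agent.DS.Eis1.CotG Fermat.Agent.DS.Eis1.Phi Fermat.Agent.DS.Eis1.Zeta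
  Fermat.Agent.DS.Eis1.ZetaPhi Fermat.Agent.DS.Eis1.WPInv Fermat.Agent.DS.Eis1.WP

noncomputable section

/-- For `‖q‖ < 1` the series `Σ_m h(u q^(m+1))` converges absolutely. -/
lemma summable_hq_mul_pow (u : ℂ) {q : ℂ} (hq' : ‖q‖ < 1) :
    Summable (fun m : ℕ => hq (u * q ^ (m + 1))) := by
  have hg : Summable (fun m : ℕ => 4 * (‖u‖ * ‖q‖ ^ (m + 1))) := by
    have h0 : Summable (fun m : ℕ => ‖q‖ ^ m) :=
      summable_geometric_of_lt_one (norm_nonneg _) hq'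
    have h1 : Summable (fun m : ℕ => ‖q‖ ^ (m + 1)) := (summable_nat_add_iff 1).mpr h0
    exact (h1.mul_left ‖u‖).mul_left 4
  have ht : Tendsto (fun m : ℕ => ‖u‖ * ‖q‖ ^ (m + 1)) atTop (𝓝 0) := by
    have := hg.tendsto_atTop_zero
    have h2 : Tendsto (fun m : ℕ => (1 / 4 : ℝ) * (4 * (‖u‖ * ‖q‖ ^ (m + 1)))) atTop
        (𝓝 ((1 / 4 : ℝ) * 0)) := this.const_mul _
    simpa using h2
  have hev : ∀ᶠ m : ℕ in atTop, ‖u‖ * ‖q‖ ^ (m + 1) ≤ 1 / 2 :=
    ht.eventually (Iic_mem_nhds (by norm_num))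
  refine Summable.of_norm_bounded_eventually_nat hg ?_
  filter_upwards [hev] with m hm
  have : ‖u * q ^ (m + 1)‖ = ‖u‖ * ‖q‖ ^ (m + 1) := by rw [norm_mul, norm_pow]
  calc ‖hq (u * q ^ (m + 1))‖ ≤ 4 * ‖u * q ^ (m + 1)‖ := norm_hq_le (by rw [this]; exact hm)
    _ = 4 * (‖u‖ * ‖q‖ ^ (m + 1)) := by rw [this]

/-- The `m`-th term of the `q`-series of `℘`. -/
def psiTerm (z : ℂ) (τ : ℍ) (m : ℕ) : ℂ :=
  hq (eN z * qq τ ^ (m + 1)) + hq ((eN z)⁻¹ * qq τ ^ (m + 1))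

lemma summable_psiTerm (z : ℂ) (τ : ℍ) : Summable (psiTerm z τ) :=
  (summable_hq_mul_pow _ (norm_qq_lt_one τ)).add (summable_hq_mul_pow _ (norm_qq_lt_one τ))

/-- The `q`-series side. -/
def wpq (z : ℂ) (τ : ℍ) : ℂ :=
  (2 * Real.pi * I) ^ 2 * (hq (eN z) + ∑' m : ℕ, psiTerm z τ m)

/-- The row sums of the ℘ lattice sum. -/
def prow (z : ℂ) (τ : ℍ) (m : ℤ) : ℂ := ∑' n : ℤ, pterm z τ ![m, n]

lemma summable_pterm_prod (z : ℂ) (τ : ℍ) :
    Summable (fun p : ℤ × ℤ => pterm z τ ![p.1, p.2]) := by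
  have := (finTwoArrowEquiv ℤ).symm.summable_iff.mpr (summable_pterm z τ)
  simpa [Function.comp_def, finTwoArrowEquiv_symm_apply] using this

lemma summable_prow_inner (z : ℂ) (τ : ℍ) (m : ℤ) :
    Summable (fun n : ℤ => pterm z τ ![m, n]) :=
  (summable_pterm_prod z τ).prod_factor m

lemma summable_prow (z : ℂ) (τ : ℍ) : Summable (prow z τ) :=
  (summable_pterm_prod z τ).prod

lemma wp_eq_tsum_prow (z : ℂ) (τ : ℍ) : wp z τ = ∑' m : ℤ, prow z τ m := by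
  rw [wp, ← (finTwoArrowEquiv ℤ).symm.tsum_eq]
  simp only [finTwoArrowEquiv_symm_apply]
  exact Summable.tsum_prod' (summable_pterm_prod z τ) (summable_prow_inner z τ)

lemma prow_eq {z : ℂ} {τ : ℍ} (h : OffLat τ z) (m : ℤ) :
    prow z τ m = (2 * Real.pi * I) ^ 2 * hq (eN (z - (m : ℂ) * (τ : ℂ))) - e2Summand m τ := by
  set u : ℂ := (m : ℂ) * (τ : ℂ) with hu
  set w : ℂ := z - u with hw
  have hf := hasSum_pair (summable_prow_inner z τ m).hasSum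
  have hP1 := hasSum_inv_sq (sub_mem_integerComplement h m)
  have hg : HasSum (fun n : ℤ => ((u + n) ^ 2)⁻¹) (e2Summand m τ) := by
    have := (e2Summand_summable m τ).hasSum
    simpa [eisSummand, e2Summand, hu] using this
  have hP3 := hasSum_pair hg
  have hsum := hP1.sub hP3
  have e : (fun n : ℕ => pterm z τ ![m, (n : ℤ) + 1] + pterm z τ ![m, -((n : ℤ) + 1)]) =
      fun n : ℕ => (((w - (n + 1)) ^ 2)⁻¹ + ((w + (n + 1)) ^ 2)⁻¹) -
        (((u + ((n : ℤ) + 1 : ℤ)) ^ 2)⁻¹ + ((u + (-((n : ℤ) + 1) : ℤ)) ^ 2)⁻¹) := by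
    funext n
    simp only [pterm, om_cons]
    push_cast
    have e1 : z - (u + ((n : ℂ) + 1)) = w - ((n : ℂ) + 1) := by rw [hw]; ring
    have e2 : z - (u + -((n : ℂ) + 1)) = w + ((n : ℂ) + 1) := by rw [hw]; ring
    rw [e1, e2]
    ring
  rw [e] at hf
  have key := hf.unique hsum
  have f0 : pterm z τ ![m, 0] = (w ^ 2)⁻¹ - (u ^ 2)⁻¹ := by
    simp only [pterm, om_cons, Int.cast_zero, add_zero]
    rfl
  rw [f0] at key
  simp only [Int.cast_zero, add_zero] at key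
  rw [prow]
  linear_combination key

lemma tendsto_e2Summand_pairs (τ : ℍ) :
    Tendsto (fun N : ℕ => ∑ n ∈ Finset.range N, 2 * e2Summand ((n : ℤ) + 1) τ) atTop
      (𝓝 (G2 τ - e2Summand 0 τ)) := by
  have h0 := hasSum_e2Summand_symmetricIcc τ
  rw [← G2_eq_tsum_cexp, HasSum, SummationFilter.symmetricIcc_eq_map_Icc_nat,
    tendsto_map'_iff] at h0
  have h1 : Tendsto (fun N : ℕ => (∑ m ∈ Finset.Icc (-(N : ℤ)) N, e2Summand m τ) -
      e2Summand 0 τ) atTop (𝓝 (G2 τ - e2Summand 0 τ)) := h0.sub_const _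
  refine h1.congr fun N => ?_
  rw [Finset.sum_Icc_of_even_eq_range (e2Summand_even τ), Finset.sum_range_succ',
    ← Finset.mul_sum]
  simp only [Nat.cast_zero, two_smul, Nat.cast_add, Nat.cast_one]
  ring

/-- The identity `℘ = (2πi)^2 [h(u) + Σ (h(u q^m) + h(u⁻¹ q^m))] - G₂`. -/
theorem wp_eq {z : ℂ} {τ : ℍ} (h : OffLat τ z) : wp z τ = wpq z τ - G2 τ := by
  have hA : HasSum (prow z τ) (wp z τ) := by
    rw [wp_eq_tsum_prow]
    exact (summable_prow z τ).hasSum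
  have hpair := (hasSum_pair hA).tendsto_sum_nat
  have erow : ∀ n : ℕ, prow z τ ((n : ℤ) + 1) + prow z τ (-((n : ℤ) + 1)) =
      (2 * Real.pi * I) ^ 2 * psiTerm z τ n - 2 * e2Summand ((n : ℤ) + 1) τ := by
    intro n
    rw [prow_eq h, prow_eq h]
    have hev : e2Summand (-((n : ℤ) + 1)) τ = e2Summand ((n : ℤ) + 1) τ := e2Summand_even τ _
    rw [hev]
    push_cast
    have e1 : eN (z - -((n : ℂ) + 1) * (τ : ℂ)) = eN z * qq τ ^ (n + 1) := by
      have : z - -((n : ℂ) + 1) * (τ : ℂ) = z + ((n + 1 : ℕ) : ℂ) * (τ : ℂ) := by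
        push_cast
        ring
      rw [this, eN_add, qq, ← eN_mul_nat]
    have e2 : eN (z - ((n : ℂ) + 1) * (τ : ℂ)) = ((eN z)⁻¹ * qq τ ^ (n + 1))⁻¹ := by
      have : z - ((n : ℂ) + 1) * (τ : ℂ) = z - ((n + 1 : ℕ) : ℂ) * (τ : ℂ) := by
        push_cast
        ring
      rw [this, eN_sub, qq, ← eN_mul_nat, mul_inv, inv_inv]
    rw [e1, e2, hq_inv, psiTerm]
    ring
  simp only [erow, Finset.sum_sub_distrib] at hpair
  have hpsi : Tendsto (fun N : ℕ => ∑ n ∈ Finset.range N, (2 * Real.pi * I) ^ 2 * psiTerm z τ n)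
      atTop (𝓝 ((2 * Real.pi * I) ^ 2 * ∑' n, psiTerm z τ n)) :=
    ((summable_psiTerm z τ).hasSum.mul_left _).tendsto_sum_nat
  have hlim := tendsto_nhds_unique hpair (hpsi.sub (tendsto_e2Summand_pairs τ))
  rw [prow_eq h 0] at hlim
  simp only [Int.cast_zero, zero_mul, sub_zero] at hlim
  rw [wpq]
  linear_combination hlim

end

end Fermat.Agent.DS.Eis1.WPq
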