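/-
Programme DS (S48), brick X1-WP (Weierstrass ℘ at torsion points), file 5.
Periodicity of `℘` under the lattice (off the lattice), and the torsion values
`P_b(τ) = ℘((b₀τ+b₁)/M; τ)`: weight two equivariance under `SL(2,ℤ)`, dependence on `b mod M`
only, evenness.
-/
import Fermat.Agent.DS.Eis1.WPq
import Fermat.Agent.DS.Eis1.Torsion

set_option autoImplicit false

namespace Fermat.Agent.DS.Eis1.WPTors

open UpperHalfPlane hiding I
open Complex Filter Topology EisensteinSeries MatrixGroups Matrix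
open Fermat.Agent.DS.Eis1.CotG Fermat.Agent.DS.Eis1.Phi Fermat.Agent.DS.Eis1.Zeta
  Fermat.Agent.DS.Eis1.ZetaPhi Fermat.Agent.DS.Eis1.WPInv Fermat.Agent.DS.Eis1.WP
  Fermat.Agent.DS.Eis1.WPq Fermat.Agent.DS.Eis1.Torsion

noncomputable section

lemma wpq_add_one (z : ℂ) (τ : ℍ) : wpq (z + 1) τ = wpq z τ := by
  have e : eN (z + 1) = eN z := by
    rw [eN_add]
    have := eN_natCast 1
    rw [Nat.cast_one] at this
    rw [this, mul_one]
  unfold wpq psiTerm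
  rw [e]

lemma wpq_add_tau (z : ℂ) (τ : ℍ) : wpq (z + (τ : ℂ)) τ = wpq z τ := by
  set u : ℂ := eN z with hu
  set q : ℂ := qq τ with hq0
  have hqn : q ≠ 0 := qq_ne_zero τ
  have e : eN (z + (τ : ℂ)) = u * q := by rw [eN_add]; rfl
  have hA : Summable (fun m : ℕ => hq (u * q ^ (m + 1))) :=
    summable_hq_mul_pow u (norm_qq_lt_one τ)
  have hB : Summable (fun m : ℕ => hq (u⁻¹ * q ^ (m + 1))) :=
    summable_hq_mul_pow u⁻¹ (norm_qq_lt_one τ)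
  have hB' : Summable (fun m : ℕ => hq (u⁻¹ * q ^ m)) :=
    (summable_nat_add_iff 1).mp hB
  have hA1 : Summable (fun m : ℕ => hq (u * q ^ (m + 1 + 1))) :=
    (summable_nat_add_iff 1).mpr hA
  have e1 : ∀ m : ℕ, psiTerm (z + (τ : ℂ)) τ m =
      hq (u * q ^ (m + 1 + 1)) + hq (u⁻¹ * q ^ m) := by
    intro m
    unfold psiTerm
    rw [e]
    congr 2
    · rw [pow_succ q (m + 1)]
      ring
    · rw [pow_succ q m, mul_inv]
      field_simp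
  have e2 : ∀ m : ℕ, psiTerm z τ m = hq (u * q ^ (m + 1)) + hq (u⁻¹ * q ^ (m + 1)) :=
    fun m => rfl
  have s1 : (∑' m : ℕ, psiTerm (z + (τ : ℂ)) τ m) =
      (∑' m : ℕ, hq (u * q ^ (m + 1 + 1))) + ∑' m : ℕ, hq (u⁻¹ * q ^ m) := by
    rw [tsum_congr e1, hA1.tsum_add hB']
  have s2 : (∑' m : ℕ, psiTerm z τ m) =
      (∑' m : ℕ, hq (u * q ^ (m + 1))) + ∑' m : ℕ, hq (u⁻¹ * q ^ (m + 1)) := by
    rw [tsum_congr e2, hA.tsum_add hB]
  have s3 := hA.tsum_eq_zero_add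
  have s4 := hB'.tsum_eq_zero_add
  simp only [zero_add, pow_one, pow_zero, mul_one] at s3 s4
  unfold wpq
  rw [s1, s2, e, s3, s4, hq_inv]
  ring

lemma wpq_sub_tau (z : ℂ) (τ : ℍ) : wpq (z - (τ : ℂ)) τ = wpq z τ := by
  have := wpq_add_tau (z - (τ : ℂ)) τ
  rw [sub_add_cancel] at this
  exact this.symm

lemma wpq_sub_one (z : ℂ) (τ : ℍ) : wpq (z - 1) τ = wpq z τ := by
  have := wpq_add_one (z - 1) τ
  rw [sub_add_cancel] at this
  exact this.symm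

lemma wpq_add_int (z : ℂ) (τ : ℍ) (n : ℤ) : wpq (z + n) τ = wpq z τ := by
  induction n using Int.induction_on with
  | zero => simp
  | succ n ih => rw [Int.cast_add, Int.cast_one, ← add_assoc, wpq_add_one, ih]
  | pred n ih => rw [Int.cast_sub, Int.cast_one, ← add_sub_assoc, wpq_sub_one, ih]

lemma wpq_add_int_mul_tau (z : ℂ) (τ : ℍ) (m : ℤ) : wpq (z + m * (τ : ℂ)) τ = wpq z τ := by
  induction m using Int.induction_on with
  | zero => simp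
  | succ m ih =>
    have : z + (((m : ℤ) + 1 : ℤ) : ℂ) * (τ : ℂ) = z + ((m : ℤ) : ℂ) * (τ : ℂ) + (τ : ℂ) := by
      rw [Int.cast_add, Int.cast_one]
      ring
    rw [this, wpq_add_tau, ih]
  | pred m ih =>
    have : z + ((-(m : ℤ) - 1 : ℤ) : ℂ) * (τ : ℂ) =
        z + ((-(m : ℤ) : ℤ) : ℂ) * (τ : ℂ) - (τ : ℂ) := by
      rw [Int.cast_sub, Int.cast_one]
      ring
    rw [this, wpq_sub_tau, ih]

lemma wpq_add_lattice (z : ℂ) (τ : ℍ) (m n : ℤ) :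
    wpq (z + (m * (τ : ℂ) + n)) τ = wpq z τ := by
  rw [← add_assoc, wpq_add_int, wpq_add_int_mul_tau]

lemma wpq_neg (z : ℂ) (τ : ℍ) : wpq (-z) τ = wpq z τ := by
  unfold wpq psiTerm
  rw [eN_neg, hq_inv, inv_inv]
  congr 2
  refine tsum_congr fun m => ?_
  ring

/-- Periodicity of `℘` under the lattice `ℤτ + ℤ`, off the lattice. -/
theorem wp_add_lattice {z : ℂ} {τ : ℍ} (h : OffLat τ z) (m n : ℤ) :
    wp (z + (m * (τ : ℂ) + n)) τ = wp z τ := by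
  have h' : OffLat τ (z + (m * (τ : ℂ) + n)) := by
    have := (h.add_int_mul m).add_int n
    rwa [add_assoc] at this
  rw [wp_eq h, wp_eq h', wpq_add_lattice]

/-- The torsion value `P_b(τ) = ℘((b₀τ+b₁)/M; τ)`. -/
def Pb (M : ℕ) (b : Fin 2 → ℤ) (τ : ℍ) : ℂ := wp (zpt M b τ) τ

/-- Weight two equivariance of the torsion values under `SL(2,ℤ)`. -/
theorem Pb_smul (M : ℕ) (γ : SL(2, ℤ)) (b : Fin 2 → ℤ) (τ : ℍ) :
    Pb M b (γ • τ) = (denom γ τ) ^ 2 * Pb M (b ᵥ* (γ : Matrix (Fin 2) (Fin 2) ℤ)) τ := by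
  rw [Pb, Pb, zpt_smul, wp_smul]

/-- `P_b` depends only on `b` modulo `M` (for `b ≢ 0`). -/
theorem Pb_congr {M : ℕ} (hM : M ≠ 0) {b b' : Fin 2 → ℤ}
    (hb : ¬ ((M : ℤ) ∣ b 0 ∧ (M : ℤ) ∣ b 1))
    (h0 : (M : ℤ) ∣ b' 0 - b 0) (h1 : (M : ℤ) ∣ b' 1 - b 1) (τ : ℍ) :
    Pb M b' τ = Pb M b τ := by
  obtain ⟨c0, hc0⟩ := h0
  obtain ⟨c1, hc1⟩ := h1
  have hM' : (M : ℂ) ≠ 0 := by exact_mod_cast hM
  have e : zpt M b' τ = zpt M b τ + (c0 * (τ : ℂ) + c1) := by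
    have e0 : (b' 0 : ℂ) = b 0 + M * c0 := by
      have : b' 0 = b 0 + M * c0 := by linarith
      rw [this]
      push_cast
      ring
    have e1 : (b' 1 : ℂ) = b 1 + M * c1 := by
      have : b' 1 = b 1 + M * c1 := by linarith
      rw [this]
      push_cast
      ring
    rw [zpt, zpt, om, om, e0, e1]
    field_simp
    ring
  rw [Pb, Pb, e, wp_add_lattice (offLat_zpt hM hb τ)]

lemma zpt_neg (M : ℕ) (b : Fin 2 → ℤ) (τ : ℍ) : zpt M (-b) τ = -zpt M b τ := by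
  simp only [zpt, om, Pi.neg_apply, Int.cast_neg]
  ring

/-- `P_{-b} = P_b`. -/
theorem Pb_neg (M : ℕ) (b : Fin 2 → ℤ) (τ : ℍ) : Pb M (-b) τ = Pb M b τ := by
  rw [Pb, Pb, zpt_neg, wp_neg]

/-- Invariance of `P_b` (weight two) under `γ` with `bγ ≡ ± b mod M`. -/
theorem Pb_smul_of_congr {M : ℕ} (hM : M ≠ 0) {γ : SL(2, ℤ)} {b : Fin 2 → ℤ}
    (hb : ¬ ((M : ℤ) ∣ b 0 ∧ (M : ℤ) ∣ b 1))
    (h0 : (M : ℤ) ∣ (b ᵥ* (γ : Matrix (Fin 2) (Fin 2) ℤ)) 0 - b 0)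
    (h1 : (M : ℤ) ∣ (b ᵥ* (γ : Matrix (Fin 2) (Fin 2) ℤ)) 1 - b 1) (τ : ℍ) :
    Pb M b (γ • τ) = (denom γ τ) ^ 2 * Pb M b τ := by
  rw [Pb_smul, Pb_congr hM hb h0 h1]

end

end Fermat.Agent.DS.Eis1.WPTors
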