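/-
Programme DS (S48), brick X1-WP (Weierstrass ℘ at torsion points), file 6.
The `q_M`-expansion of the torsion values `P_b(τ) = ℘((b₀τ+b₁)/M; τ)`, normalised by `(2πi)^2`:
with `t = e^{2πiτ/M}`, `ξ = e^{2πi b₁/M}`,
`P_b/(2πi)^2 = 1/12 + [M ∣ b₀] h(ξ) + Σ_{N ≥ 1} t^N (Σ_{d k = N} k ([d ≡ b₀] ξ^k + [d ≡ -b₀] ξ^{-k})
   - [M ∣ N] 2 σ₁(N/M))`.
-/
import Fermat.Agent.DS.Eis1.WPTors
import Fermat.Agent.DS.Eis1.Lambert2

set_option autoImplicit false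

namespace Fermat.Agent.DS.Eis1.WPExp

open UpperHalfPlane hiding I
open Complex Filter Topology EisensteinSeries MatrixGroups Matrix
open Fermat.Agent.DS.Eis1.CotG Fermat.Agent.DS.Eis1.Phi Fermat.Agent.DS.Eis1.Zeta
  Fermat.Agent.DS.Eis1.ZetaPhi Fermat.Agent.DS.Eis1.WPInv Fermat.Agent.DS.Eis1.WP
  Fermat.Agent.DS.Eis1.WPq Fermat.Agent.DS.Eis1.Torsion Fermat.Agent.DS.Eis1.WPTors
  Fermat.Agent.DS.Eis1.Lambert2
open scoped ArithmeticFunction.sigma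

noncomputable section

/-- The class sum: for `0 < s ≤ M` and `c ≡ s mod M`,
`Σ_{m ≥ 0} h(ξ t^{s+Mm}) = Σ_N t^N Σ_{dk=N, d ≡ c} k ξ^k`. -/
lemma hasSum_class {M : ℕ} {ξ t : ℂ} (hξ : ‖ξ‖ = 1) (ht : ‖t‖ < 1) {s : ℕ} (hs : 0 < s)
    (hsM : s ≤ M) {c : ℤ} (hc : (M : ℤ) ∣ c - s) :
    HasSum (fun N : ℕ => (∑ x ∈ N.divisorsAntidiagonal,
        (x.2 : ℂ) * (if (M : ℤ) ∣ (x.1 : ℤ) - c then ξ ^ x.2 else 0)) * t ^ N)
      (∑' m : ℕ, hq (ξ * t ^ (s + M * m))) := by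
  set F : ℕ → ℕ → ℂ := fun k d => (k : ℂ) * (if (M : ℤ) ∣ (d : ℤ) - c then ξ ^ k else 0) with hF
  have hbound : ∀ k d, ‖F k d‖ ≤ (1 : ℝ) * k := by
    intro k d
    rw [hF]
    simp only
    rw [norm_mul, Complex.norm_natCast, one_mul]
    split_ifs
    · rw [norm_pow, hξ, one_pow, mul_one]
    · rw [norm_zero, mul_zero]
      positivity
  have h1 := hasSum_lambert2 hbound ht
  -- inner sums
  have hinner : ∀ d : ℕ, (∑' k : ℕ, F (k + 1) (d + 1) * t ^ ((d + 1) * (k + 1))) =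
      if (M : ℤ) ∣ ((d + 1 : ℕ) : ℤ) - c then hq (ξ * t ^ (d + 1)) else 0 := by
    intro d
    rw [hF]
    simp only
    split_ifs with hd
    · have hx : ‖ξ * t ^ (d + 1)‖ < 1 := by
        rw [norm_mul, hξ, one_mul, norm_pow]
        exact pow_lt_one₀ (norm_nonneg _) ht (Nat.succ_ne_zero d)
      have h2 := (hasSum_nat_add_iff' 1).mpr (hasSum_hq hx)
      simp only [Finset.range_one, Finset.sum_singleton, Nat.cast_zero, zero_mul, sub_zero] at h2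
      rw [← h2.tsum_eq]
      refine tsum_congr fun k => ?_
      rw [mul_pow, ← pow_mul]
      push_cast
      ring
    · simp
  have hval : (∑' d : ℕ, ∑' k : ℕ, F (k + 1) (d + 1) * t ^ ((d + 1) * (k + 1))) =
      ∑' m : ℕ, hq (ξ * t ^ (s + M * m)) := by
    rw [tsum_congr hinner]
    set f : ℕ → ℂ := fun d => if (M : ℤ) ∣ ((d + 1 : ℕ) : ℤ) - c then hq (ξ * t ^ (d + 1)) else 0
      with hf
    set g : ℕ → ℕ := fun m => s + M * m - 1 with hg
    have hg1 : ∀ m, g m + 1 = s + M * m := by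
      intro m
      rw [hg]
      simp only
      omega
    have hM0 : M ≠ 0 := by omega
    have hginj : Function.Injective g := by
      intro m m' h
      have h2 : g m + 1 = g m' + 1 := by rw [h]
      rw [hg1, hg1] at h2
      have h3 : M * m = M * m' := by omega
      exact Nat.eq_of_mul_eq_mul_left (Nat.pos_of_ne_zero hM0) h3
    have hsupp : Function.support f ⊆ Set.range g := by
      intro d hd
      rw [Function.mem_support, hf] at hd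
      simp only at hd
      split_ifs at hd with hdvd
      · -- `M ∣ (d+1) - c` and `M ∣ c - s` so `M ∣ (d+1) - s`
        have h2 : (M : ℤ) ∣ ((d + 1 : ℕ) : ℤ) - s := by
          have := dvd_add hdvd hc
          rwa [sub_add_sub_cancel] at this
        obtain ⟨j, hj⟩ := h2
        have hj0 : 0 ≤ j := by
          by_contra hneg'
          have hneg : j < 0 := lt_of_not_ge hneg'
          have hMpos : (0 : ℤ) < M := by exact_mod_cast Nat.pos_of_ne_zero hM0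
          have : (M : ℤ) * j ≤ -(M : ℤ) := by nlinarith
          have hsM' : (s : ℤ) ≤ M := by exact_mod_cast hsM
          push_cast at hj
          linarith
        lift j to ℕ using hj0
        refine ⟨j, ?_⟩
        have : g j + 1 = d + 1 := by
          rw [hg1]
          have : ((d + 1 : ℕ) : ℤ) = ((s + M * j : ℕ) : ℤ) := by
            push_cast
            push_cast at hj
            linarith
          exact_mod_cast this.symm
        omega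
      · exact absurd rfl hd
    rw [← hginj.tsum_eq hsupp]
    refine tsum_congr fun m => ?_
    rw [hf]
    simp only
    rw [hg1 m]
    rw [if_pos]
    have : ((s + M * m : ℕ) : ℤ) - c = -(c - s) + M * m := by
      push_cast
      ring
    rw [this]
    exact dvd_add (dvd_neg.mpr hc) (dvd_mul_right _ _)
  rw [hval] at h1
  exact h1

/-- `t = e^{2πiτ/M}`. -/
def tM (M : ℕ) (τ : ℍ) : ℂ := eN ((τ : ℂ) / M)

lemma norm_tM_lt_one {M : ℕ} (hM : M ≠ 0) (τ : ℍ) : ‖tM M τ‖ < 1 := by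
  apply norm_eN_lt_one
  have hMpos : (0 : ℝ) < M := by exact_mod_cast Nat.pos_of_ne_zero hM
  have : ((τ : ℂ) / (M : ℂ)).im = τ.im / M := by
    rw [show ((M : ℂ)) = ((M : ℝ) : ℂ) by push_cast; rfl, Complex.div_ofReal_im]
    rfl
  rw [this]
  exact div_pos τ.im_pos hMpos

lemma tM_ne_zero (M : ℕ) (τ : ℍ) : tM M τ ≠ 0 := eN_ne_zero _

lemma tM_pow {M : ℕ} (hM : M ≠ 0) (τ : ℍ) : tM M τ ^ M = qq τ := by
  have hM' : (M : ℂ) ≠ 0 := by exact_mod_cast hM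
  rw [tM, ← eN_mul_nat, qq]
  congr 1
  field_simp

/-- `ξ_n = e^{2πi n/M}`. -/
def xi (M : ℕ) (n : ℤ) : ℂ := eN ((n : ℂ) / M)

lemma norm_xi (M : ℕ) (n : ℤ) : ‖xi M n‖ = 1 := by
  rw [xi, norm_eN]
  have : ((n : ℂ) / (M : ℂ)).im = 0 := by
    rw [show ((M : ℂ)) = ((M : ℝ) : ℂ) by push_cast; rfl, Complex.div_ofReal_im]
    simp
  rw [this]
  simp

lemma xi_ne_zero (M : ℕ) (n : ℤ) : xi M n ≠ 0 := eN_ne_zero _

lemma xi_neg (M : ℕ) (n : ℤ) : xi M (-n) = (xi M n)⁻¹ := by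
  rw [xi, xi, ← eN_neg]
  congr 1
  push_cast
  ring

lemma xi_add (M : ℕ) (m n : ℤ) : xi M (m + n) = xi M m * xi M n := by
  rw [xi, xi, xi, ← eN_add]
  congr 1
  push_cast
  ring

lemma xi_mul_self {M : ℕ} (hM : M ≠ 0) (c : ℤ) : xi M ((M : ℤ) * c) = 1 := by
  have hM' : (M : ℂ) ≠ 0 := by exact_mod_cast hM
  rw [xi]
  have : (((M : ℤ) * c : ℤ) : ℂ) / (M : ℂ) = (c : ℂ) := by
    push_cast
    field_simp
  rw [this, eN_intCast]

lemma xi_congr {M : ℕ} (hM : M ≠ 0) {m n : ℤ} (h : (M : ℤ) ∣ m - n) : xi M m = xi M n := by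
  obtain ⟨c, hc⟩ := h
  have : m = n + (M : ℤ) * c := by linarith
  rw [this, xi_add, xi_mul_self hM, mul_one]

lemma xi_pow (M : ℕ) (n : ℤ) (k : ℕ) : xi M n ^ k = xi M (n * k) := by
  rw [xi, xi, ← eN_mul_nat]
  congr 1
  push_cast
  ring

lemma eN_zpt {M : ℕ} (b : Fin 2 → ℤ) (τ : ℍ) {r : ℕ} (hr : b 0 = (r : ℤ)) :
    eN (zpt M b τ) = xi M (b 1) * tM M τ ^ r := by
  rw [xi, tM, ← eN_mul_nat, ← eN_add, zpt, om, hr]
  congr 1
  push_cast
  ring

/-- The `q`-expansion of `E₂/12` in the variable `t = q^{1/M}`. -/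
lemma hasSum_E2_tM {M : ℕ} (hM : M ≠ 0) (τ : ℍ) :
    HasSum (fun N : ℕ => ((if N = 0 then (1 / 12 : ℂ) else 0) -
        (if M ∣ N then 2 * ((σ 1 (N / M) : ℕ) : ℂ) else 0)) * tM M τ ^ N) (E2 τ / 12) := by
  have h0 := (hasSum_qExpansion_E2 τ).div_const 12
  have hq1 : cexp (2 * Real.pi * I * (τ : ℂ)) = tM M τ ^ M := (tM_pow hM τ).symm
  set f : ℕ → ℂ := fun N => ((if N = 0 then (1 / 12 : ℂ) else 0) -
        (if M ∣ N then 2 * ((σ 1 (N / M) : ℕ) : ℂ) else 0)) * tM M τ ^ N with hf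
  have hMpos : 0 < M := Nat.pos_of_ne_zero hM
  have hg : Function.Injective (fun m : ℕ => M * m) := fun m m' h =>
    Nat.eq_of_mul_eq_mul_left hMpos h
  have hzero : ∀ x ∉ Set.range (fun m : ℕ => M * m), f x = 0 := by
    intro x hx
    have hx0 : x ≠ 0 := by
      rintro rfl
      exact hx ⟨0, by simp⟩
    have hxd : ¬ M ∣ x := by
      rintro ⟨m, rfl⟩
      exact hx ⟨m, rfl⟩
    rw [hf]
    simp only [if_neg hx0, if_neg hxd, sub_zero, zero_mul]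
  refine (hg.hasSum_iff hzero).mp ?_
  have hfun : (f ∘ fun m : ℕ => M * m) = fun m : ℕ =>
      (if m = 0 then 1 else -24 * ((σ 1 m : ℕ) : ℂ)) • cexp (2 * Real.pi * I * (τ : ℂ)) ^ m / 12 := by
    funext m
    rw [Function.comp_apply, hf]
    simp only
    rw [hq1, ← pow_mul, smul_eq_mul]
    by_cases hm : m = 0
    · subst hm
      simp
    · have hMm : M * m ≠ 0 := Nat.mul_ne_zero hM hm
      rw [if_neg hMm, if_neg hm, if_pos (dvd_mul_right M m), Nat.mul_div_cancel_left m hMpos]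
      ring
  rw [hfun]
  exact h0

/-- The coefficients of the `t`-expansion of `P_b/(2πi)^2`, `t = e^{2πiτ/M}`. -/
def wpCoeff (M : ℕ) (b : Fin 2 → ℤ) (N : ℕ) : ℂ :=
  (if N = 0 then (1 / 12 : ℂ) + (if (M : ℤ) ∣ b 0 then hq (xi M (b 1)) else 0) else 0) +
  (∑ x ∈ N.divisorsAntidiagonal, (x.2 : ℂ) *
    ((if (M : ℤ) ∣ (x.1 : ℤ) - b 0 then xi M (b 1) ^ x.2 else 0) +
     (if (M : ℤ) ∣ (x.1 : ℤ) + b 0 then (xi M (b 1))⁻¹ ^ x.2 else 0))) -
  (if M ∣ N then 2 * ((σ 1 (N / M) : ℕ) : ℂ) else 0)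

lemma two_pi_I_sq : (2 * (Real.pi : ℂ) * I) ^ 2 = -4 * (Real.pi : ℂ) ^ 2 := by
  rw [mul_pow, mul_pow, I_sq]
  ring

lemma two_pi_I_sq_ne_zero : (2 * (Real.pi : ℂ) * I) ^ 2 ≠ 0 := by
  have : (2 * (Real.pi : ℂ) * I) ≠ 0 := by simp [Real.pi_ne_zero]
  exact pow_ne_zero 2 this

lemma G2_eq_E2 (τ : ℍ) : G2 τ = (Real.pi : ℂ) ^ 2 / 3 * E2 τ := by
  have hE : E2 τ = 1 / (2 * riemannZeta 2) * G2 τ := rfl
  have hpi : (Real.pi : ℂ) ≠ 0 := by simp [Real.pi_ne_zero]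
  rw [hE, riemannZeta_two]
  field_simp
  ring

/-- `℘/(2πi)^2 = h(u) + Σ ψ_m + E₂/12` off the lattice. -/
lemma wp_div_eq {z : ℂ} {τ : ℍ} (h : OffLat τ z) :
    wp z τ / (2 * (Real.pi : ℂ) * I) ^ 2 = hq (eN z) + (∑' m : ℕ, psiTerm z τ m) + E2 τ / 12 := by
  have hpi : (Real.pi : ℂ) ≠ 0 := by simp [Real.pi_ne_zero]
  rw [wp_eq h, wpq, G2_eq_E2, two_pi_I_sq]
  field_simp
  ring

theorem hasSum_Pb_reduced {M : ℕ} (hM : M ≠ 0) {b : Fin 2 → ℤ} {r : ℕ} (hr : b 0 = (r : ℤ))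
    (hrM : r < M) (hb : ¬ ((M : ℤ) ∣ b 0 ∧ (M : ℤ) ∣ b 1)) (τ : ℍ) :
    HasSum (fun N : ℕ => wpCoeff M b N * tM M τ ^ N)
      (Pb M b τ / (2 * (Real.pi : ℂ) * I) ^ 2) := by
  set t : ℂ := tM M τ with ht0
  set ξ : ℂ := xi M (b 1) with hξ0
  set z : ℂ := zpt M b τ with hz0
  have ht : ‖t‖ < 1 := norm_tM_lt_one hM τ
  have htn : t ≠ 0 := tM_ne_zero M τ
  have hξ : ‖ξ‖ = 1 := norm_xi M (b 1)
  have hξ' : ‖ξ⁻¹‖ = 1 := by rw [norm_inv, hξ, inv_one]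
  have hu : eN z = ξ * t ^ r := eN_zpt b τ hr
  have hq1 : qq τ = t ^ M := (tM_pow hM τ).symm
  have hqlt : ‖qq τ‖ < 1 := norm_qq_lt_one τ
  have hoff : OffLat τ z := offLat_zpt hM hb τ
  rw [Pb, wp_div_eq hoff]
  -- split the psi sum
  have hA : Summable (fun m : ℕ => hq (eN z * qq τ ^ (m + 1))) := summable_hq_mul_pow _ hqlt
  have hB : Summable (fun m : ℕ => hq ((eN z)⁻¹ * qq τ ^ (m + 1))) := summable_hq_mul_pow _ hqlt
  have hpsi : (∑' m : ℕ, psiTerm z τ m) =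
      (∑' m : ℕ, hq (eN z * qq τ ^ (m + 1))) + ∑' m : ℕ, hq ((eN z)⁻¹ * qq τ ^ (m + 1)) := by
    rw [← hA.tsum_add hB]
    rfl
  rw [hpsi]
  -- second class: `d ≡ -b₀`
  have hc2 : (M : ℤ) ∣ -b 0 - ((M - r : ℕ) : ℤ) := by
    rw [hr, Nat.cast_sub hrM.le]
    exact ⟨-1, by ring⟩
  have class2 := hasSum_class (M := M) hξ' ht (s := M - r) (by omega) (by omega) hc2
  have hS2 : (∑' m : ℕ, hq ((eN z)⁻¹ * qq τ ^ (m + 1))) =
      ∑' m : ℕ, hq (ξ⁻¹ * t ^ (M - r + M * m)) := by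
    refine tsum_congr fun m => ?_
    congr 1
    rw [hu, hq1, ← pow_mul, mul_inv]
    have e : M * (m + 1) = r + (M - r + M * m) := by
      rw [Nat.mul_succ]
      omega
    rw [e, pow_add]
    field_simp
  rw [hS2, ← add_assoc]
  simp only [sub_neg_eq_add] at class2
  have hE := hasSum_E2_tM hM τ
  rw [← ht0] at hE
  by_cases hr0 : r = 0
  · -- `b₀ = 0`
    subst hr0
    have hb0 : (M : ℤ) ∣ b 0 := by rw [hr]; simp
    have hc1 : (M : ℤ) ∣ b 0 - ((M : ℕ) : ℤ) := by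
      rw [hr]
      exact ⟨-1, by push_cast; ring⟩
    have class1 := hasSum_class (M := M) hξ ht (s := M) (Nat.pos_of_ne_zero hM) le_rfl hc1
    have hS1 : (∑' m : ℕ, hq (eN z * qq τ ^ (m + 1))) =
        ∑' m : ℕ, hq (ξ * t ^ (M + M * m)) := by
      refine tsum_congr fun m => ?_
      congr 1
      rw [hu, hq1, ← pow_mul, pow_zero, mul_one, Nat.mul_succ, add_comm (M * m) M]
    rw [hS1, hu, pow_zero, mul_one]
    have hconst : HasSum (fun N : ℕ => (if N = 0 then hq ξ else 0) * t ^ N) (hq ξ) := by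
      have h := hasSum_ite_eq (0 : ℕ) (hq ξ)
      have hfun : (fun N : ℕ => (if N = 0 then hq ξ else 0) * t ^ N) =
          fun N : ℕ => if N = 0 then hq ξ else 0 := by
        funext N
        by_cases hN : N = 0
        · subst hN
          simp
        · simp [hN]
      rw [hfun]
      exact h
    have htot := ((hconst.add class1).add class2).add hE
    have hfun : (fun N : ℕ => wpCoeff M b N * t ^ N) = fun N : ℕ =>
        (if N = 0 then hq ξ else 0) * t ^ N +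
          (∑ x ∈ N.divisorsAntidiagonal, (x.2 : ℂ) *
            if (M : ℤ) ∣ (x.1 : ℤ) - b 0 then ξ ^ x.2 else 0) * t ^ N +
          (∑ x ∈ N.divisorsAntidiagonal, (x.2 : ℂ) *
            if (M : ℤ) ∣ (x.1 : ℤ) + b 0 then ξ⁻¹ ^ x.2 else 0) * t ^ N +
          ((if N = 0 then (1 / 12 : ℂ) else 0) -
            if M ∣ N then 2 * ((σ 1 (N / M) : ℕ) : ℂ) else 0) * t ^ N := by
      funext N
      simp only [wpCoeff, if_pos hb0, mul_add, Finset.sum_add_distrib]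
      by_cases hN : N = 0
      · subst hN
        simp only [if_true]
        ring
      · simp only [if_neg hN]
        ring
    rw [hfun]
    exact htot
  · -- `0 < b₀ < M`
    have hb0 : ¬ (M : ℤ) ∣ b 0 := by
      rw [hr]
      intro h
      have h2 : M ∣ r := by exact_mod_cast h
      have := Nat.le_of_dvd (Nat.pos_of_ne_zero hr0) h2
      omega
    have hc1 : (M : ℤ) ∣ b 0 - ((r : ℕ) : ℤ) := by
      rw [hr, sub_self]
      exact dvd_zero _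
    have class1 := hasSum_class (M := M) hξ ht (s := r) (Nat.pos_of_ne_zero hr0) hrM.le hc1
    have hA' : Summable (fun m : ℕ => hq (eN z * qq τ ^ m)) := (summable_nat_add_iff 1).mp hA
    have hS1 : hq (eN z) + (∑' m : ℕ, hq (eN z * qq τ ^ (m + 1))) =
        ∑' m : ℕ, hq (ξ * t ^ (r + M * m)) := by
      have h1 := hA'.tsum_eq_zero_add
      simp only [pow_zero, mul_one] at h1
      rw [← h1]
      refine tsum_congr fun m => ?_
      congr 1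
      rw [hu, hq1, ← pow_mul, pow_add, mul_assoc]
    rw [hS1]
    have htot := (class1.add class2).add hE
    have hfun : (fun N : ℕ => wpCoeff M b N * t ^ N) = fun N : ℕ =>
          (∑ x ∈ N.divisorsAntidiagonal, (x.2 : ℂ) *
            if (M : ℤ) ∣ (x.1 : ℤ) - b 0 then ξ ^ x.2 else 0) * t ^ N +
          (∑ x ∈ N.divisorsAntidiagonal, (x.2 : ℂ) *
            if (M : ℤ) ∣ (x.1 : ℤ) + b 0 then ξ⁻¹ ^ x.2 else 0) * t ^ N +
          ((if N = 0 then (1 / 12 : ℂ) else 0) -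
            if M ∣ N then 2 * ((σ 1 (N / M) : ℕ) : ℂ) else 0) * t ^ N := by
      funext N
      simp only [wpCoeff, if_neg hb0, mul_add, Finset.sum_add_distrib, add_zero]
      by_cases hN : N = 0
      · subst hN
        simp only [if_true]
        ring
      · simp only [if_neg hN]
        ring
    rw [hfun]
    exact htot

lemma wpCoeff_congr {M : ℕ} (hM : M ≠ 0) {b b' : Fin 2 → ℤ}
    (h0 : (M : ℤ) ∣ b' 0 - b 0) (h1 : (M : ℤ) ∣ b' 1 - b 1) (N : ℕ) :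
    wpCoeff M b' N = wpCoeff M b N := by
  have hx : xi M (b' 1) = xi M (b 1) := xi_congr hM h1
  have e0 : (M : ℤ) ∣ b' 0 ↔ (M : ℤ) ∣ b 0 := Int.dvd_iff_dvd_of_dvd_sub h0
  have e1 : ∀ d : ℤ, (M : ℤ) ∣ d - b' 0 ↔ (M : ℤ) ∣ d - b 0 := by
    intro d
    apply Int.dvd_iff_dvd_of_dvd_sub
    have : d - b' 0 - (d - b 0) = -(b' 0 - b 0) := by ring
    rw [this]
    exact dvd_neg.mpr h0
  have e2 : ∀ d : ℤ, (M : ℤ) ∣ d + b' 0 ↔ (M : ℤ) ∣ d + b 0 := by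
    intro d
    apply Int.dvd_iff_dvd_of_dvd_sub
    have : d + b' 0 - (d + b 0) = b' 0 - b 0 := by ring
    rw [this]
    exact h0
  unfold wpCoeff
  simp only [hx, e0, e1, e2]

/-- **The `q_M`-expansion of the torsion values of `℘`** (at the cusp `∞`; the expansion at the
other cusps follows from `Pb_smul`). -/
theorem hasSum_Pb {M : ℕ} (hM : M ≠ 0) {b : Fin 2 → ℤ}
    (hb : ¬ ((M : ℤ) ∣ b 0 ∧ (M : ℤ) ∣ b 1)) (τ : ℍ) :
    HasSum (fun N : ℕ => wpCoeff M b N * tM M τ ^ N)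
      (Pb M b τ / (2 * (Real.pi : ℂ) * I) ^ 2) := by
  have hMz : (M : ℤ) ≠ 0 := by exact_mod_cast hM
  have hMpos : (0 : ℤ) < M := by exact_mod_cast Nat.pos_of_ne_zero hM
  have hnn : 0 ≤ b 0 % (M : ℤ) := Int.emod_nonneg _ hMz
  have hlt : b 0 % (M : ℤ) < M := Int.emod_lt_of_pos _ hMpos
  set r : ℕ := (b 0 % (M : ℤ)).toNat with hr0
  have hrr : ((r : ℕ) : ℤ) = b 0 % (M : ℤ) := Int.toNat_of_nonneg hnn
  set b' : Fin 2 → ℤ := ![b 0 % (M : ℤ), b 1] with hb'0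
  have hr : b' 0 = (r : ℤ) := by rw [hrr]; rfl
  have hrM : r < M := by
    have : ((r : ℕ) : ℤ) < M := by rw [hrr]; exact hlt
    exact_mod_cast this
  have h0 : (M : ℤ) ∣ b' 0 - b 0 := by
    refine ⟨-(b 0 / (M : ℤ)), ?_⟩
    show b 0 % (M : ℤ) - b 0 = _
    rw [Int.emod_def]
    ring
  have h1 : (M : ℤ) ∣ b' 1 - b 1 := by
    show (M : ℤ) ∣ b 1 - b 1
    rw [sub_self]
    exact dvd_zero _
  have hbb : ¬ ((M : ℤ) ∣ b' 0 ∧ (M : ℤ) ∣ b' 1) := by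
    rintro ⟨ha, hc⟩
    exact hb ⟨(Int.dvd_iff_dvd_of_dvd_sub h0).mp ha, hc⟩
  have key := hasSum_Pb_reduced hM hr hrM hbb τ
  rw [Pb_congr hM hb h0 h1 τ] at key
  have hfun : (fun N : ℕ => wpCoeff M b N * tM M τ ^ N) =
      fun N : ℕ => wpCoeff M b' N * tM M τ ^ N := by
    funext N
    rw [wpCoeff_congr hM h0 h1]
  rw [hfun]
  exact key

/-- The rational coefficients of the `q`-expansion of `τ ↦ ℘(aτ; Mτ)/(2πi)^2`, `M ∤ a`. -/
def wpRat (M : ℕ) (a : ℤ) (N : ℕ) : ℚ :=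
  (if N = 0 then (1 / 12 : ℚ) else 0) +
  (∑ x ∈ N.divisorsAntidiagonal, (x.2 : ℚ) *
    ((if (M : ℤ) ∣ (x.1 : ℤ) - a then 1 else 0) + (if (M : ℤ) ∣ (x.1 : ℤ) + a then 1 else 0))) -
  (if M ∣ N then 2 * ((σ 1 (N / M) : ℕ) : ℚ) else 0)

lemma xi_zero (M : ℕ) : xi M 0 = 1 := by
  rw [xi]
  simp [eN_zero]

lemma wpCoeff_rat {M : ℕ} {a : ℤ} (ha : ¬ (M : ℤ) ∣ a) (N : ℕ) :
    wpCoeff M ![a, 0] N = ((wpRat M a N : ℚ) : ℂ) := by
  unfold wpCoeff wpRat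
  have h0 : (![a, 0] : Fin 2 → ℤ) 0 = a := rfl
  have h1 : (![a, 0] : Fin 2 → ℤ) 1 = 0 := rfl
  rw [h0, h1, xi_zero, if_neg ha]
  push_cast
  simp only [inv_one, one_pow, add_zero]
  congr 1
  congr 1
  · split_ifs <;> simp
  · refine Finset.sum_congr rfl fun x _ => ?_
    congr 1
    split_ifs <;> simp
  · split_ifs <;> simp

/-- **Rational `q`-expansion** of `τ' ↦ ℘(aτ; Mτ)/(2πi)^2` in integer powers of `q = e^{2πiτ}`:
`τ'` is any point with `τ' = Mτ`. -/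
theorem hasSum_Pb_rat {M : ℕ} (hM : M ≠ 0) {a : ℤ} (ha : ¬ (M : ℤ) ∣ a) {τ τ' : ℍ}
    (h : (τ' : ℂ) = M * (τ : ℂ)) :
    HasSum (fun N : ℕ => ((wpRat M a N : ℚ) : ℂ) * qq τ ^ N)
      (Pb M ![a, 0] τ' / (2 * (Real.pi : ℂ) * I) ^ 2) := by
  have hM' : (M : ℂ) ≠ 0 := by exact_mod_cast hM
  have hb : ¬ ((M : ℤ) ∣ (![a, 0] : Fin 2 → ℤ) 0 ∧ (M : ℤ) ∣ (![a, 0] : Fin 2 → ℤ) 1) := by
    rintro ⟨h0, -⟩
    exact ha h0
  have key := hasSum_Pb hM hb τ'
  have ht : tM M τ' = qq τ := by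
    rw [tM, qq, h]
    congr 1
    field_simp
  rw [ht] at key
  have hfun : (fun N : ℕ => ((wpRat M a N : ℚ) : ℂ) * qq τ ^ N) =
      fun N : ℕ => wpCoeff M ![a, 0] N * qq τ ^ N := by
    funext N
    rw [wpCoeff_rat ha]
  rw [hfun]
  exact key

end

end Fermat.Agent.DS.Eis1.WPExp
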