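/-
Programme DS (S48), brick X1-WP (Weierstrass ℘ at torsion points), file 8.
The weight zero Fricke family `F_b = 12 · (E₄ E₆ / Δ) · ℘((b₀τ+b₁)/M; τ)/(2πi)^2`, `b ≢ 0 mod M`:
`F_b(γτ) = F_{bγ}(τ)` for all `γ ∈ SL(2,ℤ)`, dependence on `± b mod M` only, and the
`q_M`-expansion `F_b = q_M^{-M} · frSeries(q_M)` in the `IsQExp` vocabulary of `X0/AnDefs`;
holomorphy on `ℍ`.
-/
import Fermat.Agent.DS.Eis1.WPExp
import Fermat.Agent.DS.Eis1.WPE6

set_option autoImplicit false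

noncomputable section

namespace Fermat.Agent.DS.Eis1.WPFricke

open Fermat.Agent.X0
open UpperHalfPlane hiding I
open Complex Filter Topology MatrixGroups Matrix
open Fermat.Agent.DS.Eis1.CotG Fermat.Agent.DS.Eis1.Phi Fermat.Agent.DS.Eis1.Zeta
  Fermat.Agent.DS.Eis1.WPInv Fermat.Agent.DS.Eis1.WP
  Fermat.Agent.DS.Eis1.Torsion Fermat.Agent.DS.Eis1.WPTors
  Fermat.Agent.DS.Eis1.WPExp Fermat.Agent.DS.Eis1.WPE6
open scoped Manifold

/-- `q_M = t`. -/
lemma qh_eq_tM (M : ℕ) (τ : ℍ) : qh M τ = tM M τ := by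
  unfold qh Function.Periodic.qParam tM eN
  congr 1
  push_cast
  ring

/-- A function with a `q_h`-expansion is holomorphic on `ℍ`. -/
theorem mem_HolH_of_isQExp {h : ℕ} [NeZero h] {f : ℍ → ℂ} {m : ℕ} {P : PowerSeries ℂ}
    (hP : IsQExp h f m P) : f ∈ HolH := by
  rw [mem_HolH, UpperHalfPlane.mdifferentiable_iff]
  set G : ℂ → ℂ := fun q : ℂ => ∑' n : ℕ, PowerSeries.coeff n P * q ^ n with hG
  have hfp := hP.hasFPowerSeriesOnBall
  have hdiff : DifferentiableOn ℂ G (Metric.ball 0 1) := by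
    have h1 := hfp.differentiableOn
    have h2 : Metric.eball (0 : ℂ) 1 = Metric.ball (0 : ℂ) 1 := by
      rw [← ENNReal.ofReal_one, Metric.eball_ofReal]
    rwa [h2] at h1
  have hh : (0 : ℝ) < h := by exact_mod_cast Nat.pos_of_ne_zero (NeZero.ne h)
  have key : ∀ w : ℂ, 0 < w.im → (f ∘ UpperHalfPlane.ofComplex) w
      = G (Function.Periodic.qParam h w) / Function.Periodic.qParam h w ^ m := by
    intro w hw
    have h1 := (hP ⟨w, hw⟩).tsum_eq
    have hq : Function.Periodic.qParam h w ≠ 0 := Function.Periodic.qParam_ne_zero _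
    rw [Function.comp_apply, UpperHalfPlane.ofComplex_apply_of_im_pos hw, eq_div_iff
      (pow_ne_zero _ hq)]
    exact h1.symm
  have hd : DifferentiableOn ℂ
      (fun w : ℂ => G (Function.Periodic.qParam h w) / Function.Periodic.qParam h w ^ m)
      {w : ℂ | 0 < w.im} := by
    intro w hw
    have hq : Function.Periodic.qParam h w ≠ 0 := Function.Periodic.qParam_ne_zero _
    have hb : Function.Periodic.qParam h w ∈ Metric.ball (0 : ℂ) 1 := by
      rw [mem_ball_zero_iff]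
      exact Function.Periodic.norm_qParam_lt_one hh hw
    have h1 : DifferentiableAt ℂ G (Function.Periodic.qParam h w) :=
      hdiff.differentiableAt (Metric.isOpen_ball.mem_nhds hb)
    have h2 : DifferentiableAt ℂ (Function.Periodic.qParam h) w :=
      Function.Periodic.differentiable_qParam w
    exact ((h1.comp w h2).div (h2.pow m) (pow_ne_zero _ hq)).differentiableWithinAt
  exact hd.congr fun w hw => key w hw

variable (M : ℕ)

/-- The normalised torsion value `P_b/(2πi)^2`. -/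
def PbN (b : Fin 2 → ℤ) : ℍ → ℂ := fun τ => Pb M b τ / (2 * (Real.pi : ℂ) * I) ^ 2

/-- The coefficient series of `P_b/(2πi)^2` in `q_M`. -/
def wpSeries (b : Fin 2 → ℤ) : PowerSeries ℂ := PowerSeries.mk (wpCoeff M b)

theorem isQExp_PbN [NeZero M] {b : Fin 2 → ℤ} (hb : ¬ ((M : ℤ) ∣ b 0 ∧ (M : ℤ) ∣ b 1)) :
    IsQExp M (PbN M b) 0 (wpSeries M b) := by
  intro τ
  have h := hasSum_Pb (NeZero.ne M) hb τ
  rw [pow_zero, mul_one, qh_eq_tM]
  simpa [wpSeries, PbN] using h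

theorem PbN_smul (γ : SL(2, ℤ)) (b : Fin 2 → ℤ) (τ : ℍ) :
    PbN M b (γ • τ) = (denom γ τ) ^ 2 * PbN M (b ᵥ* (γ : Matrix (Fin 2) (Fin 2) ℤ)) τ := by
  rw [PbN, PbN, Pb_smul]
  ring

/-- The Fricke family (weight zero). -/
def fr (b : Fin 2 → ℤ) : ℍ → ℂ := fun τ => 12 * (wm2 τ * PbN M b τ)

/-- **Equivariance of the Fricke family** under all of `SL(2,ℤ)`. -/
theorem fr_smul (γ : SL(2, ℤ)) (b : Fin 2 → ℤ) (τ : ℍ) :
    fr M b (γ • τ) = fr M (b ᵥ* (γ : Matrix (Fin 2) (Fin 2) ℤ)) τ := by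
  have hd : (denom γ τ : ℂ) ≠ 0 := denom_ne_zero γ τ
  rw [fr, fr, wm2_smul, PbN_smul]
  field_simp

theorem compSL_fr (γ : SL(2, ℤ)) (b : Fin 2 → ℤ) :
    compSL (fr M b) γ = fr M (b ᵥ* (γ : Matrix (Fin 2) (Fin 2) ℤ)) := by
  funext τ
  exact fr_smul M γ b τ

theorem fr_congr {M : ℕ} (hM : M ≠ 0) {b b' : Fin 2 → ℤ}
    (hb : ¬ ((M : ℤ) ∣ b 0 ∧ (M : ℤ) ∣ b 1))
    (h0 : (M : ℤ) ∣ b' 0 - b 0) (h1 : (M : ℤ) ∣ b' 1 - b 1) : fr M b' = fr M b := by
  funext τ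
  rw [fr, fr, PbN, PbN, Pb_congr hM hb h0 h1]

theorem fr_neg (b : Fin 2 → ℤ) : fr M (-b) = fr M b := by
  funext τ
  rw [fr, fr, PbN, PbN, Pb_neg]

/-- The coefficient series of `F_b` in `q_M` (after multiplication by `q_M^M = q`). -/
def frSeries [hM : NeZero M] (b : Fin 2 → ℤ) : PowerSeries ℂ :=
  (12 : ℂ) • (((wm2Z.map (Int.castRingHom ℂ)).expand M hM.ne) * wpSeries M b)

theorem isQExp_wm2_level [NeZero M] :
    IsQExp M wm2 M ((wm2Z.map (Int.castRingHom ℂ)).expand M (NeZero.ne M)) := by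
  have h := isQExp_wm2.level_mul M
  rwa [one_mul] at h

/-- **The `q_M`-expansion of the Fricke family** at `∞` (hence, by `fr_smul`, at every cusp). -/
theorem isQExp_fr [NeZero M] {b : Fin 2 → ℤ} (hb : ¬ ((M : ℤ) ∣ b 0 ∧ (M : ℤ) ∣ b 1)) :
    IsQExp M (fr M b) M (frSeries M b) := by
  have h1 := (isQExp_wm2_level M).mul (isQExp_PbN M hb)
  have h2 := h1.smul 12
  rw [add_zero] at h2
  have hfun : ((12 : ℂ) • (wm2 * PbN M b)) = fr M b := by
    funext τ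
    simp [fr]
  rw [hfun] at h2
  exact h2

theorem fr_mem_HolH [NeZero M] {b : Fin 2 → ℤ} (hb : ¬ ((M : ℤ) ∣ b 0 ∧ (M : ℤ) ∣ b 1)) :
    fr M b ∈ HolH :=
  mem_HolH_of_isQExp (isQExp_fr M hb)

theorem PbN_mem_HolH [NeZero M] {b : Fin 2 → ℤ} (hb : ¬ ((M : ℤ) ∣ b 0 ∧ (M : ℤ) ∣ b 1)) :
    PbN M b ∈ HolH :=
  mem_HolH_of_isQExp (isQExp_PbN M hb)

end Fermat.Agent.DS.Eis1.WPFricke
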