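/-
Programme DS (S48), brick X1-WP (Weierstrass ℘ at torsion points), file 9.
The isogeny (distribution) relation for the lattices `ℤMτ + ℤ ⊆ ℤτ + ℤ` (after scaling):
`℘(Mz; Mτ) = M⁻² Σ_{k < M} [℘(z - k/M; τ) - ℘(-k/M; τ)]`,
proved by regrouping the absolutely convergent lattice sum; consequence for the torsion values
`P_{(a,0)}(Mτ) = M⁻² Σ_k [P_{(a,-k)}(τ) - P_{(0,-k)}(τ)]`.
-/
import Fermat.Agent.DS.Eis1.WPFricke

set_option autoImplicit false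

noncomputable section

namespace Fermat.Agent.DS.Eis1.WPIsog

open Fermat.Agent.X0
open UpperHalfPlane hiding I
open Complex Filter Topology MatrixGroups Matrix
open Fermat.Agent.DS.Eis1.CotG Fermat.Agent.DS.Eis1.Phi Fermat.Agent.DS.Eis1.Zeta
  Fermat.Agent.DS.Eis1.ZetaPhi Fermat.Agent.DS.Eis1.WPInv Fermat.Agent.DS.Eis1.WP
  Fermat.Agent.DS.Eis1.WPq Fermat.Agent.DS.Eis1.Torsion Fermat.Agent.DS.Eis1.WPTors
  Fermat.Agent.DS.Eis1.WPExp Fermat.Agent.DS.Eis1.WPE6 Fermat.Agent.DS.Eis1.WPFricke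

variable (M : ℕ) [NeZero M]

/-- `(k, (p₀, n)) ↦ (p₀, n M + k)`. -/
def splitEquiv : Fin M × (ℤ × ℤ) ≃ ℤ × ℤ :=
  (Equiv.prodComm _ _).trans ((Equiv.prodAssoc ℤ ℤ (Fin M)).trans
    (Equiv.prodCongr (Equiv.refl ℤ) (Int.divModEquiv M).symm))

lemma splitEquiv_apply (k : Fin M) (p : ℤ × ℤ) :
    splitEquiv M (k, p) = (p.1, p.2 * M + ((k : ℕ) : ℤ)) := rfl

lemma wp_eq_tsum_prod (z : ℂ) (τ : ℍ) : wp z τ = ∑' p : ℤ × ℤ, pterm z τ ![p.1, p.2] := by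
  rw [wp, ← (finTwoArrowEquiv ℤ).symm.tsum_eq]
  simp only [finTwoArrowEquiv_symm_apply]

lemma pterm_scale (z : ℂ) (τ : ℍ) (k : Fin M) (p : ℤ × ℤ) :
    pterm ((M : ℂ) * z) (scaleH M τ) ![p.1, p.2 * M + ((k : ℕ) : ℤ)] =
      ((M : ℂ) ^ 2)⁻¹ * (pterm (z - ((k : ℕ) : ℂ) / M) τ ![p.1, p.2] -
        pterm (-(((k : ℕ) : ℂ) / M)) τ ![p.1, p.2]) := by
  have hM : (M : ℂ) ≠ 0 := by exact_mod_cast NeZero.ne M
  simp only [pterm, om_cons, coe_scaleH]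
  set ω : ℂ := (p.1 : ℂ) * (τ : ℂ) + (p.2 : ℂ) with hω
  set c : ℂ := ((k : ℕ) : ℂ) / M with hc
  have e2 : ((p.1 : ℤ) : ℂ) * ((M : ℂ) * (τ : ℂ)) + ((p.2 * (M : ℤ) + ((k : ℕ) : ℤ) : ℤ) : ℂ) =
      (M : ℂ) * (c + ω) := by
    rw [hc, hω]
    push_cast
    field_simp
    ring
  have e1 : (M : ℂ) * z - (M : ℂ) * (c + ω) = (M : ℂ) * (z - c - ω) := by ring
  have e3 : (-c - ω) ^ 2 = (c + ω) ^ 2 := by ring
  rw [e2, e1, mul_pow, mul_pow, mul_inv, mul_inv, e3]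
  ring

set_option maxHeartbeats 1600000 in
/-- **The isogeny relation** for `℘`. -/
theorem wp_isog (z : ℂ) (τ : ℍ) :
    wp ((M : ℂ) * z) (scaleH M τ) = ((M : ℂ) ^ 2)⁻¹ *
      ∑ k : Fin M, (wp (z - ((k : ℕ) : ℂ) / M) τ - wp (-(((k : ℕ) : ℂ) / M)) τ) := by
  have hs := summable_pterm_prod ((M : ℂ) * z) (scaleH M τ)
  have hs' : Summable (fun x : Fin M × (ℤ × ℤ) =>
      pterm ((M : ℂ) * z) (scaleH M τ) ![(splitEquiv M x).1, (splitEquiv M x).2]) :=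
    (splitEquiv M).summable_iff.mpr hs
  rw [wp_eq_tsum_prod, ← (splitEquiv M).tsum_eq, hs'.tsum_prod, tsum_fintype, Finset.mul_sum]
  refine Finset.sum_congr rfl fun k _ => ?_
  have h1 := summable_pterm_prod (z - ((k : ℕ) : ℂ) / M) τ
  have h2 := summable_pterm_prod (-(((k : ℕ) : ℂ) / M)) τ
  rw [wp_eq_tsum_prod, wp_eq_tsum_prod, ← h1.tsum_sub h2, ← tsum_mul_left]
  refine tsum_congr fun p => ?_
  rw [splitEquiv_apply]
  exact pterm_scale M z τ k p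

/-- The isogeny relation for torsion values: `P_{(a,0)}(Mτ) = M⁻² Σ_k [P_{(a,-k)}(τ) - P_{(0,-k)}(τ)]`. -/
theorem Pb_isog (a : ℤ) (τ : ℍ) :
    Pb M ![a, 0] (scaleH M τ) = ((M : ℂ) ^ 2)⁻¹ *
      ∑ k : Fin M, (Pb M ![a, -((k : ℕ) : ℤ)] τ - Pb M ![0, -((k : ℕ) : ℤ)] τ) := by
  have hM : (M : ℂ) ≠ 0 := by exact_mod_cast NeZero.ne M
  have e0 : zpt M ![a, 0] (scaleH M τ) = (M : ℂ) * zpt M ![a, 0] τ := by
    simp only [zpt, om_cons, coe_scaleH]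
    push_cast
    field_simp
    ring
  have e1 : ∀ k : Fin M, zpt M ![a, 0] τ - ((k : ℕ) : ℂ) / M = zpt M ![a, -((k : ℕ) : ℤ)] τ := by
    intro k
    simp only [zpt, om_cons]
    push_cast
    ring
  have e2 : ∀ k : Fin M, -(((k : ℕ) : ℂ) / M) = zpt M ![0, -((k : ℕ) : ℤ)] τ := by
    intro k
    simp only [zpt, om_cons]
    push_cast
    ring
  unfold Pb
  rw [e0, wp_isog]
  congr 1
  refine Finset.sum_congr rfl fun k _ => ?_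
  rw [e1, e2]

/-- The difference form (normalised): the terms `P_{(0,-k)}` cancel. -/
theorem PbN_isog_sub (a b : ℤ) (τ : ℍ) :
    PbN M ![a, 0] (scaleH M τ) - PbN M ![b, 0] (scaleH M τ) = ((M : ℂ) ^ 2)⁻¹ *
      ∑ k : Fin M, (PbN M ![a, -((k : ℕ) : ℤ)] τ - PbN M ![b, -((k : ℕ) : ℤ)] τ) := by
  unfold PbN
  rw [Pb_isog, Pb_isog, ← sub_div, ← mul_sub, ← Finset.sum_sub_distrib, mul_div_assoc,
    Finset.sum_div]
  congr 1
  refine Finset.sum_congr rfl fun k _ => ?_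
  ring

end Fermat.Agent.DS.Eis1.WPIsog
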